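import Fermat.Agent.RT.AtP.Ring
import Fermat.Agent.Semistable.PTorsKey

/-!
# Automorphisms fixing the crossings and local approximability

A semilinear automorphism compatible with both reductions preserves congruences; if it fixes a
crossing it preserves local approximability there.
-/

set_option autoImplicit false
set_option linter.unusedSectionVars false

noncomputable section

open AlgebraicCurve AlgebraicCurve.SemilinearAut

namespace FLTAgent.RT.AtP

open FLTAgent.GoodRed FLTAgent.GoodRed.RedDatum FLTAgent.FunctionField FLTAgent.Semistable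

variable {L k : Type*} [Field L] [Field k] {A : ValuationSubring L} {π : A →+* k}
  {F C C' : Type*} [Field F] [Algebra L F] [Field C] [Algebra k C] [Field C'] [Algebra k C']
  [IsFunctionField L F] [IsFunctionField k C] [IsFunctionField k C'] [IsAlgClosed L]
  [IsAlgClosed k] {D : RedDatum A π F C} {D' : RedDatum A π F C'} {ι : Type*} [Fintype ι]
  {N : NodeSystem D D' ι} (T : NodeSystem.NodeAut N)

theorem autV {y : F} (hy : y ∈ D.V) : toRingAut T.s y ∈ D.V := by
  obtain ⟨a, ha⟩ := exists_red hy
  exact (T.red _ _ ha).mem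

theorem autV' {y : F} (hy : y ∈ D'.V) : toRingAut T.s y ∈ D'.V := by
  obtain ⟨a, ha⟩ := exists_red hy
  exact (T.red' _ _ ha).mem

theorem toRingAut_smul (a : L) (y : F) :
    toRingAut T.s (a • y) = baseAut T.s a • toRingAut T.s y := by
  rw [Algebra.smul_def, Algebra.smul_def, map_mul, SemilinearAut.commutes]

/-- Congruences are preserved. -/
theorem close_map {c : A} {y z : F} (h : Close D c y z) :
    Close D c (toRingAut T.s y) (toRingAut T.s z) := by
  obtain ⟨w, hw, e⟩ := h
  obtain ⟨u, hu⟩ : c ∣ (⟨baseAut T.s (c : L), T.mem_A c.2⟩ : A) :=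
    PTors.dvd_of_le (le_of_eq (T.val_eq c))
  refine ⟨(u : L) • toRingAut T.s w, PTors.smul_mem D u (autV T hw), ?_⟩
  rw [← map_sub, e, toRingAut_smul, smul_smul]
  exact congrArg (· • _) (congrArg (fun t : A => (t : L)) hu)

theorem close_map' {c : A} {y z : F} (h : Close D' c y z) :
    Close D' c (toRingAut T.s y) (toRingAut T.s z) := by
  obtain ⟨w, hw, e⟩ := h
  obtain ⟨u, hu⟩ : c ∣ (⟨baseAut T.s (c : L), T.mem_A c.2⟩ : A) :=
    PTors.dvd_of_le (le_of_eq (T.val_eq c))
  refine ⟨(u : L) • toRingAut T.s w, PTors.smul_mem D' u (autV' T hw), ?_⟩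
  rw [← map_sub, e, toRingAut_smul, smul_smul]
  exact congrArg (· • _) (congrArg (fun t : A => (t : L)) hu)

variable {β : ℕ × ℕ}

theorem InR.map {f : F} (hf : InR N β f) : InR N β (toRingAut T.s f) := by
  obtain ⟨h, h', n, hn⟩ := hf
  refine ⟨autV T h, autV' T h', n, ?_⟩
  have := toRingAut_mem_rr T.s hn
  rwa [bdiv, T.Bd_fix] at this

theorem IsUnitAt.map {i : ι} (hi : T.perm i = i) {S : F} (hS : IsUnitAt N β i S) :
    IsUnitAt N β i (toRingAut T.s S) := by
  obtain ⟨a, b, ha, hb, -, -, hv, -⟩ := hS.exists_red'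
  obtain ⟨m, hm⟩ := hS.1.mem_pairs ha hb
  refine ⟨hS.1.map T, T.σb a, T.red _ _ ha, ?_⟩
  have := T.val_x i a (pairs_regular N β hm i).1
  rwa [hi, hv, map_one] at this

theorem Loc.map {i : ι} (hi : T.perm i = i) {c : A} {h h' : F} (hl : Loc N β i c h h') :
    Loc N β i c (toRingAut T.s h) (toRingAut T.s h') := by
  obtain ⟨S, P, hS, hP, e, e'⟩ := hl
  exact ⟨toRingAut T.s S, toRingAut T.s P, hS.map T hi, hP.map T,
    by rw [← map_mul]; exact close_map T e, by rw [← map_mul]; exact close_map' T e'⟩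

theorem red_map_one {y : F} (h : D.Red y 1) : D.Red (toRingAut T.s y) 1 := by
  simpa using T.red _ _ h

theorem red_map_one' {y : F} (h : D'.Red y 1) : D'.Red (toRingAut T.s y) 1 := by
  simpa using T.red' _ _ h

end FLTAgent.RT.AtP
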