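import Fermat.Agent.Semistable.PTorsSides

/-!
# Roots to any precision from norms to any precision

If the two norms of `g` are `p ^ n`-th powers up to high precision then `g` is a `p ^ n`-th power
on both components up to any prescribed precision.
-/

set_option autoImplicit false
set_option linter.unusedSectionVars false

noncomputable section

namespace FLTAgent.RT.AtP

open FLTAgent.GoodRed FLTAgent.GoodRed.RedDatum FLTAgent.Semistable

variable {L k : Type*} [Field L] [Field k] {A : ValuationSubring L} {π : A →+* k}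

theorem mul_mem_nonunits_left {a b : A} (ha : (a : L) ∈ A.nonunits) :
    ((a * b : A) : L) ∈ A.nonunits :=
  ValuationSubring.coe_mem_nonunits_iff.2
    (Ideal.mul_mem_right b _ (ValuationSubring.coe_mem_nonunits_iff.1 ha))

variable {E E' F C : Type*} [Field E] [Algebra L E] [Field E'] [Algebra L E'] [Field F]
  [Algebra L F] [Algebra E F] [IsScalarTower L E F] [Algebra E' F] [IsScalarTower L E' F]
  [Field C] [Algebra k C]
  {DE : RedDatum A π E C} {DE' : RedDatum A π E' C} {D D' : RedDatum A π F C}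
  {frob frob' : C →ₐ[k] C} {p : ℕ}

/-- The norm respects congruences on both components. -/
theorem norm_congr (hS : OneSide DE D D' frob p) [CharP C p]
    (hw : ∀ z : C, ∃ w, frob w = z ^ p) {c : A} (hc0 : (c : L) ≠ 0) {f f' : F}
    (h : Close D c f f') (h' : Close D' c f f') (hf : D.Red f' 1) (hf' : D'.Red f' 1) :
    Close DE c (Algebra.norm E f) (Algebra.norm E f') := by
  have := hS.finiteDimensional
  have h0 : f' ≠ 0 := hf.ne_zero one_ne_zero
  obtain ⟨w, hwV, e⟩ := h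
  obtain ⟨w', hwV', e'⟩ := h'
  obtain rfl : w = w' := smul_right_injective F hc0 (e.symm.trans e')
  set g := w * f'⁻¹ with hg
  obtain ⟨a, ha⟩ := exists_red (mul_mem hwV (hf.inv one_ne_zero).mem)
  obtain ⟨b, hb⟩ := exists_red (mul_mem hwV' (hf'.inv one_ne_zero).mem)
  rw [← hg] at ha hb
  have hfe : f = f' * (1 + (c : L) • g) := by
    rw [mul_add, mul_one, hg, mul_smul_comm, mul_comm w, mul_inv_cancel_left₀ h0, ← e]
    abel
  have h1 : Close DE c (Algebra.norm E (1 + (c : L) • g)) 1 := by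
    refine ((hS.norm_one_add_smul ha hb c).mono (dvd_mul_left c c)).trans ?_
    simpa using (Close.refl (D := DE) (c := c) (1 : E)).add
      (Close.mem_smul (c := c) (hS.red_trace hw ha hb).mem)
  have h2 : DE.Red (Algebra.norm E f') 1 := by simpa using hS.red_norm hf hf' (w := 1) (by simp)
  rw [hfe, map_mul]
  simpa using h1.mul_left h2.mem

variable [CharP k p] [IsAlgClosed L]

/-- An element congruent on both components to elements with exact `p`-th power norms is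
congruent to a `p`-th power on both components. -/
theorem exists_root_of_norms (hS : OneSide DE D D' frob p) (hS' : OneSide DE' D' D frob' p)
    [CharP C p] (hw : ∀ z : C, ∃ w, frob w = z ^ p) (hw' : ∀ z : C, ∃ w, frob' w = z ^ p)
    {d : A} (hd0 : (d : L) ≠ 0) (hdn : (d : L) ∈ A.nonunits) {g f₁ f₂ : F}
    (hgr : D.Red g 1) (hgr' : D'.Red g 1)
    (h₁ : Close D (d * d) f₁ g) (h₁' : Close D' (d * d) f₁ g) (h₂ : Close D (d * d) f₂ g)
    (h₂' : Close D' (d * d) f₂ g)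
    {H : E} (hH : DE.Red H 1) (hnH : Algebra.norm E f₁ = H ^ p)
    {H' : E'} (hH' : DE'.Red H' 1) (hnH' : Algebra.norm E' f₂ = H' ^ p) :
    ∃ hh : F, D.Red hh 1 ∧ D'.Red hh 1 ∧ Close D d g (hh ^ p) ∧ Close D' d g (hh ^ p) := by
  classical
  have hπ := D.isResidue
  set N : A := d * d with hN
  have hN0 : (N : L) ≠ 0 := by simp [hN, hd0]
  have hNn : (N : L) ∈ A.nonunits := mul_mem_nonunits_left hdn
  obtain ⟨e₀, he₀, he₀'⟩ := hS.sep
  obtain ⟨e, he, he'⟩ := exists_sharp_idempotent hS.rankOne he₀ he₀' hN0 hNn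
  have hf : Close D' N (1 - e) 1 := by simpa using (Close.refl (1 : F)).sub he'
  have hf' : Close D N (1 - e) 0 := by simpa using (Close.refl (1 : F)).sub he
  obtain ⟨γ₁, hγ₁, -, htr₁⟩ := hS.exists_trace_bound hw hNn he he'
  obtain ⟨γ₂, hγ₂, -, htr₂⟩ := hS'.exists_trace_bound hw' hNn hf hf'
  obtain ⟨c₃, hc₃, hcl₃⟩ := exists_close_zero D hdn (y := g - 1) (by simpa using hgr.sub red_one)
  obtain ⟨c₄, hc₄, hcl₄⟩ :=
    exists_close_zero D' hdn (y := g - 1) (by simpa using hgr'.sub red_one)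
  obtain ⟨γ, hγ, hγd, hγs⟩ := PTors.exists_common_dvd (Finset.univ : Finset (Fin 4))
    ![γ₁, γ₂, c₃, c₄] hdn (fun i _ => by fin_cases i <;> assumption)
  have hs : ∀ i, γ ∣ ![γ₁, γ₂, c₃, c₄] i := fun i => hγs i (Finset.mem_univ i)
  have h0 : Close D γ g 1 := by simpa using (hcl₃.mono (hs 2)).add (Close.refl (1 : F))
  have h0' : Close D' γ g 1 := by simpa using (hcl₄.mono (hs 3)).add (Close.refl (1 : F))
  have hcN : ∀ c : A, c ∣ d → c * γ ∣ N := fun c hc => mul_dvd_mul hc hγd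
  have hcn : ∀ c : A, γ ∣ c → (c : L) ∈ A.nonunits := fun c ⟨u, hu⟩ => by
    rw [hu]; exact mul_mem_nonunits_left hγ
  have hc0 : ∀ c : A, c ∣ d → (c : L) ≠ 0 := fun c ⟨u, hu⟩ h => hd0 (by
    rw [hu, MulMemClass.coe_mul, h, zero_mul])
  have r₁ := h₁.red hNn hgr
  have r₁' := h₁'.red hNn hgr'
  have r₂ := h₂.red hNn hgr
  have r₂' := h₂'.red hNn hgr'
  have hcN' : ∀ c : A, c ∣ d → c ∣ N := fun c hc => (dvd_mul_right c γ).trans (hcN c hc)
  obtain ⟨h, h', hh, hh', hc, hc'⟩ := exists_pow_approx (p := p) hS.rankOne hγ hd0 hγd h0 h0'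
    (fun c hγc hcd x hx hx' hxc => by
      obtain ⟨y, hy, hy', hyc⟩ := hS.approx_step hNn he he' (hcn c hγc) (hc0 c hcd) hγc
        (hcN c hcd) (htr₁ γ (hs 0)) r₁ r₁' hH hnH hx hx' ((h₁'.mono (hcN' c hcd)).trans hxc)
      exact ⟨y, hy, hy', (h₁.mono (hcN c hcd)).symm.trans hyc⟩)
    (fun c hγc hcd x hx hx' hxc => by
      obtain ⟨y, hy, hy', hyc⟩ := hS'.approx_step hNn hf hf' (hcn c hγc) (hc0 c hcd) hγc
        (hcN c hcd) (htr₂ γ (hs 1)) r₂' r₂ hH' hnH' hx' hx ((h₂.mono (hcN' c hcd)).trans hxc)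
      exact ⟨y, hy', hy, (h₂'.mono (hcN c hcd)).symm.trans hyc⟩)
  have heD := he.red hNn red_one
  have heD' := he'.red hNn red_zero
  have hdN : d ∣ N := dvd_mul_right d d
  refine ⟨h * e + h' * (1 - e), by simpa using (hh.1.mul heD).add (hh'.1.mul (red_one.sub heD)),
    by simpa using (hh.2.mul heD').add (hh'.2.mul (red_one.sub heD')), ?_, ?_⟩
  · refine hc.trans ((Close.symm ?_).pow ?_ p)
    · simpa using ((he.mul_left hh.1.mem).add (hf'.mul_left hh'.1.mem)).mono hdN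
    · exact add_mem (mul_mem hh.1.mem heD.mem) (mul_mem hh'.1.mem (sub_mem (one_mem _) heD.mem))
  · refine hc'.trans ((Close.symm ?_).pow ?_ p)
    · simpa using ((he'.mul_left hh.2.mem).add (hf.mul_left hh'.2.mem)).mono hdN
    · exact add_mem (mul_mem hh.2.mem heD'.mem) (mul_mem hh'.2.mem (sub_mem (one_mem _) heD'.mem))

variable {ζ : A}

/-- `u ^ p ≡ G ^ (p ^ (n + 1))` lowers to `u ≡ G' ^ (p ^ n)`. -/
theorem exists_root_of_pow {E₁ C₁ : Type*} [Field E₁] [Algebra L E₁] [Field C₁] [Algebra k C₁]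
    (Dn : RedDatum A π E₁ C₁) (hp : p.Prime) (hζ : IsPrimitiveRoot ζ p) {T T₁ : A}
    (hTT : ((T * T₁ : A) : L) ∈ A.nonunits) (n : ℕ) {u G₁ : E₁} (hu : Dn.Red u 1)
    (hG₁ : Dn.Red G₁ 1)
    (hcl : Close Dn (PTors.thr p ζ * (T * T₁)) (u ^ p) ((G₁ ^ p ^ n) ^ p)) :
    ∃ G₂ : E₁, Dn.Red G₂ 1 ∧ Close Dn T₁ u (G₂ ^ p ^ n) := by
  set v := G₁ ^ p ^ n
  have hv : Dn.Red v 1 := by simpa using hG₁.pow (p ^ n)
  have hvi : Dn.Red ((v ^ p)⁻¹) 1 := by simpa using (hv.pow p).inv (by simp)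
  have c₁ := hcl.mul_right hvi.mem
  rw [mul_inv_cancel₀ (pow_ne_zero p (hv.ne_zero one_ne_zero))] at c₁
  have c₂ : Close Dn (PTors.thr p ζ * (T * T₁)) (v ^ p * (v ^ p)⁻¹) 1 := by
    rw [mul_inv_cancel₀ (pow_ne_zero p (hv.ne_zero one_ne_zero))]; exact Close.refl 1
  obtain ⟨i, -, hi, -⟩ := Close.exists_index hp hζ hTT hu hv hvi c₁ c₂
  obtain ⟨η, hη⟩ := IsAlgClosed.exists_pow_nat_eq ((ζ : L) ^ i) (pow_pos hp.pos n)
  have hηA : η ∈ A := by
    rw [← A.valuation_le_one_iff, ← pow_le_one_iff (pow_ne_zero n hp.ne_zero), ← map_pow, hη]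
    rw [A.valuation_le_one_iff]
    exact pow_mem ζ.2 i
  have hπη : π ⟨η, hηA⟩ = 1 := by
    have : Fact p.Prime := ⟨hp⟩
    apply iterateFrobenius_inj k p n
    simp only [iterateFrobenius_def, one_pow]
    rw [← map_pow, show (⟨η, hηA⟩ : A) ^ p ^ n = ζ ^ i from Subtype.ext (by simp [hη]),
      map_pow, PTors.residue_root hp hζ, one_pow]
  refine ⟨η • G₁, by simpa [hπη] using red_smul ⟨η, hηA⟩ hG₁, ?_⟩
  rw [smul_pow, hη]
  exact hi.mono ((dvd_mul_left T₁ T).trans (dvd_mul_left _ _))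

/-- The element `f = g * r` with `r` in `E` has exact `p`-th power norm. -/
theorem exists_exact_norm (hS : OneSide DE D D' frob p) [CharP C p] {T : A}
    (hTn : (T : L) ∈ A.nonunits) {g : F} (hg : D.Red g 1) (hg' : D'.Red g 1) {G : E}
    (hG : DE.Red G 1) (h : Close DE T (Algebra.norm E g) (G ^ p)) :
    ∃ f : F, Close D T f g ∧ Close D' T f g ∧
      ∃ H : E, DE.Red H 1 ∧ Algebra.norm E f = H ^ p := by
  have hN : DE.Red (Algebra.norm E g) 1 := by simpa using hS.red_norm hg hg' (w := 1) (by simp)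
  set r := G ^ p * (Algebra.norm E g)⁻¹ with hr
  have hN0 : Algebra.norm E g ≠ 0 := hN.ne_zero one_ne_zero
  have hrc : Close DE T r 1 := by
    have h1 := (h.symm.mul_right (hN.inv one_ne_zero).mem)
    rwa [mul_inv_cancel₀ hN0] at h1
  obtain ⟨c₁, c₁'⟩ := hS.close_algebraMap hrc
  rw [map_one] at c₁ c₁'
  refine ⟨g * algebraMap E F r, by simpa using c₁.mul_left hg.mem,
    by simpa using c₁'.mul_left hg'.mem, G * r, by simpa using hG.mul (hrc.red hTn red_one), ?_⟩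
  have hGp : G ^ p = Algebra.norm E g * r := by
    rw [hr, mul_comm (G ^ p), mul_inv_cancel_left₀ hN0]
  clear_value r
  rw [map_mul, Algebra.norm_algebraMap, hS.degree, mul_pow G r p, hGp]
  ring

/-- **Roots from norms.** -/
theorem exists_root_tower (hS : OneSide DE D D' frob p) (hS' : OneSide DE' D' D frob' p)
    [CharP C p] (hw : ∀ z : C, ∃ w, frob w = z ^ p) (hw' : ∀ z : C, ∃ w, frob' w = z ^ p)
    (hζ : IsPrimitiveRoot ζ p) (hpL : (p : L) ≠ 0) (n : ℕ) (T : A) (hT0 : (T : L) ≠ 0)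
    (hTn : (T : L) ∈ A.nonunits) :
    ∃ T₀ : A, (T₀ : L) ≠ 0 ∧ (T₀ : L) ∈ A.nonunits ∧ ∀ g : F, D.Red g 1 → D'.Red g 1 →
      ∀ (G : E) (G' : E'), DE.Red G 1 → DE'.Red G' 1 →
        Close DE T₀ (Algebra.norm E g) (G ^ p ^ n) →
        Close DE' T₀ (Algebra.norm E' g) (G' ^ p ^ n) →
          ∃ H : F, D.Red H 1 ∧ D'.Red H 1 ∧ Close D T g (H ^ p ^ n) ∧
            Close D' T g (H ^ p ^ n) := by
  induction n with
  | zero =>
    exact ⟨T, hT0, hTn, fun g hg hg' _ _ _ _ _ _ =>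
      ⟨g, hg, hg', by rw [pow_zero, pow_one]; exact Close.refl g,
        by rw [pow_zero, pow_one]; exact Close.refl g⟩⟩
  | succ n ih =>
    obtain ⟨T₁, hT₁0, hT₁n, hroot⟩ := ih
    have hp := hS.prime
    have hπ := D.isResidue
    set d : A := PTors.thr p ζ * (T * T₁) with hd
    have hthr : ((PTors.thr p ζ : A) : L) ≠ 0 := PTors.thr_ne_zero hp hζ hpL
    have hd0 : (d : L) ≠ 0 := mul_ne_zero hthr (mul_ne_zero hT0 hT₁0)
    have hdn : (d : L) ∈ A.nonunits := mul_mem_nonunits_left (PTors.thr_mem_nonunits hπ)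
    have hdd : d ∣ d * d := dvd_mul_right d d
    have hTT : ((T * T₁ : A) : L) ∈ A.nonunits := mul_mem_nonunits_left hTn
    refine ⟨d * d, mul_ne_zero hd0 hd0, mul_mem_nonunits_left hdn,
      fun g hg hg' G G' hG hG' hN hN' => ?_⟩
    rw [pow_succ, pow_mul] at hN hN'
    obtain ⟨f₁, e₁, e₁', H₁, hH₁, hn₁⟩ := exists_exact_norm hS (mul_mem_nonunits_left hdn) hg hg'
      (G := G ^ p ^ n) (by simpa using hG.pow (p ^ n)) hN
    obtain ⟨f₂, e₂', e₂, H₂, hH₂, hn₂⟩ := exists_exact_norm hS' (mul_mem_nonunits_left hdn) hg' hg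
      (G := G' ^ p ^ n) (by simpa using hG'.pow (p ^ n)) hN'
    obtain ⟨hh, hhr, hhr', hc, hc'⟩ := exists_root_of_norms hS hS' hw hw' hd0 hdn hg hg'
      e₁ e₁' e₂ e₂' hH₁ hn₁ hH₂ hn₂
    have hP : D.Red (hh ^ p) 1 := by simpa using hhr.pow p
    have hP' : D'.Red (hh ^ p) 1 := by simpa using hhr'.pow p
    have nN : DE.Red (Algebra.norm E hh) 1 := by simpa using hS.red_norm hhr hhr' (w := 1) (by simp)
    have nN' : DE'.Red (Algebra.norm E' hh) 1 := by
      simpa using hS'.red_norm hhr' hhr (w := 1) (by simp)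
    obtain ⟨G₂, hG₂, hcl₂⟩ := exists_root_of_pow DE hp hζ hTT n nN hG (by
      rw [← map_pow]
      exact (norm_congr hS hw hd0 hc hc' hP hP').symm.trans (hN.mono hdd))
    obtain ⟨G₂', hG₂', hcl₂'⟩ := exists_root_of_pow DE' hp hζ hTT n nN' hG' (by
      rw [← map_pow]
      exact (norm_congr hS' hw' hd0 hc' hc hP' hP).symm.trans (hN'.mono hdd))
    have hT₁d : T₁ ∣ d := (dvd_mul_left T₁ T).trans (dvd_mul_left _ _)
    have hTd : T ∣ d := (dvd_mul_right T T₁).trans (dvd_mul_left _ _)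
    obtain ⟨H, hH, hH', cH, cH'⟩ := hroot hh hhr hhr' G₂ G₂' hG₂ hG₂' hcl₂ hcl₂'
    refine ⟨H, hH, hH', ?_, ?_⟩
    · rw [pow_succ, pow_mul]
      exact (hc.mono hTd).trans (cH.pow (pow_mem hH.mem _) p)
    · rw [pow_succ, pow_mul]
      exact (hc'.mono hTd).trans (cH'.pow (pow_mem hH'.mem _) p)

end FLTAgent.RT.AtP
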