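import Fermat.Agent.RT.AtP.Roots
import Fermat.Agent.RT.AtP.RootApprox
import Fermat.Agent.RT.AtP.Aut

/-!
# The cyclotomic character on flat classes killed by a power of the residue characteristic

If the function of a flat class killed by `p ^ n` has both norms equal to constants times
`p ^ n`-th powers, then every automorphism fixing the crossings and raising the roots of unity of
order `p ^ n` to the power `χ` acts on the class as `χ`, exactly.
-/

set_option autoImplicit false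
set_option linter.unusedSectionVars false

noncomputable section

open AlgebraicCurve AlgebraicCurve.SemilinearAut

namespace FLTAgent.RT.AtP

open FLTAgent.GoodRed FLTAgent.GoodRed.RedDatum FLTAgent.FunctionField FLTAgent.Semistable

universe w

section sides

variable {L k : Type*} [Field L] [Field k] {A : ValuationSubring L} {π : A →+* k}
  {F : Type*} {C C' : Type w} [Field F] [Algebra L F] [Field C] [Algebra k C] [Field C']
  [Algebra k C'] [IsFunctionField L F] [IsFunctionField k C] [IsFunctionField k C']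
  [IsAlgClosed L] [IsAlgClosed k] {D : RedDatum A π F C} {D' : RedDatum A π F C'} {ι : Type*}
  [Fintype ι] {N : NodeSystem D D' ι} {p : ℕ} [CharP k p] {ζ : A}

theorem hasJump_one (hp : p.Prime) {n : ℕ} {X : Divisor L F} (hdeg : Divisor.degree X = 0)
    {g : F} (hr : D.Red g 1) (hr' : D'.Red g 1) (hdiv : divisorOf g = (p ^ n) • X) :
    N.HasJump X 1 := by
  have : Fact p.Prime := ⟨hp⟩
  obtain ⟨ξ, hξ, hpow⟩ := N.exists_hasJump (pow_pos hp.pos n) hdeg (hr.ne_zero one_ne_zero) hdiv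
    one_ne_zero one_ne_zero (by rwa [map_one]) (by rwa [map_one])
  obtain rfl : ξ = 1 := funext fun i => iterateFrobenius_inj k p n (by
    simpa [iterateFrobenius_def] using hpow i)
  exact hξ

/-- The function with poles on one auxiliary divisor. -/
theorem exists_side (T : NodeSystem.NodeAut N) (hperm : ∀ i, T.perm i = i) (hA : IsRankOne A)
    (hp : p.Prime) (hζ : IsPrimitiveRoot ζ p) (hpL : (p : L) ≠ 0) {e₀ : F} (he₀ : D.Red e₀ 1)
    (he₀' : D'.Red e₀ 0) (n : ℕ) {χ : ℕ}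
    (hχ : ∀ μ : L, μ ^ p ^ n = 1 → baseAut T.s μ = μ ^ χ) (T₁ : A) (hT₁0 : (T₁ : L) ≠ 0)
    (hT₁n : (T₁ : L) ∈ A.nonunits) :
    ∃ T₀ : A, (T₀ : L) ≠ 0 ∧ (T₀ : L) ∈ A.nonunits ∧
      ∀ β : ℕ × ℕ, 1 ≤ β.1 + β.2 → ∀ (X : Divisor L F) (g H : F), D.Red g 1 → D'.Red g 1 →
        D.Red H 1 → D'.Red H 1 → Divisor.degree X = 0 → divisorOf g = (p ^ n) • X →
        Close D T₀ g (H ^ p ^ n) → Close D' T₀ g (H ^ p ^ n) →
          ∃ (d : ℕ) (f : F),
            f ∈ riemannRochSpace (bdiv N β d + (T.s • X + ((p ^ n - 1) * χ) • X)) ∧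
            D.Red f 1 ∧ D'.Red f 1 ∧
            Close D T₁ (f * (toRingAut T.s H * H ^ ((p ^ n - 1) * χ))) 1 ∧
            Close D' T₁ (f * (toRingAut T.s H * H ^ ((p ^ n - 1) * χ))) 1 := by
  obtain ⟨TL, hTL0, hTLn, hloc⟩ := exists_loc_root_tower (N := N) (D := D) (D' := D') hA hp hζ hpL
    he₀ he₀' n ((ζ - 1) * (ζ - 1)) (zeta_sq_ne_zero hp hζ)
    (mul_mem_nonunits_left (PTors.sub_one_mem_nonunits D.isResidue hp hζ))
  obtain ⟨TG, hTG0, -, hglob⟩ := exists_glob_root_tower (N := N) (D := D) (D' := D') hA hp hζ hpL n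
    T₁ hT₁0 hT₁n
  refine ⟨TL * TG, mul_ne_zero hTL0 hTG0, mul_mem_nonunits_left hTLn,
    fun β hβ X g H hg hg' hH hH' hdeg hdiv hc hc' => ?_⟩
  set σ := toRingAut T.s with hσ
  set m := (p ^ n - 1) * χ with hm
  set b := N.c + Fintype.card ι + 1
  have hb : N.Big (b * β.1) (b * β.2) := by
    have h1 : b ≤ b * (β.1 + β.2) := Nat.le_mul_of_pos_right b hβ
    rw [mul_add] at h1
    simp only [NodeSystem.Big, b] at h1 ⊢
    omega
  obtain ⟨u, hu, hur, hur'⟩ := mem_pairSpace.1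
    ((hasJump_one (N := N) hp hdeg hg hg' hdiv _ _ hb).ge (N.one_one_mem_nspace _ _))
  set h := u * H with hh
  set e := u ^ p ^ n * g with he
  have hhr : D.Red h 1 := by simpa using hur.mul hH
  have hhr' : D'.Red h 1 := by simpa using hur'.mul hH'
  have heR : InR N β e := by
    refine ⟨mul_mem (pow_mem hur.mem _) hg.mem, mul_mem (pow_mem hur'.mem _) hg'.mem,
      p ^ n * b, ?_⟩
    rw [bdiv_mul]
    exact PTors.pow_mul_mem_rr hu (hg.ne_zero one_ne_zero) hdiv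
  have ec : Close D (TL * TG) e (h ^ p ^ n) := by
    rw [hh, mul_pow]; exact hc.mul_left (pow_mem hur.mem _)
  have ec' : Close D' (TL * TG) e (h ^ p ^ n) := by
    rw [hh, mul_pow]; exact hc'.mul_left (pow_mem hur'.mem _)
  -- the twists cancel in `σ + m`
  set hz := σ h * h ^ m with hhz
  have hzr : D.Red hz 1 := by simpa using (red_map_one T hhr).mul (hhr.pow m)
  have hzr' : D'.Red hz 1 := by simpa using (red_map_one' T hhr').mul (hhr'.pow m)
  have hzloc : ∀ i, Loc N β i ((ζ - 1) * (ζ - 1)) hz hz := by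
    intro i
    obtain ⟨μ, hμ, hl⟩ := hloc β hβ i h hhr hhr'
      ((Glob.loc ⟨e, heR, ec, ec'⟩).mono (dvd_mul_right TL TG))
    have hμL : (μ : L) ^ p ^ n = 1 := by exact_mod_cast congrArg (fun t : A => (t : L)) hμ
    have h1 := (hl.map T (hperm i)).mul (hl.pow hhr.mem (PTors.smul_mem D' μ hhr'.mem) m)
      (red_map_one T hhr).mem (autV' T (PTors.smul_mem D' μ hhr'.mem))
    have h2 : toRingAut T.s ((μ : L) • h) * ((μ : L) • h) ^ m = hz := by
      rw [toRingAut_smul, hχ _ hμL, smul_pow, smul_mul_smul_comm, ← pow_add, hm, ← one_add_mul,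
        Nat.add_sub_cancel' (Nat.one_le_pow n p hp.pos), pow_mul, hμL, one_pow, one_smul]
    rwa [h2] at h1
  set ez := σ e * e ^ m with hez
  have hezR : InR N β ez := (heR.map T).mul (heR.pow m)
  have epow : hz ^ p ^ n = σ (h ^ p ^ n) * (h ^ p ^ n) ^ m := by
    rw [hhz, mul_pow, map_pow, ← pow_mul, ← pow_mul h, mul_comm m]
  have zc : Close D TG ez (hz ^ p ^ n) := by
    rw [epow]
    exact (close_map T (ec.mono (dvd_mul_left TG TL))).mul
      ((ec.mono (dvd_mul_left TG TL)).pow (pow_mem hhr.mem _) m) (pow_mem heR.1 _)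
      (autV T (pow_mem hhr.mem _))
  have zc' : Close D' TG ez (hz ^ p ^ n) := by
    rw [epow]
    exact (close_map' T (ec'.mono (dvd_mul_left TG TL))).mul
      ((ec'.mono (dvd_mul_left TG TL)).pow (pow_mem hhr'.mem _) m) (pow_mem heR.2.1 _)
      (autV' T (pow_mem hhr'.mem _))
  obtain ⟨P, hP, pc, pc'⟩ := hglob β hβ hz hzr hzr' ⟨ez, hezR, zc, zc'⟩ hzloc
  have hPr : D.Red P 1 := pc.red hT₁n hzr
  have hPr' : D'.Red P 1 := pc'.red hT₁n hzr'
  obtain ⟨Q, hQ, qc, qc'⟩ := exists_inv hA hT₁0 hT₁n hP hPr hPr'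
  obtain ⟨-, -, d, hd⟩ := hQ.1, hQ.2.1, hQ.2.2
  set uz := σ u * u ^ m with huz
  have huzr : D.Red uz 1 := by simpa using (red_map_one T hur).mul (hur.pow m)
  have huzr' : D'.Red uz 1 := by simpa using (red_map_one' T hur').mul (hur'.pow m)
  have hPQ : D.Red (P * Q) 1 := qc.red hT₁n red_one
  have hPQ' : D'.Red (P * Q) 1 := qc'.red hT₁n red_one
  obtain ⟨q, hq⟩ := exists_red hQ.1
  obtain ⟨q', hq'⟩ := exists_red hQ.2.1
  obtain rfl : q = 1 := by simpa using (hPr.mul hq).unique hPQ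
  obtain rfl : q' = 1 := by simpa using (hPr'.mul hq').unique hPQ'
  refine ⟨b + m * b + d, uz * Q, ?_, by simpa using huzr.mul hq, by simpa using huzr'.mul hq',
    ?_, ?_⟩
  · have h1 : uz ∈ riemannRochSpace (bdiv N β (b + m * b) + (T.s • X + m • X)) := by
      have h2 := mul_mem_rr (toRingAut_mem_rr T.s hu) (PTors.pow_mem_rr hu m)
      convert h2 using 2
      rw [bdiv_add, bdiv_mul, bdiv, smul_add, T.Bd_fix, smul_add m]
      abel
    have := mul_mem_rr h1 hd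
    rwa [add_right_comm, ← bdiv_add] at this
  all_goals
    have hre : uz * Q * (σ H * H ^ m) = hz * Q := by
      rw [huz, hhz, hh, map_mul, mul_pow]; ring
    rw [hre]
  · exact (pc.symm.mul_right hQ.1).trans qc
  · exact (pc'.symm.mul_right hQ.2.1).trans qc'

end sides

section main

variable {L k : Type*} [Field L] [Field k] {A : ValuationSubring L} {π : A →+* k}
  {E E' F : Type*} {C : Type w} [Field E] [Algebra L E] [Field E'] [Algebra L E'] [Field F]
  [Algebra L F] [Algebra E F] [IsScalarTower L E F] [Algebra E' F] [IsScalarTower L E' F]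
  [Field C] [Algebra k C]
  {DE : RedDatum A π E C} {DE' : RedDatum A π E' C} {D D' : RedDatum A π F C}
  {frob frob' : C →ₐ[k] C} {p : ℕ} [CharP k p] [IsAlgClosed L] [IsAlgClosed k]

/-- A `p ^ n`-th root of an element reducing to one reduces to one. -/
theorem red_root_pow [CharP C p] (hp : p.Prime) :
    ∀ (n : ℕ) {H : E}, DE.Red (H ^ p ^ n) 1 → DE.Red H 1 := by
  intro n
  induction n with
  | zero => intro H h; simpa using h
  | succ n ih =>
    intro H h
    rw [pow_succ, pow_mul] at h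
    exact ih (PTors.red_root hp h)

theorem exists_exact_root [CharP C p] (hS : OneSide DE D D' frob p) (n : ℕ) {g : F}
    (hgr : D.Red g 1) (hgr' : D'.Red g 1) {c : L} {H : E}
    (h : Algebra.norm E g = algebraMap L E c * H ^ p ^ n) :
    ∃ G : E, DE.Red G 1 ∧ Algebra.norm E g = G ^ p ^ n := by
  obtain ⟨c', hc'⟩ := IsAlgClosed.exists_pow_nat_eq c (pow_pos hS.prime.pos n)
  have e : (algebraMap L E c' * H) ^ p ^ n = Algebra.norm E g := by
    rw [mul_pow, ← map_pow, hc', h]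
  refine ⟨algebraMap L E c' * H, red_root_pow hS.prime n ?_, e.symm⟩
  rw [e]
  simpa using hS.red_norm hgr hgr' (w := 1) (by simp)

variable [IsFunctionField L F] [IsFunctionField k C] {ι : Type*} [Fintype ι]
  {N : NodeSystem D D' ι} (T : NodeSystem.NodeAut N) {ζ : A}

/-- **Exact cyclotomic action on flat classes killed by `p ^ n`**, normalised form. -/
theorem smul_sub_nsmul_of_pow_norms (hperm : ∀ i, T.perm i = i) (hA : IsRankOne A)
    (hA0 : ∃ ϖ : L, ϖ ≠ 0 ∧ ϖ ∈ A.nonunits) (hS : OneSide DE D D' frob p)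
    (hS' : OneSide DE' D' D frob' p) (hw : ∀ z : C, ∃ w, frob w = z ^ p)
    (hw' : ∀ z : C, ∃ w, frob' w = z ^ p) (hζ : IsPrimitiveRoot ζ p) (hpL : (p : L) ≠ 0) {n χ : ℕ}
    (hχ : ∀ μ : L, μ ^ p ^ n = 1 → baseAut T.s μ = μ ^ χ) {X : Divisor L F}
    (hdeg : Divisor.degree X = 0) {g : F} (hgr : D.Red g 1) (hgr' : D'.Red g 1)
    (hdiv : divisorOf g = (p ^ n) • X) {c : L} {H : E}
    (hn : Algebra.norm E g = algebraMap L E c * H ^ p ^ n) {c' : L} {H' : E'}
    (hn' : Algebra.norm E' g = algebraMap L E' c' * H' ^ p ^ n) :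
    ∃ h : F, h ≠ 0 ∧ T.s • X - χ • X = divisorOf h := by
  classical
  have hp := hS.prime
  have : Fact p.Prime := ⟨hp⟩
  have : CharP C p := charP_of_injective_algebraMap (algebraMap k C).injective p
  obtain ⟨G, hG, eG⟩ := exists_exact_root hS n hgr hgr' hn
  obtain ⟨G', hG', eG'⟩ := exists_exact_root hS' n hgr' hgr hn'
  set m := (p ^ n - 1) * χ with hm
  set z := T.s • X + m • X with hzdef
  have hg0 : g ≠ 0 := hgr.ne_zero one_ne_zero
  suffices hz : ∃ h : F, h ≠ 0 ∧ z = divisorOf h by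
    obtain ⟨h, hh0, hzh⟩ := hz
    refine ⟨h * (g ^ χ)⁻¹, mul_ne_zero hh0 (inv_ne_zero (pow_ne_zero _ hg0)), ?_⟩
    rw [divisorOf_mul hh0 (inv_ne_zero (pow_ne_zero _ hg0)), divisorOf_inv, PTors.divisorOf_pow,
      hdiv, ← hzh, ← mul_nsmul', show χ * p ^ n = χ + m by
        rw [hm, ← one_add_mul, Nat.add_sub_cancel' (Nat.one_le_pow n p hp.pos), mul_comm],
      add_nsmul, hzdef]
    abel
  by_contra hne
  push Not at hne
  have hzdeg : Divisor.degree z = 0 := by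
    rw [hzdef, map_add, SemilinearAut.degree_smul, map_nsmul, hdeg, smul_zero, add_zero]
  have hzj : N.HasJump z 1 := by
    refine hasJump_one (n := n) hp hzdeg (g := toRingAut T.s g * g ^ m)
      (by simpa using (red_map_one T hgr).mul (hgr.pow m))
      (by simpa using (red_map_one' T hgr').mul (hgr'.pow m)) ?_
    rw [divisorOf_mul ((map_ne_zero _).2 hg0) (pow_ne_zero _ hg0), divisorOf_toRingAut,
      PTors.divisorOf_pow, hdiv, hzdef, smul_add (p ^ n), smul_comm T.s, smul_comm m]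
  obtain ⟨hdisj, c₀, hc₀, hbound⟩ := N.exists_component_bound hzdeg hne hzj
  obtain ⟨ϖ, hϖ0, hϖn⟩ := hA0
  set T₁ : A := ⟨ϖ, A.nonunits_subset hϖn⟩ * c₀ with hT₁
  have hT₁0 : (T₁ : L) ≠ 0 := mul_ne_zero hϖ0 hc₀
  have hT₁n : (T₁ : L) ∈ A.nonunits := mul_mem_nonunits_left hϖn
  obtain ⟨e₀, he₀, he₀'⟩ := hS.sep
  obtain ⟨T₀, hT₀0, hT₀n, hside⟩ :=
    exists_side T hperm hA hp hζ hpL he₀ he₀' n hχ T₁ hT₁0 hT₁n
  obtain ⟨Tr, hTr0, hTrn, htower⟩ := exists_root_tower hS hS' hw hw' hζ hpL n T₀ hT₀0 hT₀n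
  obtain ⟨R, hR, hR', cR, cR'⟩ := htower g hgr hgr' G G' hG hG'
    (by rw [eG]; exact Close.refl _) (by rw [eG']; exact Close.refl _)
  obtain ⟨d₁, f₁, hf₁, r₁, r₁', e₁, e₁'⟩ :=
    hside (1, 0) le_rfl X g R hgr hgr' hR hR' hdeg hdiv cR cR'
  obtain ⟨d₂, f₂, hf₂, r₂, r₂', e₂, e₂'⟩ :=
    hside (0, 1) le_rfl X g R hgr hgr' hR hR' hdeg hdiv cR cR'
  simp only [bdiv, mul_one, mul_zero] at hf₁ hf₂
  set d := d₁ + d₂ + (N.c + Fintype.card ι + 1) with hd
  have hW₁ : f₁ ∈ riemannRochSpace (N.Bd d 0 + z) :=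
    riemannRochSpace_mono (add_le_add_left (N.Bd_mono (by omega) le_rfl) z) hf₁
  have hW₂ : f₂ ∈ riemannRochSpace (N.Bd 0 d + z) :=
    riemannRochSpace_mono (add_le_add_left (N.Bd_mono le_rfl (by omega)) z) hf₂
  have k₁ : D.Red (toRingAut T.s R * R ^ m) 1 := by
    simpa using (red_map_one T hR).mul (hR.pow m)
  have k₁' : D'.Red (toRingAut T.s R * R ^ m) 1 := by
    simpa using (red_map_one' T hR').mul (hR'.pow m)
  obtain ⟨w, hw₁, ew⟩ := Close.of_mul_right (e₁.trans e₂.symm) k₁ one_ne_zero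
  obtain ⟨w', hw₁', ew'⟩ := Close.of_mul_right (e₁'.trans e₂'.symm) k₁' one_ne_zero
  obtain rfl : w = w' := smul_right_injective F hT₁0 (ew.symm.trans ew')
  have hx₁ : (T₁ : L)⁻¹ • f₁ ∈ riemannRochSpace (N.Bd d 0 + z) := Submodule.smul_mem _ _ hW₁
  have hx₂ : -((T₁ : L)⁻¹ • f₂) ∈ riemannRochSpace (N.Bd 0 d + z) :=
    neg_mem (Submodule.smul_mem _ _ hW₂)
  have hwsum : w = (T₁ : L)⁻¹ • f₁ + -((T₁ : L)⁻¹ • f₂) := by
    rw [← sub_eq_add_neg, ← smul_sub, ew, inv_smul_smul₀ hT₁0]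
  obtain ⟨y₁, hy₁, y₂, hy₂, hy₁V, hyeq⟩ := hbound d (by omega) w
    (hwsum ▸ Submodule.add_mem_sup hx₁ hx₂) hw₁ hw₁'
  have hy : y₁ = (c₀ : L) • (T₁ : L)⁻¹ • f₁ := by
    refine sub_eq_zero.1 (Submodule.disjoint_def.1 (hdisj d) _
      (sub_mem hy₁ (Submodule.smul_mem _ _ hx₁)) ?_)
    have hsub : y₁ - (c₀ : L) • (T₁ : L)⁻¹ • f₁ = (c₀ : L) • -((T₁ : L)⁻¹ • f₂) - y₂ := by
      rw [sub_eq_sub_iff_add_eq_add, ← hyeq, hwsum, smul_add]
      abel
    rw [hsub]
    exact sub_mem (Submodule.smul_mem _ _ hx₂) hy₂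
  rw [hy, smul_smul] at hy₁V
  have hmemA := mem_of_smul_mem_of_red D r₁ one_ne_zero hy₁V
  rw [hT₁, MulMemClass.coe_mul, mul_inv_rev, mul_inv_cancel_left₀ hc₀] at hmemA
  rcases (ValuationSubring.mem_nonunits_iff_or A).1 hϖn with h | h
  exacts [hϖ0 h, h hmemA]

/-- **Exact cyclotomic action on flat classes killed by `p ^ n`.** -/
theorem smul_sub_nsmul_of_flat (hperm : ∀ i, T.perm i = i) (hA : IsRankOne A)
    (hA0 : ∃ ϖ : L, ϖ ≠ 0 ∧ ϖ ∈ A.nonunits) (hS : OneSide DE D D' frob p)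
    (hS' : OneSide DE' D' D frob' p) (hw : ∀ z : C, ∃ w, frob w = z ^ p)
    (hw' : ∀ z : C, ∃ w, frob' w = z ^ p) (hζ : IsPrimitiveRoot ζ p) (hpL : (p : L) ≠ 0) {n χ : ℕ}
    (hχ : ∀ μ : L, μ ^ p ^ n = 1 → baseAut T.s μ = μ ^ χ) {X : Divisor L F}
    (hX : NodeSystem.IsFlat (D := D) (D' := D') (p ^ n) X)
    (hn : ∀ g : F, divisorOf g = (p ^ n) • X →
      ∃ (c : L) (H : E), Algebra.norm E g = algebraMap L E c * H ^ p ^ n)
    (hn' : ∀ g : F, divisorOf g = (p ^ n) • X →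
      ∃ (c : L) (H : E'), Algebra.norm E' g = algebraMap L E' c * H ^ p ^ n) :
    ∃ h : F, h ≠ 0 ∧ T.s • X - χ • X = divisorOf h := by
  have hp := hS.prime
  obtain ⟨hdeg, g, hg, hdiv, t, t', ht, ht', hr, hr'⟩ := hX
  have hpos : 0 < p ^ n := pow_pos hp.pos n
  obtain ⟨a, ha⟩ := IsAlgClosed.exists_pow_nat_eq t⁻¹ hpos
  obtain ⟨a', ha'⟩ := IsAlgClosed.exists_pow_nat_eq t'⁻¹ hpos
  obtain ⟨e₀, he₀, he₀'⟩ := hS.sep
  obtain ⟨w, hwr, hwr'⟩ := exists_pair_lift hA he₀ he₀' (algebraMap k C a) (algebraMap k C a')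
  have ha0 : a ≠ 0 := fun h => inv_ne_zero ht (by rw [← ha, h, zero_pow hpos.ne'])
  have hw0 : w ≠ 0 := hwr.ne_zero ((map_ne_zero _).2 ha0)
  have hdiv' : divisorOf (g * w ^ p ^ n) = (p ^ n) • (X + divisorOf w) := by
    rw [divisorOf_mul hg (pow_ne_zero _ hw0), PTors.divisorOf_pow, hdiv, smul_add]
  obtain ⟨c, H, hH⟩ := hn g hdiv
  obtain ⟨c', H', hH'⟩ := hn' g hdiv
  obtain ⟨h, hh0, heq⟩ := smul_sub_nsmul_of_pow_norms T hperm hA hA0 hS hS' hw hw' hζ hpL hχ
    (X := X + divisorOf w) (by rw [map_add, hdeg, degree_divisorOf, add_zero])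
    (g := g * w ^ p ^ n)
    (by
      have := hr.mul (hwr.pow (p ^ n))
      rwa [← map_pow, ← map_mul, ha, mul_inv_cancel₀ ht, map_one] at this)
    (by
      have := hr'.mul (hwr'.pow (p ^ n))
      rwa [← map_pow, ← map_mul, ha', mul_inv_cancel₀ ht', map_one] at this)
    hdiv' (c := c) (H := H * Algebra.norm E w) (by rw [map_mul, map_pow, hH]; ring)
    (c' := c') (H' := H' * Algebra.norm E' w) (by rw [map_mul, map_pow, hH']; ring)
  refine ⟨h * (w ^ χ * (toRingAut T.s w)⁻¹), mul_ne_zero hh0 (mul_ne_zero (pow_ne_zero _ hw0)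
    (inv_ne_zero ((map_ne_zero _).2 hw0))), ?_⟩
  rw [divisorOf_mul hh0 (mul_ne_zero (pow_ne_zero _ hw0) (inv_ne_zero ((map_ne_zero _).2 hw0))),
    divisorOf_mul (pow_ne_zero _ hw0) (inv_ne_zero ((map_ne_zero _).2 hw0)), divisorOf_inv,
    PTors.divisorOf_pow, divisorOf_toRingAut, ← heq, smul_add, smul_add]
  abel

end main

end FLTAgent.RT.AtP
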