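import Fermat.Agent.RT.AtP.LevelToric
import Fermat.Agent.Semistable.X0Node
import Fermat.Agent.Semistable.Count
import Fermat.Agent.Semistable.X0Genus
import Fermat.Agent.Eisen.LevelPull

/-!
# The toric identity of level `M p` through an auxiliary level

Crossing data exist at the level `4 M`, which has no elliptic points. Pull back and push forward
commute in the square of levels `M, M p, 4 M, 4 M p`, so the toric identity comes down up to the
degree of the covering.
-/

set_option autoImplicit false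
set_option linter.style.haveILetI false
set_option linter.unusedSectionVars false
set_option synthInstance.maxHeartbeats 100000

noncomputable section

open ModularCurve AlgebraicCurve IsLocalRing SemilinearAut

namespace FLTAgent.RT.AtP

open FLTAgent.GoodRed FLTAgent.Hecke FLTAgent.Semistable FLTAgent.GalRep FLTAgent.LevelSq

local notation "Qbar" => AlgebraicClosure ℚ
local notation "Γℚ" => AlgebraicClosure ℚ ≃ₐ[ℚ] AlgebraicClosure ℚ

/-- Generation of a compositum is symmetric. -/
theorem adjoin_range_swap {K A B Z : Type*} [Field K] [Field A] [Field B] [Field Z] [Algebra K A]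
    [Algebra K B] [Algebra K Z] (φ : A →ₐ[K] Z) (ψ : B →ₐ[K] Z)
    (h : letI := algebraAlong φ; Algebra.adjoin A (Set.range ψ) = ⊤) :
    letI := algebraAlong ψ; Algebra.adjoin B (Set.range φ) = ⊤ := by
  letI := algebraAlong φ
  have hz : ∀ z : Z, z ∈ Algebra.adjoin A (Set.range ψ) := fun z => by rw [h]; trivial
  letI := algebraAlong ψ
  refine eq_top_iff.2 fun z hmem => ?_
  clear hmem
  induction hz z using Algebra.adjoin_induction with
  | mem x hx =>
    obtain ⟨b, rfl⟩ := hx
    exact Subalgebra.algebraMap_mem _ b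
  | algebraMap a => exact Algebra.subset_adjoin ⟨a, rfl⟩
  | add x y _ _ hx hy => exact add_mem hx hy
  | mul x y _ _ hx hy => exact mul_mem hx hy

/-- Generation of a compositum is preserved by an automorphism preserving one of the fields. -/
theorem adjoin_range_map {K A B Z : Type*} [Field K] [Field A] [Field B] [Field Z] [Algebra K A]
    [Algebra K B] [Algebra K Z] (w : Z ≃ₐ[K] Z) (φ φ' : A →ₐ[K] Z) (ψ : B →ₐ[K] Z)
    (hφ : ∀ a, w (φ a) = φ' a) (hψ : ∀ b, w (ψ b) ∈ Set.range ψ)
    (h : letI := algebraAlong φ; Algebra.adjoin A (Set.range ψ) = ⊤) :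
    letI := algebraAlong φ'; Algebra.adjoin A (Set.range ψ) = ⊤ := by
  letI := algebraAlong φ'
  set S := Algebra.adjoin A (Set.range ψ) with hS
  have hb : ∀ b, w (ψ b) ∈ S := fun b => Algebra.subset_adjoin (hψ b)
  have ha : ∀ a, w (φ a) ∈ S := fun a => by rw [hφ]; exact S.algebraMap_mem a
  clear_value S
  letI := algebraAlong φ
  have hz : ∀ z : Z, w z ∈ S := fun z => by
    have hz' : z ∈ Algebra.adjoin A (Set.range ψ) := by rw [h]; trivial
    induction hz' using Algebra.adjoin_induction with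
    | mem x hx => obtain ⟨b, rfl⟩ := hx; exact hb b
    | algebraMap a => exact ha a
    | add x y _ _ hx hy => rw [map_add]; exact add_mem hx hy
    | mul x y _ _ hx hy => rw [map_mul]; exact mul_mem hx hy
  exact eq_top_iff.2 fun z _ => w.apply_symm_apply z ▸ hz _

variable {M M' p : ℕ} [NeZero M] [NeZero M'] [Fact p.Prime]

local instance : NeZero p := ⟨(Fact.out : p.Prime).ne_zero⟩

theorem squareTop (hMM' : M ∣ M') : M * p * 1 ∣ M' * p := by
  rw [mul_one]; exact Nat.mul_dvd_mul_right hMM' p

theorem squareBot (hMM' : M ∣ M') : M * 1 ∣ M' := by rwa [mul_one]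

/-- The field of level `M' p` is generated by the images of those of levels `M'` and `M p`. -/
theorem adjoin_square_eq_top (hMM' : M ∣ M') (hpM' : ¬ p ∣ M') (d : ℕ) [NeZero d]
    (hd' : M' * d ∣ M' * p) (hd : d = 1 ∨ d = p) :
    letI := algebraAlong (degMap Qbar d hd')
    Algebra.adjoin (MF Qbar M') (Set.range (degMap Qbar 1 (squareTop (p := p) hMM'))) = ⊤ := by
  have hbeta : letI := algebraAlong (degMap Qbar p (dvd_refl (M' * p)))
      Algebra.adjoin (MF Qbar M') (Set.range (degMap Qbar 1 (squareTop (p := p) hMM'))) = ⊤ :=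
    adjoin_range_swap _ _
      (adjoin_range_degMap (levelFacts Qbar) (degreeFacts Qbar) p (squareTop (p := p) hMM')
        (dvd_refl (M' * p)) (mul_comm _ _))
  rcases hd with rfl | rfl
  swap
  · exact hbeta
  obtain ⟨w, hwα, hwβ, hww⟩ := exists_swap Qbar M' p Fact.out hpM'
  have hgenM : letI := algebraAlong (degMap Qbar 1 (alphaLevel' (M := M) (p := p)))
      Algebra.adjoin (MF Qbar M) (Set.range (degMap Qbar p (dvd_refl (M * p)))) = ⊤ :=
    adjoin_range_degMap (levelFacts Qbar) (degreeFacts Qbar) p _ _ (mul_comm _ _)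
  set incl := degMap Qbar 1 (squareTop (p := p) hMM')
  set inclM := degMap Qbar 1 (squareBot hMM')
  have hrange : ∀ y : MF Qbar (M * p), w (incl y) ∈ Set.range incl := by
    letI := algebraAlong (degMap Qbar 1 (alphaLevel' (M := M) (p := p)))
    intro y
    have hy : y ∈ Algebra.adjoin (MF Qbar M) (Set.range (degMap Qbar p (dvd_refl (M * p)))) := by
      rw [hgenM]; trivial
    induction hy using Algebra.adjoin_induction with
    | mem x hx =>
      obtain ⟨u, rfl⟩ := hx
      refine ⟨degMap Qbar 1 (alphaLevel' (M := M) (p := p)) u, ?_⟩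
      rw [show incl (degMap Qbar p (dvd_refl (M * p)) u) = betaMap Qbar M' p (inclM u) from
        degMap_comm Qbar p 1 1 p _ _ _ _ (by ring) u, hwβ]
      exact degMap_comm Qbar 1 1 1 1 _ _ _ _ rfl u
    | algebraMap u =>
      refine ⟨degMap Qbar p (dvd_refl (M * p)) u, ?_⟩
      show _ = w (incl (degMap Qbar 1 (alphaLevel' (M := M) (p := p)) u))
      rw [show incl (degMap Qbar 1 (alphaLevel' (M := M) (p := p)) u) =
          alphaMap Qbar M' p (inclM u) from degMap_comm Qbar 1 1 1 1 _ _ _ _ rfl u, hwα]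
      exact degMap_comm Qbar p 1 1 p _ _ _ _ (by ring) u
    | add x y _ _ hx hy =>
      obtain ⟨a, ha⟩ := hx
      obtain ⟨b, hb⟩ := hy
      exact ⟨a + b, by rw [map_add, map_add, map_add, ha, hb]⟩
    | mul x y _ _ hx hy =>
      obtain ⟨a, ha⟩ := hx
      obtain ⟨b, hb⟩ := hy
      exact ⟨a * b, by rw [map_mul, map_mul, map_mul, ha, hb]⟩
  exact adjoin_range_map w _ _ incl (fun u => hwβ u) hrange hbeta
where
  alphaLevel' {M p : ℕ} : M * 1 ∣ M * p := Nat.mul_dvd_mul_left M (one_dvd p)

/-- The degrees of the two degeneracy maps. -/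
theorem finrankAlong_degMap_eq (hpM : ¬ p ∣ M) (d : ℕ) [NeZero d] (hd : M * d ∣ M * p)
    (h : d = 1 ∨ d = p) : finrankAlong Qbar (degMap Qbar d hd) = p + 1 := by
  rcases h with rfl | rfl
  · exact Semistable.finrankAlong_alphaMap Qbar M p Fact.out hpM
  · obtain ⟨w, hwα, hwβ, -⟩ := Semistable.exists_swap Qbar M d Fact.out hpM
    have hα := Semistable.finrankAlong_alphaMap Qbar M d Fact.out hpM
    have eβ : degMap Qbar d hd = w.toAlgHom.comp (Semistable.alphaMap Qbar M d) :=
      AlgHom.ext fun u => (hwα u).symm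
    have eα : Semistable.alphaMap Qbar M d = w.toAlgHom.comp (degMap Qbar d hd) :=
      AlgHom.ext fun u => (hwβ u).symm
    have h1 := finrankAlong_comp (Semistable.alphaMap Qbar M d) w.toAlgHom
    have h2 := finrankAlong_comp (degMap Qbar d hd) w.toAlgHom
    rw [← eβ, hα] at h1
    rw [← eα, hα, h1, mul_assoc] at h2
    have hw1 : finrankAlong Qbar w.toAlgHom = 1 :=
      by simpa using h2.symm
    rw [h1, hw1, mul_one]

/-- Pullback to an auxiliary level commutes with the two degeneracy push-forwards. -/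
theorem pushPic_pullPic_square (hMM' : M ∣ M') (hpM' : ¬ p ∣ M') (d : ℕ) [NeZero d]
    (hd : M * d ∣ M * p) (hd' : M' * d ∣ M' * p) (h : d = 1 ∨ d = p) (x : JZero (M * p)) :
    pushPic d hd' (Eisen.pullPic 1 (squareTop hMM') x) =
      Eisen.pullPic 1 (squareBot hMM') (pushPic d hd x) := by
  obtain ⟨D, rfl⟩ := Pic0.mk_surjective x
  rw [Eisen.pullPic_mk, pushPic_mk, pushPic_mk, Eisen.pullPic_mk]
  refine congrArg Pic0.mk (Subtype.ext ?_)
  have H := levelFacts Qbar
  haveI := H.principal M'
  haveI := H.principal (M * p)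
  haveI := H.principal (M' * p)
  have hcomm : ∀ u, degMap Qbar d hd' (degMap Qbar 1 (squareBot hMM') u) =
      degMap Qbar 1 (squareTop hMM') (degMap Qbar d hd u) :=
    degMap_comm Qbar 1 d d 1 _ _ _ _ (by ring)
  show Divisor.pushforwardAlong (degMap Qbar d hd') (H.integral d hd')
      (Divisor.pullbackAlong (degMap Qbar 1 (squareTop hMM')) (H.integral 1 (squareTop hMM'))
        (D : Divisor Qbar (MF Qbar (M * p)))) =
    Divisor.pullbackAlong (degMap Qbar 1 (squareBot hMM')) (H.integral 1 (squareBot hMM'))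
      (Divisor.pushforwardAlong (degMap Qbar d hd) (H.integral d hd)
        (D : Divisor Qbar (MF Qbar (M * p))))
  exact (Hecke.pullbackAlong_pushforwardAlong (degMap Qbar 1 (squareBot hMM')) (degMap Qbar d hd)
    (degMap Qbar 1 (squareTop hMM')) (degMap Qbar d hd') hcomm (H.integral 1 _) (H.integral d _)
    (H.integral 1 _) (H.integral d _) (H.finite _ _ d hd) (H.norm _ _ d hd _)
    (H.finite _ _ d hd') (H.norm _ _ d hd' _)
    (normAlong_baseChange (degMap Qbar 1 (squareBot hMM')) (degMap Qbar d hd)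
      (degMap Qbar 1 (squareTop hMM')) (degMap Qbar d hd') hcomm (H.finite _ _ d hd)
      (by rw [finrankAlong_degMap_eq hpM' d hd' h,
        finrankAlong_degMap_eq (fun hp => hpM' (hp.trans hMM')) d hd h])
      (adjoin_square_eq_top hMM' hpM' d hd' h)) _).symm

variable {A : ValuationSubring (AlgebraicClosure ℚ)}

set_option maxHeartbeats 1000000 in
-- the statement mentions several large fields
/-- **The toric identity on `J₀(Mp)`**, up to a nonzero integer. -/
theorem exists_smul_inertia_sub_eq (M : ℕ) [NeZero M] (hA : A.LiesOverPrime p) (hp2 : p ≠ 2)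
    (hpM : ¬ p ∣ M) :
    ∃ D : ℕ, D ≠ 0 ∧ ∀ (n : ℕ) (x : JZero (M * p)), p ^ n • x = 0 →
      pushPic 1 (by rw [mul_one]; exact dvd_mul_right M p : M * 1 ∣ M * p) x = 0 →
      pushPic p (dvd_rfl : M * p ∣ M * p) x = 0 → ∀ σ τ : Γℚ,
      (σ ∈ A.inertiaSubgroupIn ℚ ∨ ∃ g ∈ A.decompositionSubgroup ℚ, σ = g * g) →
      τ ∈ A.inertiaSubgroupIn ℚ →
      D • σ • (τ • x - x) = D • ((cyclo p σ : ℤ_[p]).toZModPow n).val • (τ • x - x) := by
  have hp : p.Prime := Fact.out
  have hMM' : M ∣ 4 * M := dvd_mul_left M 4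
  have hpM' : ¬ p ∣ 4 * M := fun h => (hp.dvd_mul.1 h).elim
    (fun h4 => hp2 ((Nat.prime_dvd_prime_iff_eq hp Nat.prime_two).1
      (hp.dvd_of_dvd_pow (show p ∣ 2 ^ 2 from h4)))) hpM
  have : NeZero (4 * M) := ⟨mul_ne_zero (by norm_num) (NeZero.ne M)⟩
  haveI := WeilPairing.charP_residueField hp hA
  haveI := GoodRed.isAlgClosed_residue A
  haveI := isFunctionField_fullC A hA (4 * M) hpM'
  have h2 : nuTwo (4 * M) = 0 := nuTwo_mul_eq_zero (by
    rw [nuTwo, Nat.card_eq_zero]; exact Or.inl ⟨fun x => absurd x.2 (by revert x; decide)⟩)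
  have h3 : nuThree (4 * M) = 0 := nuThree_mul_eq_zero (by
    rw [nuThree, Nat.card_eq_zero]; exact Or.inl ⟨fun x => absurd x.2 (by revert x; decide)⟩)
  obtain ⟨ι, _, X, hfr, hx, hG₁, hG₂⟩ := exists_x0CrossData hA hpM' h2 h3
    (mul_psi_le_card_crossingSet hA hpM' h2 h3 (fun h => absurd h hp2)
      fun _ => (show (2 : ℕ) ∣ 4 by norm_num).mul_right M)
  refine ⟨finrankAlong Qbar (degMap Qbar 1 (squareTop (p := p) hMM')), ?_,
    fun n x hn h₁ h₂ σ τ hσ hτ => ?_⟩
  · letI := algebraAlong (degMap Qbar 1 (squareTop (p := p) hMM'))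
    haveI : Module.Finite (MF Qbar (M * p)) (MF Qbar (4 * M * p)) :=
      (levelFacts Qbar).finite _ _ 1 _
    exact Module.finrank_pos.ne'
  set pull := Eisen.pullPic 1 (squareTop (p := p) hMM') with hpull
  have key := smul_inertia_sub_eq hfr hx hG₁ hG₂ (n := n) (x := pull x)
    (by rw [← map_nsmul, hn, map_zero])
    (by rw [hpull, pushPic_pullPic_square hMM' hpM' 1
        (by rw [mul_one]; exact dvd_mul_right M p) _ (Or.inl rfl), h₁, map_zero])
    (by rw [hpull, pushPic_pullPic_square hMM' hpM' p dvd_rfl _ (Or.inr rfl), h₂, map_zero])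
    hσ hτ
  have key' := congrArg (pushPic 1 (squareTop (p := p) hMM')) key
  simp only [map_sub, map_nsmul, hpull, ← Eisen.pullPic_smul, Eisen.pushPic_pullPic,
    LevelSq.pushPic_smul] at key'
  rw [← smul_nsmul_jZero, nsmul_sub, key', ← nsmul_sub, smul_comm]

end FLTAgent.RT.AtP
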