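import Fermat.Agent.FlatModel.ResidualShape
import Mathlib.LinearAlgebra.Matrix.ToLinearEquiv
import Mathlib.LinearAlgebra.Matrix.Trace

/-!
# A commutator with trace different from two

If an involution has determinant `-1`, some commutator with it has trace residually different
from `2` in an absolutely irreducible two-dimensional representation.
-/

set_option autoImplicit false

namespace FLTAgent.RT.AtP

open Matrix IsLocalRing GalRep FlatModel

local notation "Γℚ" => AlgebraicClosure ℚ ≃ₐ[ℚ] AlgebraicClosure ℚ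

variable {k : Type*} [Field k]

/-- A non scalar involution has a basis of eigenvectors. -/
theorem exists_diagonalise {X : Matrix (Fin 2) (Fin 2) k} (h2 : (2 : k) ≠ 0) (hX : X * X = 1)
    (h₁ : X ≠ 1) (h₂ : X ≠ -1) :
    ∃ C C' : Matrix (Fin 2) (Fin 2) k, C * C' = 1 ∧ C' * C = 1 ∧ C * X * C' = !![1, 0; 0, -1] := by
  obtain ⟨i, hi⟩ : ∃ i, (1 + X) i ≠ 0 := by
    by_contra! h
    exact h₂ (eq_neg_of_add_eq_zero_right (funext h))
  obtain ⟨j, hj⟩ : ∃ j, (1 - X) j ≠ 0 := by
    by_contra! h
    exact h₁ (sub_eq_zero.1 (funext h)).symm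
  have hr : (1 + X) i ᵥ* X = (1 + X) i := by
    show ((1 + X) * X) i = _
    rw [add_mul, one_mul, hX, add_comm]
  have hs : (1 - X) j ᵥ* X = -(1 - X) j := by
    show ((1 - X) * X) j = (-(1 - X)) j
    rw [sub_mul, one_mul, hX, neg_sub]
  set C : Matrix (Fin 2) (Fin 2) k := Matrix.of ![(1 + X) i, (1 - X) j] with hC
  have hdet : C.det ≠ 0 := by
    intro h0
    obtain ⟨v, hv, hv0⟩ := Matrix.exists_vecMul_eq_zero_iff.2 h0
    have e1 : v 0 • (1 + X) i + v 1 • (1 - X) j = 0 := by
      rw [← hv0]; funext b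
      simp [hC, Matrix.vecMul, dotProduct, Fin.sum_univ_two]
    have e2 : v 0 • (1 + X) i - v 1 • (1 - X) j = 0 := by
      have := congrArg (· ᵥ* X) e1
      simp only [Matrix.add_vecMul, Matrix.smul_vecMul, hr, hs, Matrix.zero_vecMul, smul_neg] at this
      rwa [← sub_eq_add_neg] at this
    have e3 : (2 * v 0) • (1 + X) i = 0 := by linear_combination (norm := module) e1 + e2
    have h0' : v 0 = 0 := by simpa [h2, hi] using e3
    rw [h0', zero_smul, zero_add] at e1
    refine hv (funext fun b => ?_)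
    fin_cases b
    · exact h0'
    · simpa [hj] using e1
  obtain ⟨C', hC'⟩ := ((Matrix.isUnit_iff_isUnit_det C).2 hdet.isUnit).exists_right_inv
  refine ⟨C, C', hC', mul_eq_one_comm.1 hC', ?_⟩
  have hCX : C * X = !![1, 0; 0, -1] * C := by
    ext a b
    fin_cases a
    · have := congrFun hr b
      simp [hC, Matrix.vecMul, Matrix.mul_apply, dotProduct, Fin.sum_univ_two] at this ⊢
      exact this
    · have := congrFun hs b
      simp [hC, Matrix.vecMul, Matrix.mul_apply, dotProduct, Fin.sum_univ_two] at this ⊢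
      exact this
  rw [hCX, Matrix.mul_assoc, hC', Matrix.mul_one]

/-- In a spanning representation some commutator with a non scalar involution is invertible. -/
theorem exists_det_commutator {G : Type*} [Group G] (M : G →* Matrix (Fin 2) (Fin 2) k)
    (hspan : Submodule.span k (Set.range M) = ⊤) (h2 : (2 : k) ≠ 0) {c : G} (hc : c * c = 1)
    (hdet : (M c).det = -1) : ∃ y, (M c * M y - M y * M c).det ≠ 0 := by
  have h1 : (1 : k) ≠ -1 := fun h => h2 (by linear_combination h)
  obtain ⟨C, C', hC, hC', hX⟩ := exists_diagonalise h2 (X := M c) (by rw [← map_mul, hc, map_one])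
    (fun h => h1 (by rw [← hdet, h, det_one]))
    (fun h => h1 (by rw [← hdet, h]; simp [det_fin_two]))
  set N : G →* Matrix (Fin 2) (Fin 2) k :=
    { toFun := fun g => C * M g * C'
      map_one' := by rw [map_one, Matrix.mul_one, hC]
      map_mul' := fun g g' => by
        rw [map_mul, show C * M g * C' * (C * M g' * C') = C * M g * (C' * C) * (M g' * C') by
          simp only [Matrix.mul_assoc], hC', Matrix.mul_one]
        simp only [Matrix.mul_assoc] } with hN
  have hent : ∀ a b : Fin 2, ∃ g, N g a b ≠ 0 := by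
    intro a b
    by_contra! hall
    let φ : Matrix (Fin 2) (Fin 2) k →ₗ[k] k :=
      (Matrix.entryLinearMap k k a b) ∘ₗ (LinearMap.mulRight k C') ∘ₗ (LinearMap.mulLeft k C)
    have h0 : φ = 0 := LinearMap.ext_on hspan (by rintro _ ⟨g, rfl⟩; exact hall g)
    have h3 := LinearMap.congr_fun h0 (C' * Matrix.single a b 1 * C)
    simp only [φ, LinearMap.comp_apply, LinearMap.mulLeft_apply, LinearMap.mulRight_apply,
      Matrix.entryLinearMap_apply, LinearMap.zero_apply, Matrix.mul_assoc] at h3
    rw [hC, Matrix.mul_one, ← Matrix.mul_assoc C, hC, Matrix.one_mul] at h3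
    simp at h3
  obtain ⟨y, hy₁, hy₂⟩ : ∃ y, N y 0 1 ≠ 0 ∧ N y 1 0 ≠ 0 := by
    obtain ⟨g₁, h₁⟩ := hent 1 0
    obtain ⟨g₂, h₂⟩ := hent 0 1
    by_cases e1 : N g₁ 0 1 = 0
    swap
    · exact ⟨g₁, e1, h₁⟩
    by_cases e2 : N g₂ 1 0 = 0
    swap
    · exact ⟨g₂, h₂, e2⟩
    have hne : ∀ g, (N g).det ≠ 0 := fun g hg => by
      have h3 : (N g).det * (N g⁻¹).det = 1 := by
        rw [← det_mul, ← map_mul, mul_inv_cancel, map_one, det_one]
      rw [hg, zero_mul] at h3
      exact zero_ne_one h3
    have d1 := hne g₁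
    have d2 := hne g₂
    rw [det_fin_two, e1, zero_mul, sub_zero] at d1
    rw [det_fin_two, e2, mul_zero, sub_zero] at d2
    refine ⟨g₁ * g₂, ?_, ?_⟩
    · rw [map_mul, Matrix.mul_apply, Fin.sum_univ_two, e1, zero_mul, add_zero]
      exact mul_ne_zero (left_ne_zero_of_mul d1) h₂
    · rw [map_mul, Matrix.mul_apply, Fin.sum_univ_two, e2, mul_zero, add_zero]
      exact mul_ne_zero h₁ (left_ne_zero_of_mul d2)
  refine ⟨y, fun h => ?_⟩
  have e : N c * N y - N y * N c = C * (M c * M y - M y * M c) * C' := by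
    rw [← map_mul, ← map_mul, Matrix.mul_sub, Matrix.sub_mul, ← map_mul M, ← map_mul M]
    rfl
  have h4 : (N c * N y - N y * N c).det = 0 := by rw [e, det_mul, det_mul, h, mul_zero, zero_mul]
  have hNc : N c = !![1, 0; 0, -1] := hX
  rw [hNc, Matrix.eta_fin_two (N y)] at h4
  simp [det_fin_two] at h4
  rcases h4 with h5 | h5
  · exact mul_ne_zero h2 hy₁ (by linear_combination h5)
  · exact mul_ne_zero h2 hy₂ (by linear_combination -h5)

variable {T : Type} [CommRing T] [IsLocalRing T]

/-- Some commutator with the involution has `2 - trace` a unit. -/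
theorem exists_isUnit_trace_commutator (ρ : GaloisRepAdic T)
    (habs : ρ.residual.IsAbsolutelyIrreducible) (h2 : IsUnit (2 : T)) {c : Γℚ} (hc : c * c = 1)
    (hdet : (repMat ρ c).det = -1) : ∃ y, IsUnit (2 - ρ.trace (c * y * c⁻¹ * y⁻¹)) := by
  obtain ⟨y, hy⟩ := exists_det_commutator (residualMat ρ) (span_range_residualMat ρ habs)
    (by rw [← map_ofNat (residue T)]; exact (residue_ne_zero_iff_isUnit _).2 h2) hc
    (by
      show ((residue T).mapMatrix (repMat ρ c)).det = -1
      rw [← RingHom.map_det, hdet, map_neg, map_one])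
  refine ⟨y, (residue_ne_zero_iff_isUnit _).1 fun h => hy ?_⟩
  set w := c * y * c⁻¹ * y⁻¹
  have hdw : (repMat ρ w).det = 1 := by
    have hu : ∀ g, (repMat ρ g).det * (repMat ρ g⁻¹).det = 1 := fun g => by
      rw [← det_mul, ← map_mul, mul_inv_cancel, map_one, det_one]
    simp only [w, map_mul, det_mul]
    linear_combination (repMat ρ c).det * (repMat ρ c⁻¹).det * hu y + hu c
  have e : repMat ρ c * repMat ρ y - repMat ρ y * repMat ρ c =
      (repMat ρ w - 1) * (repMat ρ y * repMat ρ c) := by
    rw [Matrix.sub_mul, Matrix.one_mul, ← map_mul, ← map_mul, ← map_mul,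
      show w * (y * c) = c * y by simp only [w]; group]
  have e2 : (repMat ρ w - 1).det = 2 - ρ.trace w := by
    rw [← trace_repMat, Matrix.trace_fin_two, det_fin_two]
    rw [det_fin_two] at hdw
    simp only [Matrix.sub_apply, Matrix.one_apply, if_true, if_false, Fin.isValue,
      zero_ne_one, one_ne_zero]
    linear_combination hdw
  have e3 : (residualMat ρ c * residualMat ρ y - residualMat ρ y * residualMat ρ c) =
      (residue T).mapMatrix (repMat ρ c * repMat ρ y - repMat ρ y * repMat ρ c) := by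
    rw [map_sub, map_mul, map_mul]; rfl
  rw [e3, ← RingHom.map_det, e, det_mul, e2, map_mul, h, zero_mul]

end FLTAgent.RT.AtP
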