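import Fermat.Agent.Semistable.PTorsSides
import Mathlib.Algebra.CharP.Lemmas
import Mathlib.FieldTheory.Finite.Basic

/-!
# Expansions of `p`-th powers at the threshold
-/

set_option autoImplicit false
set_option linter.unusedSectionVars false

noncomputable section

namespace FLTAgent.RT.AtP

open FLTAgent.GoodRed FLTAgent.GoodRed.RedDatum FLTAgent.Semistable

variable {L k : Type*} [Field L] [Field k] {A : ValuationSubring L} {π : A →+* k} {p : ℕ}
  [CharP k p] {ζ : A} {F C : Type*} [Field F] [Algebra L F] [Field C] [Algebra k C]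
  {D : RedDatum A π F C}

/-- `(ζ - 1) ^ p = thr * κ` with `κ` reducing to `-1`. -/
theorem exists_kappa (hp : p.Prime) (hζ : IsPrimitiveRoot ζ p) :
    ∃ κ : A, (ζ - 1) ^ p = PTors.thr p ζ * κ ∧ π κ = -1 := by
  obtain ⟨w, hw⟩ := PTors.exists_expand hp (ζ - 1)
  rw [add_sub_cancel, hζ.pow_eq_one] at hw
  refine ⟨-(1 + (ζ - 1) * w), by rw [PTors.thr]; linear_combination -hw, ?_⟩
  rw [map_neg, map_add, map_mul, map_sub, PTors.residue_root hp hζ]
  simp

/-- `(h + x r) ^ p ≡ h ^ p + x ^ p r ^ p` modulo `p x`. -/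
theorem close_add_pow (hp : p.Prime) {x : A} {h r : F} (hh : h ∈ D.V) (hr : r ∈ D.V) :
    Close D ((p : A) * x) ((h + (x : L) • r) ^ p) (h ^ p + ((x ^ p : A) : L) • r ^ p) := by
  obtain ⟨w, hw⟩ := (Commute.all (⟨h, hh⟩ : D.V)
    (⟨algebraMap L F x, (D.mem_iff _).2 x.2⟩ * ⟨r, hr⟩)).exists_add_pow_prime_eq hp
  refine ⟨h * r * (w : F), mul_mem (mul_mem hh hr) w.2, ?_⟩
  have e := congrArg (fun t : D.V => (t : F)) hw
  push_cast at e
  simp only [Algebra.smul_def, MulMemClass.coe_mul, SubmonoidClass.coe_pow, map_mul, map_pow,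
    SubringClass.coe_natCast, map_natCast] at e ⊢
  linear_combination e

/-- The first term at the threshold. -/
theorem red_threshold (hπ : IsResidueMap A π) (hp : p.Prime) (hζ : IsPrimitiveRoot ζ p)
    (hpL : (p : L) ≠ 0) {h r e : F} {σ v : C} (hh : D.Red h σ) (hσ : σ ≠ 0) (hr : D.Red r v)
    (he : Close D (PTors.thr p ζ * (p : A)) e (h ^ p)) :
    D.Red (((PTors.thr p ζ : A) : L)⁻¹ • ((h + ((ζ - 1 : A) : L) • r) ^ p - e))
      (σ ^ (p - 1) * v - v ^ p) := by
  obtain ⟨κ, hκ, hπκ⟩ := exists_kappa (π := π) hp hζ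
  have hh0 := hh.ne_zero hσ
  have hy : D.Red (r / h) (v / σ) := hr.div hh hσ
  set x : A := ζ - 1
  obtain ⟨w, hw⟩ := PTors.exists_expand hp
    ((⟨algebraMap L F x, (D.mem_iff _).2 x.2⟩ : D.V) * ⟨r / h, hy.mem⟩)
  have e1 := congrArg (fun t : D.V => (t : F)) hw
  push_cast at e1
  obtain ⟨w₀, hw₀, e2⟩ := he
  obtain ⟨b, hb⟩ := exists_red w.2
  obtain ⟨b₀, hb₀⟩ := exists_red hw₀
  set cx := algebraMap L F (x : L)
  have hthr : ((PTors.thr p ζ : A) : L) ≠ 0 := PTors.thr_ne_zero hp hζ hpL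
  have hxp : cx ^ p = algebraMap L F ((PTors.thr p ζ : A) : L) * algebraMap L F (κ : L) := by
    rw [← map_mul, ← map_pow]
    congr 1
    exact_mod_cast congrArg (fun t : A => (t : L)) hκ
  have key : (h + (x : L) • r) ^ p - e = ((PTors.thr p ζ : A) : L) •
      (h ^ p * (r / h + (x : L) • ((r / h) ^ 2 * (w : F)) + (κ : L) • (r / h) ^ p)
        - ((p : A) : L) • w₀) := by
    have e3 : h + (x : L) • r = h * (1 + cx * (r / h)) := by
      rw [Algebra.smul_def, mul_add, mul_one, mul_left_comm, mul_div_cancel₀ _ hh0]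
    rw [e3, mul_pow, e1, mul_pow cx (r / h) p, hxp]
    simp only [Algebra.smul_def, MulMemClass.coe_mul, map_mul] at e2 ⊢
    simp only [PTors.thr, MulMemClass.coe_mul, SubringClass.coe_natCast, map_mul, map_natCast,
      cx, x] at e2 ⊢
    linear_combination -e2
  rw [key, inv_smul_smul₀ hthr]
  have hsum := (((hy.add (red_smul x ((hy.pow 2).mul hb))).add
    (red_smul κ (hy.pow p))))
  have hfin := ((hh.pow p).mul hsum).sub (red_smul (p : A) hb₀)
  convert hfin using 1
  rw [show π x = 0 by simp [x, PTors.residue_root hp hζ], hπκ, map_natCast, CharP.cast_eq_zero,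
    zero_smul, zero_smul, sub_zero, add_zero, Algebra.smul_def, map_neg, map_one, div_pow]
  obtain ⟨m, rfl⟩ : ∃ m, p = m + 1 := Nat.exists_eq_succ_of_ne_zero hp.ne_zero
  rw [Nat.add_sub_cancel]
  field_simp
  ring

/-- One division free Newton step. -/
theorem close_newton (hπ : IsResidueMap A π) (hp : p.Prime) (hζ : IsPrimitiveRoot ζ p)
    (hpL : (p : L) ≠ 0) {E T G : A} (hGE : G ∣ E * E) (hGT : G ∣ T) {h S P Se Pe : F}
    {a b : C} (hh : D.Red h 1) (hS : D.Red S a) (ha : a ≠ 0) (hSe : D.Red Se b) (hPe : Pe ∈ D.V)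
    (hc : Close D ((ζ - 1) * E) P (S * h))
    (he : Close D (PTors.thr p ζ * T) Pe (Se * h ^ p)) :
    P * (S ^ p * Pe) - P * ((p : L)⁻¹ • (P ^ p * Se - S ^ p * Pe)) ∈ D.V ∧
      Close D ((ζ - 1) * G) (P * (S ^ p * Pe) - P * ((p : L)⁻¹ • (P ^ p * Se - S ^ p * Pe)))
        (S * (S ^ p * Pe) * h) := by
  obtain ⟨κ, hκ, -⟩ := exists_kappa (π := π) hp hζ
  obtain ⟨s₁, hs₁⟩ := hGE
  obtain ⟨s₂, hs₂⟩ := hGT
  obtain ⟨w, hw, e⟩ := hc
  obtain ⟨w₁, hw₁, e'⟩ := he
  have ha0 : S * h ≠ 0 := (hS.mul hh).ne_zero (by simpa using ha)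
  have hinv : D.Red ((S * h)⁻¹) ((a * 1)⁻¹) := (hS.mul hh).inv (by simpa using ha)
  set y := w * (S * h)⁻¹ with hy
  have hyV : y ∈ D.V := mul_mem hw hinv.mem
  have hP : P = S * h * (1 + algebraMap L F (((ζ - 1) * E : A) : L) * y) := by
    rw [mul_add, mul_one, hy, mul_left_comm, ← mul_assoc (S * h) w, mul_comm (S * h) w, mul_assoc w,
      mul_inv_cancel₀ ha0, mul_one, ← Algebra.smul_def, ← e]
    abel
  set cx : D.V := ⟨algebraMap L F ((ζ - 1 : A) : L), (D.mem_iff _).2 (ζ - 1 : A).2⟩ with hcx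
  set cE : D.V := ⟨algebraMap L F (E : L), (D.mem_iff _).2 E.2⟩ with hcE
  obtain ⟨w', hw'⟩ := PTors.exists_expand hp (cx * cE * (⟨y, hyV⟩ : D.V))
  have e1 := congrArg (fun t : D.V => (t : F)) hw'
  simp only [hcx, hcE, MulMemClass.coe_mul, SubmonoidClass.coe_pow, AddMemClass.coe_add,
    OneMemClass.coe_one, SubringClass.coe_natCast] at e1
  set X := algebraMap L F ((ζ - 1 : A) : L) with hX
  set cG := algebraMap L F (G : L)
  set cT := algebraMap L F (T : L) with hcT
  set E' := algebraMap L F (E : L) with hE'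
  set M₁ : F := X * y ^ 2 * (w' : F) + algebraMap L F (κ : L) * E' ^ (p - 2) * y ^ p with hM₁
  set q := Se * h ^ p with hq
  have hXp : X ^ p = (p : F) * X * algebraMap L F (κ : L) := by
    rw [hX, ← map_natCast (algebraMap L F) p, ← map_mul, ← map_mul, ← map_pow]
    congr 1
    have := congrArg (fun t : A => (t : L)) hκ
    simp only [PTors.thr] at this
    push_cast at this ⊢
    exact this
  have hEp : E' ^ p = E' * E' * E' ^ (p - 2) := by
    rw [← pow_two, ← pow_add, Nat.add_sub_cancel' hp.two_le]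
  have hqe : q = Pe - (p : F) * X * cT * w₁ := by
    rw [Algebra.smul_def] at e'
    simp only [PTors.thr, MulMemClass.coe_mul, SubringClass.coe_natCast, map_mul, map_natCast]
      at e'
    simp only [hX, hcT]
    linear_combination -e'
  have hpF : (p : F) ≠ 0 := by
    rw [← map_natCast (algebraMap L F)]; exact (map_ne_zero _).2 hpL
  have hY : (p : L)⁻¹ • (P ^ p * Se - S ^ p * Pe) =
      S ^ p * (X * (E' * (y + E' * M₁) * q - cT * w₁)) := by
    rw [Algebra.smul_def, map_inv₀, map_natCast]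
    refine mul_left_cancel₀ hpF ?_
    rw [mul_inv_cancel_left₀ hpF, hP, mul_pow, mul_pow, MulMemClass.coe_mul, map_mul, e1, hM₁,
      mul_pow (X * E') y p, mul_pow X E' p, hXp, hEp]
    linear_combination S ^ p * hqe
  have hmem : ∀ a : A, algebraMap L F (a : L) ∈ D.V := fun a => (D.mem_iff _).2 a.2
  have hM₁V : M₁ ∈ D.V := add_mem (mul_mem (mul_mem (hmem _) (pow_mem hyV 2)) w'.2)
    (mul_mem (mul_mem (hmem _) (pow_mem (hmem _) _)) (pow_mem hyV _))
  have hqV : q ∈ D.V := mul_mem hSe.mem (pow_mem hh.mem p)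
  set R := algebraMap L F (s₂ : L) * (w₁ * (1 + X * E' * y + (p : F) * X * E' * y)) -
    algebraMap L F (s₁ : L) * (M₁ * q + X * y * ((y + E' * M₁) * q)) with hR
  have hRV : R ∈ D.V :=
    sub_mem (mul_mem (hmem _) (mul_mem hw₁ (add_mem (add_mem (one_mem _)
      (mul_mem (mul_mem (hmem _) (hmem _)) hyV))
      (mul_mem (mul_mem (mul_mem (natCast_mem _ p) (hmem _)) (hmem _)) hyV))))
      (mul_mem (hmem _) (add_mem (mul_mem hM₁V hqV) (mul_mem (mul_mem (hmem _) hyV)
        (mul_mem (add_mem hyV (mul_mem (hmem _) hM₁V)) hqV))))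
  have hPV : P ∈ D.V := by
    rw [hP]
    exact mul_mem (mul_mem hS.mem hh.mem) (add_mem (one_mem _) (mul_mem (hmem _) hyV))
  have hs₁' : E' * E' = cG * algebraMap L F (s₁ : L) := by
    rw [hE', ← map_mul, ← map_mul]
    exact congrArg (fun t : A => algebraMap L F (t : L)) hs₁
  have hs₂' : cT = cG * algebraMap L F (s₂ : L) := by
    rw [hcT, ← map_mul]
    exact congrArg (fun t : A => algebraMap L F (t : L)) hs₂
  refine ⟨?_, S * h * S ^ p * R, mul_mem (mul_mem (mul_mem hS.mem hh.mem) (pow_mem hS.mem p)) hRV,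
    ?_⟩
  · rw [hY]
    exact sub_mem (mul_mem hPV (mul_mem (pow_mem hS.mem p) hPe)) (mul_mem hPV (mul_mem
      (pow_mem hS.mem p) (mul_mem (hmem _) (sub_mem (mul_mem (mul_mem (hmem _)
        (add_mem hyV (mul_mem (hmem _) hM₁V))) hqV) (mul_mem (hmem _) hw₁)))))
  · rw [hY, hP, Algebra.smul_def, MulMemClass.coe_mul, map_mul, MulMemClass.coe_mul, map_mul, hR]
    linear_combination
      S * h * S ^ p * X * (w₁ * (1 + X * E' * y + (p : F) * X * E' * y)) * hs₂' -
      S * h * S ^ p * X * (M₁ * q + X * y * ((y + E' * M₁) * q)) * hs₁' -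
      S * h * S ^ p * X * E' * y * hqe

/-- Fixed points of the Frobenius are natural numbers. -/
theorem exists_natCast_of_pow_eq (hp : p.Prime) {d : k} (hd : d ^ p = d) :
    ∃ j : ℕ, j < p ∧ (j : k) = d := by
  classical
  have : Fact p.Prime := ⟨hp⟩
  by_contra! hne
  set s : Finset k := (Finset.range p).image fun j : ℕ => (j : k)
  have hs : s.card = p := by
    rw [Finset.card_image_of_injOn, Finset.card_range]
    intro a ha b hb hab
    rw [Finset.coe_range, Set.mem_Iio] at ha hb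
    rwa [CharP.natCast_eq_natCast k p, Nat.ModEq, Nat.mod_eq_of_lt ha, Nat.mod_eq_of_lt hb] at hab
  have hd' : d ∉ s := by
    simp only [s, Finset.mem_image, Finset.mem_range, not_exists, not_and]
    exact fun j hj => hne j hj
  have h1 := Polynomial.card_le_degree_of_subset_roots
    (p := (Polynomial.X ^ p - Polynomial.X : Polynomial k)) (Z := insert d s) ?_
  · rw [Finset.card_insert_of_notMem hd', hs,
      FiniteField.X_pow_card_sub_X_natDegree_eq k hp.one_lt] at h1
    omega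
  · intro z hz
    rw [Polynomial.mem_roots (FiniteField.X_pow_card_sub_X_ne_zero k hp.one_lt)]
    rw [Finset.mem_val, Finset.mem_insert] at hz
    rcases hz with rfl | hz
    · simp [hd]
    · obtain ⟨j, -, rfl⟩ := Finset.mem_image.1 hz
      have := map_natCast (frobenius k p) j
      rw [frobenius_def] at this
      simp [this]

end FLTAgent.RT.AtP
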