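import Fermat.Agent.FlatModel.HeckeOrdinary
import Fermat.Agent.RT.AtP.Commutator

/-!
# Transfer of an identity on the Tate module to the Hecke representation

If a combination of Galois elements times some Hecke operators kills the Tate module, and these
operators are jointly regular in the target, then the combination vanishes in the representation.
-/

set_option autoImplicit false

namespace FLTAgent.RT.AtP

open Matrix GalRep IsLocalRing FlatModel

local notation "Γℚ" => AlgebraicClosure ℚ ≃ₐ[ℚ] AlgebraicClosure ℚ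

variable {p : ℕ} [Fact p.Prime] {N : ℕ} [NeZero N] {S : Finset ℕ}
  {𝒪 : Type} [CommRing 𝒪] [IsDomain 𝒪] [IsDiscreteValuationRing 𝒪]
  [IsAdicComplete (IsLocalRing.maximalIdeal 𝒪) 𝒪]
  {θ : CuspForm.heckeAlgebra N 2 (↑S : Set ℕ) →+* IsLocalRing.ResidueField 𝒪}
  {T : Type} [CommRing T] [IsLocalRing T] [IsNoetherianRing T]
  [IsAdicComplete (IsLocalRing.maximalIdeal T) T] [Algebra 𝒪 T] [IsLocalHom (algebraMap 𝒪 T)]
  [Module.Finite 𝒪 T] [Module.Free 𝒪 T]

section model

variable {R : Type*} [CommRing R] {n : Type*} [Fintype n] [DecidableEq n] {G : Type*} [Group G]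

/-- The transferred identity: only traces are left. -/
theorem matrix_trace_identity (ρ : G →* Matrix n n R) (χ : G →* Rˣ) (K : Matrix n n R)
    (hK : ∀ g, Commute K (ρ g))
    (hφ : ∀ g h, Commute (ρ g + (χ g : R) • ρ g⁻¹) (ρ h)) (σ τ c y k : G) (u : R)
    (hA : K * (ρ σ * (ρ τ - 1) - u • (ρ τ - 1)) = 0) :
    K * ((ρ (k * σ * τ) + (χ (k * σ * τ) : R) • ρ (k * σ * τ)⁻¹) -
        (ρ (k * σ) + (χ (k * σ) : R) • ρ (k * σ)⁻¹) -
        u • ((ρ (k * τ) + (χ (k * τ) : R) • ρ (k * τ)⁻¹) - (ρ k + (χ k : R) • ρ k⁻¹))) *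
      (2 - (ρ (c * y * c⁻¹ * y⁻¹) +
        (χ (c * y * c⁻¹ * y⁻¹) : R) • ρ (c * y * c⁻¹ * y⁻¹)⁻¹)) = 0 := by
  let st : G → Matrix n n R := fun g => (χ g : R) • ρ g⁻¹
  let φ : G → Matrix n n R := fun g => ρ g + st g
  have hst : ∀ g h, st (g * h) = st h * st g := fun g h => by
    simp only [st, _root_.mul_inv_rev, map_mul, Units.val_mul, Matrix.smul_mul, Matrix.mul_smul,
      smul_smul]
  have hst1 : st 1 = 1 := by simp [st]
  let A := ρ σ * (ρ τ - 1) - u • (ρ τ - 1)
  let A' := st τ * st σ - st σ - u • (st τ - 1)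
  let P : G → Matrix n n R := fun k => φ (k * σ * τ) - φ (k * σ) - u • (φ (k * τ) - φ k)
  have hP : ∀ k, P k = ρ k * A + A' * st k := fun k => by
    simp only [P, φ, A, A', hst, map_mul, mul_sub, sub_mul, smul_sub, smul_add, Matrix.mul_one,
      Matrix.one_mul, Matrix.mul_smul, Matrix.smul_mul, Matrix.mul_assoc]
    abel
  have hPc : ∀ k g, Commute (P k) (ρ g) := fun k g =>
    (((hφ _ g).sub_left (hφ _ g))).sub_left (((hφ _ g).sub_left (hφ _ g)).smul_left u)
  set Z := K * P 1 with hZdef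
  have hZ : Z = K * A' := by
    rw [hZdef, hP, map_one, Matrix.one_mul, hst1, Matrix.mul_one, Matrix.mul_add, hA, zero_add]
  have hZk : ∀ k, K * P k = Z * st k := fun k => by
    rw [hP, Matrix.mul_add, ← Matrix.mul_assoc, (hK k).eq, Matrix.mul_assoc, hA, Matrix.mul_zero,
      zero_add, ← Matrix.mul_assoc, ← hZ]
  have hZc : ∀ g, Commute Z (ρ g) := fun g => (hK g).mul_left (hPc 1 g)
  clear_value Z
  set w := c * y * c⁻¹ * y⁻¹ with hw
  have hcom : Z * (ρ c * ρ y - ρ y * ρ c) = 0 := by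
    have h := ((hK c).mul_left (hPc y⁻¹ c)).eq
    rw [hZk, Matrix.mul_assoc, ← Matrix.mul_assoc (ρ c), ← (hZc c).eq, Matrix.mul_assoc] at h
    simp only [st, inv_inv, Matrix.smul_mul, Matrix.mul_smul] at h
    have h' := congrArg (((χ y⁻¹)⁻¹ : Rˣ).val • ·) h
    simp only [smul_smul, Units.inv_mul, one_smul] at h'
    rw [Matrix.mul_sub, h', sub_self]
  have hZw : Z * (ρ w - 1) = 0 := by
    have h := congrArg (· * ρ (y * c)⁻¹) hcom
    simp only [Matrix.zero_mul, Matrix.mul_assoc, Matrix.sub_mul, ← map_mul] at h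
    rw [show c * y * (y * c)⁻¹ = w by rw [hw]; group,
      show y * c * (y * c)⁻¹ = 1 by group, map_one] at h
    exact h
  have hχw : (χ w : R) = 1 := by
    rw [hw, map_mul, map_mul, map_mul, map_inv, map_inv, mul_comm (χ c) (χ y),
      mul_inv_cancel_right, mul_inv_cancel, Units.val_one]
  have hZφ : Z * (2 - φ w) = 0 := by
    have e : (2 : Matrix n n R) - φ w = (ρ w - 1) * (ρ w⁻¹ - 1) := by
      rw [sub_mul, mul_sub, ← map_mul, mul_inv_cancel, map_one, Matrix.mul_one, Matrix.one_mul,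
        ← one_add_one_eq_two]
      simp only [φ, st, hχw, one_smul]
      abel
    rw [e, ← Matrix.mul_assoc, hZw, Matrix.zero_mul]
  have hsw : Commute (st k) (2 - φ w) :=
    (((Commute.one_right (ρ k⁻¹)).add_right (Commute.one_right _)).sub_right
      (hφ w k⁻¹).symm).smul_left _ |> fun h => by rwa [one_add_one_eq_two] at h
  show K * P k * (2 - φ w) = 0
  rw [hZk, Matrix.mul_assoc, hsw.eq, ← Matrix.mul_assoc, hZφ, Matrix.zero_mul]

end model

set_option quotPrecheck false in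
local notation "𝕋" => CuspForm.heckeAlgebra N 2 (↑S : Set ℕ)

/-- The operator `phi g` commutes with the Galois action. -/
theorem commute_phi (M : MatModel N p ↑S) (hd : FrobeniusDense) (g h : Γℚ) :
    Commute (M.phi g) (M.G h) := by
  refine redP_ext fun n => ?_
  obtain ⟨ℓ, hℓ, hℓN, hℓS, A, -, σ, -, -, -, e⟩ := M.exists_approx hd g n ⊥
  rw [map_mul, e, map_mul (redP p n) (M.G h), e, ← map_mul, ← map_mul, M.G_comm]

/-- **Transfer.** An identity on the Tate module times jointly regular Hecke operators holds in the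
representation. -/
theorem repMat_mul_sub_one_eq (M : MatModel N p ↑S) (hd : FrobeniusDense) (hp2 : p ≠ 2)
    (H : CuspForm.HeckeGaloisRepDatum N (↑S : Set ℕ) 𝒪 θ T) (ψ : ℤ_[p] →+* T)
    (hp : (p : T) ∈ maximalIdeal T) (I : Set 𝕋)
    (hI : ∀ x : T, (∀ t ∈ I, H.π t * x = 0) → x = 0) (σ τ : Γℚ) (u : ℤ_[p])
    (hA : ∀ t ∈ I, castP p (M.Tm t) * (M.G σ * (M.G τ - 1) - u • (M.G τ - 1)) = 0) :
    repMat H.ρ σ * (repMat H.ρ τ - 1) = ψ u • (repMat H.ρ τ - 1) := by
  classical
  have hdet := det_repMat_eq_cyclo M hd H ψ hp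
  have h2 : IsUnit (2 : T) := by
    rw [← map_ofNat ψ 2]
    refine RingHom.isUnit_map ψ ?_
    rw [← residue_ne_zero_iff_isUnit, Ne, residue_eq_zero_iff, PadicInt.maximalIdeal_eq_span_p,
      Ideal.mem_span_singleton, ← Nat.cast_ofNat, ← PadicInt.norm_lt_one_iff_dvd, PadicInt.norm_natCast_lt_one_iff]
    exact fun h => hp2 ((Nat.prime_dvd_prime_iff_eq (Fact.out : p.Prime) Nat.prime_two).1 h)
  obtain ⟨y, hy⟩ := exists_isUnit_trace_commutator H.ρ H.residual_absIrr h2
    complexConjugation_mul_self (by rw [hdet, cyclo_complexConjugation, map_neg, map_one])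
  set c := complexConjugation with hc
  obtain ⟨c₀, hc₀⟩ := M.exists_bound
  refine sub_eq_zero.1 (eq_zero_of_trace_mul_repMat H.ρ H.residual_absIrr _ fun k => hI _
    fun t ht => (hy.mul_left_eq_zero).1 (eq_of_forall_sub_mem_pow fun m => ?_))
  set n := m + c₀ + 1 with hn
  choose a ha ha' _ using fun g => exists_joint_approx M hd H ψ hp g n
  set d : ℕ := (u.toZModPow n).val with hd'
  set w := c * y * c⁻¹ * y⁻¹ with hw
  set z := t * (a (k * σ * τ) - a (k * σ) - (d : 𝕋) * (a (k * τ) - a k)) * (2 - a w) with hz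
  have hzero : redP p n (castP p (M.Tm z)) = 0 := by
    have h := congrArg (redP p n) (matrix_trace_identity M.G (cyclo p) (castP p (M.Tm t))
      (fun g => (M.G_comm g t).symm) (commute_phi M hd) σ τ c y k u (hA t ht))
    have hphi : ∀ g, M.G g + (cyclo p g : ℤ_[p]) • M.G g⁻¹ = M.phi g := fun g => rfl
    simp only [hphi, ← hw] at h
    rw [map_zero, map_mul, map_mul, map_sub, map_sub, map_sub, redP_smul, map_sub, map_ofNat,
      ha, ha, ha, ha, ha] at h
    have : NeZero (p ^ n) := ⟨pow_ne_zero n (Fact.out : p.Prime).ne_zero⟩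
    rw [← h, hz]
    simp only [map_mul, map_sub, map_ofNat, map_natCast, hd']
    rw [show (((u.toZModPow n).val : ℕ) : Matrix (Fin M.r) (Fin M.r) (ZMod (p ^ n))) =
      u.toZModPow n • 1 by
        rw [← Algebra.algebraMap_eq_smul_one, ← map_natCast (algebraMap (ZMod (p ^ n))
          (Matrix (Fin M.r) (Fin M.r) (ZMod (p ^ n)))), ZMod.natCast_zmod_val], smul_mul_assoc,
      Matrix.one_mul]
  obtain ⟨z', hz'⟩ := hc₀ n _ hzero
  have hnm : maximalIdeal T ^ n ≤ maximalIdeal T ^ m := Ideal.pow_le_pow_right (by omega)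
  have hπz : H.π z ∈ maximalIdeal T ^ m := by
    rw [hz', map_nsmul, nsmul_eq_mul, Nat.cast_pow]
    exact Ideal.mul_mem_right _ _ (Ideal.pow_le_pow_right (show m ≤ n - c₀ by omega)
      (Ideal.pow_mem_pow hp _))
  have hdu : (d : T) - ψ u ∈ maximalIdeal T ^ m := hnm (by
    have : NeZero (p ^ n) := ⟨pow_ne_zero n (Fact.out : p.Prime).ne_zero⟩
    rw [← map_natCast ψ, ← map_sub]
    exact padicHom_mem_pow ψ hp (by rw [map_sub, map_natCast]; simp [hd']))
  have hq : ∀ g, (Ideal.Quotient.mk (maximalIdeal T ^ m)) (H.π (a g)) =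
      Ideal.Quotient.mk (maximalIdeal T ^ m) (H.ρ.trace g) := fun g =>
    (Ideal.Quotient.eq.2 (hnm (ha' g))).symm
  rw [sub_zero, ← Ideal.Quotient.eq_zero_iff_mem]
  rw [← Ideal.Quotient.eq_zero_iff_mem, hz] at hπz
  rw [← hπz]
  simp only [Matrix.mul_sub, Matrix.mul_one, Matrix.mul_smul, ← map_mul (repMat H.ρ),
    Matrix.trace_sub, Matrix.trace_smul, trace_repMat, smul_eq_mul, ← mul_assoc]
  simp only [map_mul, map_sub, map_ofNat, map_natCast, hq]
  rw [← Ideal.Quotient.eq.2 hdu, map_natCast]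

end FLTAgent.RT.AtP
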