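import Fermat.Agent.RT.AtP.ModelReduction
import Fermat.Agent.FlatModel.LevelVec
import Fermat.Agent.GoodRed.Specialization

/-!
# The congruence relation at `p` on the levels of the Tate module

Each level of the Tate module of `J₀(N)`, `p ∤ N`, has a model in which the values of
`σ ^ 2 - T p σ + p` are connected, for a Frobenius element `σ` at `p`.
-/

set_option autoImplicit false
set_option linter.style.haveILetI false
set_option synthInstance.maxHeartbeats 100000

noncomputable section

open AlgebraicCurve ModularCurve Matrix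

namespace FLTAgent.RT.AtP

open FLTAgent.FlatModel FLTAgent.GalRep FLTAgent.GoodRed

local notation "Qbar" => AlgebraicClosure ℚ
local notation "Γℚ" => AlgebraicClosure ℚ ≃ₐ[ℚ] AlgebraicClosure ℚ

variable {N p : ℕ} [NeZero N] [Fact p.Prime] (TN : TorsionModel N p) (hG : GaloisFacts N p)
  {S : Set ℕ} (hS : levelPrimes N ⊆ S)

set_option maxHeartbeats 1000000 in
-- the statement mentions several large fields
/-- **Eichler–Shimura in the model of a level.** -/
theorem exists_levelModel_congruence {A : ValuationSubring (AlgebraicClosure ℚ)}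
    (hA : A.LiesOverPrime p) (hpN : ¬ p ∣ N) (hpS : p ∉ S) (n : ℕ) :
    ∃ H : Submodule (baseRing A (inertiaRing A)) (LevelVec (TN.matModel hG hS) n → Qbar),
      IsModel (levelInertia (TN.matModel hG hS) n A) H ∧
      ∀ σ : Γℚ, A.IsFrobeniusAt σ p → ∀ v : LevelVec (TN.matModel hG hS) n,
        IsModel.IsConnected H (levelAct (TN.matModel hG hS) n σ
              (levelAct (TN.matModel hG hS) n σ v) -
            redP p n (castP p ((TN.matModel hG hS).Tm
              (CuspForm.heckeAlgebra.T (Fact.out : p.Prime) hpN hpS))) *ᵥ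
              levelAct (TN.matModel hG hS) n σ v + p • v) := by
  have hn : p ^ n ≠ 0 := pow_ne_zero n (Fact.out : p.Prime).ne_zero
  have : NeZero (p ^ n) := ⟨hn⟩
  set Mm := TN.matModel hG hS
  let P := ↥(Submodule.torsionBy ℤ (JZero N) ((p ^ n : ℕ) : ℤ))
  letI : DistribMulAction Γℚ P := torsionByAction N (p ^ n)
  have : Finite P := finite_torsionBy N (p ^ n) hn
  obtain ⟨H, hH, hconn⟩ := exists_model_reduction hA hpN (G := P) (isLevelled_torsionBy N (p ^ n) hn)
    (Submodule.torsionBy ℤ (JZero N) ((p ^ n : ℕ) : ℤ)).subtype.toAddMonoidHom (fun _ _ => rfl)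
    Subtype.val_injective
  let lift : LevelVec Mm n → (Fin (Module.finrank ℤ TN.H) → ℤ) := fun v i => ((v i).val : ℤ)
  have hlift : ∀ (v : LevelVec Mm n) (w : Fin (Module.finrank ℤ TN.H) → ℤ),
      (∀ i, ((w i : ℤ) : ZMod (p ^ n)) = v i) → TN.projv n (lift v) = TN.projv n w := by
    intro v w hw
    rw [← sub_eq_zero, ← map_sub, TN.projv_eq_zero_iff]
    intro i
    rw [Pi.sub_apply, ← ZMod.intCast_zmod_eq_zero_iff_dvd, Int.cast_sub, hw]
    simp [lift]
  let Φ : LevelVec Mm n →+ JZero N :=
    AddMonoidHom.mk' (fun v => TN.projv n (lift v)) fun u v => by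
      rw [← map_add]
      refine hlift _ _ fun i => ?_
      simp [lift]
  have hmem : ∀ v, Φ v ∈ Submodule.torsionBy ℤ (JZero N) ((p ^ n : ℕ) : ℤ) := fun v => by
    rw [Submodule.mem_torsionBy_iff, natCast_zsmul]
    exact TN.pow_smul_projv n _
  let φ : LevelVec Mm n →+ P :=
    AddMonoidHom.mk' (fun v => ⟨Φ v, hmem v⟩) fun u v => Subtype.ext (map_add Φ u v)
  have hφinj : Function.Injective φ := fun u v huv => by
    have h0 : TN.projv n (lift u - lift v) = 0 := by
      rw [map_sub]; exact sub_eq_zero.mpr (congrArg Subtype.val huv)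
    rw [TN.projv_eq_zero_iff] at h0
    funext i
    have := (ZMod.intCast_zmod_eq_zero_iff_dvd _ (p ^ n)).mpr (h0 i)
    rw [show (lift u - lift v) i = lift u i - lift v i from rfl, Int.cast_sub] at this
    simpa [lift, sub_eq_zero] using this
  have hΦ : ∀ g v, Φ (levelAct Mm n g v) = g • Φ v := by
    intro g v
    show TN.projv n (lift (redP p n (TN.galMat g) *ᵥ v)) = g • TN.projv n (lift v)
    rw [TN.smul_projv]
    refine hlift _ _ fun i => ?_
    erw [TN.redP_galMat]
    simp [Matrix.mulVec, dotProduct, lift]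
    rfl
  have hT : ∀ v, Φ (redP p n (castP p (Mm.Tm
      (CuspForm.heckeAlgebra.T (Fact.out : p.Prime) hpN hpS))) *ᵥ v) =
      heckeOperatorBar N ⟨p, Fact.out⟩ (Φ v) := by
    intro v
    refine (hlift _ (TN.heckeMat (awayT N Fact.out hpN) *ᵥ lift v) fun i => ?_).trans
      (TN.projv_heckeMat n Fact.out hpN _)
    rw [redP_castP]
    simp [Matrix.mulVec, dotProduct, lift]
    rfl
  have hcomap := hH.comap φ hφinj (ρ' := levelInertia Mm n A) fun τ v => Subtype.ext (hΦ _ v)
  refine ⟨_, hcomap, fun σ hσ v => ?_⟩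
  set w := levelAct Mm n σ (levelAct Mm n σ v) -
    redP p n (castP p (Mm.Tm (CuspForm.heckeAlgebra.T (Fact.out : p.Prime) hpN hpS))) *ᵥ
      levelAct Mm n σ v + p • v with hw
  have hred : reductionModL A N (Φ w) = 0 := by
    rw [hw, map_add, map_sub, map_nsmul, hΦ, hT, hΦ, map_add, map_sub, map_nsmul,
      reductionModL_heckeOperatorBar hA hpN, reductionModL_frobenius_smul hA hpN hσ,
      reductionModL_frobenius_smul hA hpN hσ, inv_smul_smul]
    abel
  rintro _ ⟨f, hf, rfl⟩
  show A.valuation (f (φ w) - f (φ 0)) < 1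
  rw [map_zero φ]
  exact hconn (φ w) hred f hf

end FLTAgent.RT.AtP
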