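import Fermat.Agent.RT.AtP.Identity

/-!
# Identities killed on every level hold in the representation

If a combination of Galois elements, weighted by `p`-adic numbers and Hecke operators, kills every
level of the Tate module up to operators which are units in the target, then it vanishes in a
representation with traces given by the Hecke operators.
-/

set_option autoImplicit false

namespace FLTAgent.RT.AtP

open Matrix GalRep IsLocalRing FlatModel

local notation "Γℚ" => AlgebraicClosure ℚ ≃ₐ[ℚ] AlgebraicClosure ℚ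

section matrices

variable {R : Type*} [CommRing R] {n : Type*} [Fintype n] [DecidableEq n] {G : Type*} [Group G]
  {ι : Type*} [Fintype ι]

/-- A killed combination leaves only the symmetrised elements. -/
theorem matrix_sum_trace_identity (ρ : G →* Matrix n n R) (χ : G →* Rˣ) (K : Matrix n n R)
    (hK : ∀ g, Commute K (ρ g))
    (hφ : ∀ g h, Commute (ρ g + (χ g : R) • ρ g⁻¹) (ρ h))
    (C : ι → Matrix n n R) (hC : ∀ i g, Commute (C i) (ρ g)) (gs : ι → G) (c y k : G)
    (hA : K * ∑ i, C i * ρ (gs i) = 0) :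
    K * (∑ i, C i * (ρ (k * gs i) + (χ (k * gs i) : R) • ρ (k * gs i)⁻¹)) *
      (2 - (ρ (c * y * c⁻¹ * y⁻¹) +
        (χ (c * y * c⁻¹ * y⁻¹) : R) • ρ (c * y * c⁻¹ * y⁻¹)⁻¹)) = 0 := by
  let st : G → Matrix n n R := fun g => (χ g : R) • ρ g⁻¹
  let φ : G → Matrix n n R := fun g => ρ g + st g
  have hst : ∀ g h, st (g * h) = st h * st g := fun g h => by
    simp only [st, _root_.mul_inv_rev, map_mul, Units.val_mul, Matrix.smul_mul, Matrix.mul_smul,
      smul_smul]
  have hst1 : st 1 = 1 := by simp [st]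
  let A' := ∑ i, C i * st (gs i)
  let P : G → Matrix n n R := fun k => ∑ i, C i * φ (k * gs i)
  have hP : ∀ k, P k = ρ k * (∑ i, C i * ρ (gs i)) + A' * st k := fun k => by
    simp only [P, φ, A', Finset.mul_sum, Finset.sum_mul, ← Finset.sum_add_distrib]
    refine Finset.sum_congr rfl fun i _ => ?_
    rw [mul_add, map_mul, hst, ← Matrix.mul_assoc (ρ k), ← (hC i k).eq, Matrix.mul_assoc (C i),
      Matrix.mul_assoc]
  have hPc : ∀ k g, Commute (P k) (ρ g) := fun k g =>
    Commute.sum_left _ _ _ fun i _ => (hC i g).mul_left (hφ _ g)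
  set Z := K * P 1 with hZdef
  have hZ : Z = K * A' := by
    rw [hZdef, hP, map_one, Matrix.one_mul, hst1, Matrix.mul_one, Matrix.mul_add, hA, zero_add]
  have hZk : ∀ k, K * P k = Z * st k := fun k => by
    rw [hP, Matrix.mul_add, ← Matrix.mul_assoc, (hK k).eq, Matrix.mul_assoc, hA, Matrix.mul_zero,
      zero_add, ← Matrix.mul_assoc, ← hZ]
  have hZc : ∀ g, Commute Z (ρ g) := fun g => (hK g).mul_left (hPc 1 g)
  clear_value Z
  set w := c * y * c⁻¹ * y⁻¹ with hw
  have hcom : Z * (ρ c * ρ y - ρ y * ρ c) = 0 := by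
    have h := ((hK c).mul_left (hPc y⁻¹ c)).eq
    rw [hZk, Matrix.mul_assoc, ← Matrix.mul_assoc (ρ c), ← (hZc c).eq, Matrix.mul_assoc] at h
    simp only [st, inv_inv, Matrix.smul_mul, Matrix.mul_smul] at h
    have h' := congrArg (((χ y⁻¹)⁻¹ : Rˣ).val • ·) h
    simp only [smul_smul, Units.inv_mul, one_smul] at h'
    rw [Matrix.mul_sub, h', sub_self]
  have hZw : Z * (ρ w - 1) = 0 := by
    have h := congrArg (· * ρ (y * c)⁻¹) hcom
    simp only [Matrix.zero_mul, Matrix.mul_assoc, Matrix.sub_mul, ← map_mul] at h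
    rw [show c * y * (y * c)⁻¹ = w by rw [hw]; group,
      show y * c * (y * c)⁻¹ = 1 by group, map_one] at h
    exact h
  have hχw : (χ w : R) = 1 := by
    rw [hw, map_mul, map_mul, map_mul, map_inv, map_inv, mul_comm (χ c) (χ y),
      mul_inv_cancel_right, mul_inv_cancel, Units.val_one]
  have hZφ : Z * (2 - φ w) = 0 := by
    have e : (2 : Matrix n n R) - φ w = (ρ w - 1) * (ρ w⁻¹ - 1) := by
      rw [sub_mul, mul_sub, ← map_mul, mul_inv_cancel, map_one, Matrix.mul_one, Matrix.one_mul,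
        ← one_add_one_eq_two]
      simp only [φ, st, hχw, one_smul]
      abel
    rw [e, ← Matrix.mul_assoc, hZw, Matrix.zero_mul]
  have hsw : Commute (st k) (2 - φ w) :=
    (((Commute.one_right (ρ k⁻¹)).add_right (Commute.one_right _)).sub_right
      (hφ w k⁻¹).symm).smul_left _ |> fun h => by rwa [one_add_one_eq_two] at h
  show K * P k * (2 - φ w) = 0
  rw [hZk, Matrix.mul_assoc, hsw.eq, ← Matrix.mul_assoc, hZφ, Matrix.zero_mul]

end matrices

variable {p : ℕ} [Fact p.Prime] {N : ℕ} [NeZero N] {S : Finset ℕ}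
  {B : Type} [CommRing B] [IsLocalRing B] [IsAdicComplete (IsLocalRing.maximalIdeal B) B]

set_option quotPrecheck false in
local notation "𝕋" => CuspForm.heckeAlgebra N 2 (↑S : Set ℕ)

/-- The traces of `ρ` are the values of `χ` on the good Hecke operators. -/
def IsAttached (p : ℕ) (χ : 𝕋 →+* B) (ρ : GaloisRepAdic B) : Prop :=
  ∀ (ℓ : ℕ) (hℓ : ℓ.Prime) (hℓN : ¬ ℓ ∣ N) (hℓS : ℓ ∉ (↑S : Set ℕ)), ℓ ≠ p →
    ∀ A : ValuationSubring (AlgebraicClosure ℚ), A.LiesOverPrime ℓ →
      ∀ σ : Γℚ, A.IsFrobeniusAt σ ℓ → ρ.trace σ = χ (CuspForm.heckeAlgebra.T hℓ hℓN hℓS)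

variable (M : MatModel N p ↑S)

omit [IsAdicComplete (IsLocalRing.maximalIdeal B) B] in
/-- A trace is approximated by the operator approximating the symmetrised element. -/
theorem exists_trace_approx (hd : FrobeniusDense) {χ : 𝕋 →+* B} {ρ : GaloisRepAdic B}
    (hρ : IsAttached p χ ρ) (g : Γℚ) (n : ℕ) :
    ∃ t : 𝕋, redP p n (M.phi g) = redP p n (castP p (M.Tm t)) ∧
      ρ.trace g - χ t ∈ maximalIdeal B ^ n := by
  obtain ⟨L, hL, h⟩ := ρ.isAdicContinuous n
  obtain ⟨ℓ, hℓ, hℓN, hℓS, A, hA, σ, hσ, hℓp, hag, happ⟩ := M.exists_approx hd g n L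
  refine ⟨_, happ, ?_⟩
  rw [← neg_mem_iff, neg_sub, ← hρ ℓ hℓ hℓN hℓS hℓp A hA σ hσ]
  exact trace_sub_mem ρ (h _ fun x hx => (fixing_of_agree hag).1 x hx)

/-- **Identities pass from the levels to the representation.** -/
theorem sum_repMat_eq_zero (hd : FrobeniusDense) (hp2 : p ≠ 2) (ψ : ℤ_[p] →+* B)
    (hp : (p : B) ∈ maximalIdeal B) {χ : 𝕋 →+* B} {ρ : GaloisRepAdic B}
    (hρ : IsAttached p χ ρ)
    (hdet : ∀ g, (repMat ρ g).det = ψ (cyclo p g : ℤ_[p]))
    (habs : ρ.residual.IsAbsolutelyIrreducible)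
    {ι : Type*} [Fintype ι] (u : ι → ℤ_[p]) (t : ι → 𝕋) (gs : ι → Γℚ)
    (hk : ∀ n, 1 ≤ n → ∃ e : 𝕋, IsUnit (χ e) ∧ redP p n (castP p (M.Tm e) *
      ∑ i, u i • (castP p (M.Tm (t i)) * M.G (gs i))) = 0) :
    ∑ i, (ψ (u i) * χ (t i)) • repMat ρ (gs i) = 0 := by
  classical
  have h2 : IsUnit (2 : B) := by
    rw [← map_ofNat ψ 2]
    refine RingHom.isUnit_map ψ ?_
    rw [← residue_ne_zero_iff_isUnit, Ne, residue_eq_zero_iff, PadicInt.maximalIdeal_eq_span_p,
      Ideal.mem_span_singleton, ← Nat.cast_ofNat, ← PadicInt.norm_lt_one_iff_dvd,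
      PadicInt.norm_natCast_lt_one_iff]
    exact fun h => hp2 ((Nat.prime_dvd_prime_iff_eq (Fact.out : p.Prime) Nat.prime_two).1 h)
  obtain ⟨y, hy⟩ := exists_isUnit_trace_commutator ρ habs h2 complexConjugation_mul_self
    (by rw [hdet, cyclo_complexConjugation, map_neg, map_one])
  set c := complexConjugation
  set w := c * y * c⁻¹ * y⁻¹ with hw
  obtain ⟨c₀, hc₀⟩ := M.exists_bound
  refine eq_zero_of_trace_mul_repMat ρ habs _ fun k => eq_of_forall_sub_mem_pow fun m => ?_
  rw [sub_zero]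
  set n := m + c₀ + 1 with hn
  have : NeZero (p ^ n) := ⟨pow_ne_zero n (Fact.out : p.Prime).ne_zero⟩
  choose a ha ha' using fun g => exists_trace_approx M hd hρ g n
  obtain ⟨e, he, hkill⟩ := hk n (by omega)
  let d : ι → ℕ := fun i => ((u i).toZModPow n).val
  set z := e * (∑ i, (d i : 𝕋) * t i * a (k * gs i)) * (2 - a w) with hz
  have hzero : redP p n (castP p (M.Tm z)) = 0 := by
    let G' : Γℚ →* Matrix (Fin M.r) (Fin M.r) (ZMod (p ^ n)) := (redP p n).toMonoidHom.comp M.G
    let χ' : Γℚ →* (ZMod (p ^ n))ˣ :=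
      (Units.map (PadicInt.toZModPow n).toMonoidHom).comp (cyclo p)
    have hphi : ∀ g, G' g + (χ' g : ZMod (p ^ n)) • G' g⁻¹ = redP p n (M.phi g) := fun g => by
      rw [MatModel.phi, map_add, redP_smul]
      rfl
    have hcomm : ∀ (s : 𝕋) g, Commute (redP p n (castP p (M.Tm s))) (G' g) := fun s g =>
      (Commute.map (M.G_comm g s).symm (redP p n))
    have h := matrix_sum_trace_identity G' χ' (redP p n (castP p (M.Tm e))) (hcomm e)
      (fun g g' => by rw [hphi]; exact (commute_phi M hd g g').map (redP p n))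
      (fun i => (u i).toZModPow n • redP p n (castP p (M.Tm (t i))))
      (fun i g => (hcomm (t i) g).smul_left _) gs c y k (by
        rw [← hkill, map_mul, map_sum]
        exact congrArg _ (Finset.sum_congr rfl fun i _ => by
          rw [redP_smul, map_mul, smul_mul_assoc]; rfl))
    simp only [hphi, ← hw, ha] at h
    rw [← h, hz]
    simp only [map_mul, map_sub, map_ofNat, map_sum, map_natCast]
    refine congrArg (· * _) (congrArg _ (Finset.sum_congr rfl fun i _ => ?_))
    rw [Matrix.mul_assoc, show ((d i : ℕ) : Matrix (Fin M.r) (Fin M.r) (ZMod (p ^ n))) =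
      (u i).toZModPow n • 1 by
        rw [← Algebra.algebraMap_eq_smul_one, ← map_natCast (algebraMap (ZMod (p ^ n))
          (Matrix (Fin M.r) (Fin M.r) (ZMod (p ^ n)))), ZMod.natCast_zmod_val], smul_mul_assoc,
      smul_mul_assoc, Matrix.one_mul]
  obtain ⟨z', hz'⟩ := hc₀ n _ hzero
  have hnm : maximalIdeal B ^ n ≤ maximalIdeal B ^ m := Ideal.pow_le_pow_right (by omega)
  have hπz : χ z ∈ maximalIdeal B ^ m := by
    rw [hz', map_nsmul, nsmul_eq_mul, Nat.cast_pow]
    exact Ideal.mul_mem_right _ _ (Ideal.pow_le_pow_right (show m ≤ n - c₀ by omega)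
      (Ideal.pow_mem_pow hp _))
  have hq : ∀ g, Ideal.Quotient.mk (maximalIdeal B ^ m) (χ (a g)) =
      Ideal.Quotient.mk (maximalIdeal B ^ m) (ρ.trace g) := fun g =>
    (Ideal.Quotient.eq.2 (hnm (ha' g))).symm
  have hdu : ∀ i, Ideal.Quotient.mk (maximalIdeal B ^ m) (d i : B) =
      Ideal.Quotient.mk (maximalIdeal B ^ m) (ψ (u i)) := fun i => Ideal.Quotient.eq.2 (hnm (by
    rw [← map_natCast ψ, ← map_sub]
    exact padicHom_mem_pow ψ hp (by rw [map_sub, map_natCast]; simp [d])))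
  rw [← Ideal.Quotient.eq_zero_iff_mem] at hπz ⊢
  rw [hz, map_mul, map_mul] at hπz
  simp only [map_sub, map_ofNat, map_mul, hq] at hπz
  have hu1 : IsUnit (Ideal.Quotient.mk (maximalIdeal B ^ m) (χ e)) := he.map _
  have hu2 := hy.map (Ideal.Quotient.mk (maximalIdeal B ^ m))
  rw [map_sub, map_ofNat] at hu2
  rw [hu2.mul_left_eq_zero, hu1.mul_right_eq_zero] at hπz
  rw [← hπz, Finset.mul_sum, Matrix.trace_sum, map_sum, map_sum, map_sum]
  refine Finset.sum_congr rfl fun i _ => ?_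
  rw [Matrix.mul_smul, ← map_mul, Matrix.trace_smul, trace_repMat, smul_eq_mul]
  simp only [map_mul]
  rw [hq, map_natCast χ, hdu]

end FLTAgent.RT.AtP
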