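import Fermat.Agent.RT.AtP.LevelKernel
import Fermat.Agent.RT.AtP.TraceKill
import Fermat.Agent.FlatModel.Transfer

/-!
# The two identities on a localised level

On the part of a level at a residually ordinary maximal ideal, inertia satisfies
`(s - χ s) (τ - 1) = 0`, and `(s - χ s) (σ ^ 2 - T p σ + p) = 0` for a Frobenius element `σ`.
-/

set_option autoImplicit false
set_option linter.style.haveILetI false

namespace FLTAgent.RT.AtP

open Matrix GalRep IsLocalRing FlatModel

local notation "Γℚ" => AlgebraicClosure ℚ ≃ₐ[ℚ] AlgebraicClosure ℚ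

variable {p : ℕ} [Fact p.Prime] {N : ℕ} [NeZero N] {S : Finset ℕ}
  {B : Type} [CommRing B] [IsLocalRing B] [IsAdicComplete (IsLocalRing.maximalIdeal B) B]
  [Finite (IsLocalRing.ResidueField B)]

set_option quotPrecheck false in
local notation "𝕋" => CuspForm.heckeAlgebra N 2 (↑S : Set ℕ)

omit [IsAdicComplete (IsLocalRing.maximalIdeal B) B] in
set_option maxHeartbeats 1600000 in
-- the level modules and their models
/-- **Both identities hold after multiplication by an operator which is a unit in the target.** -/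
theorem exists_level_kill (TN : TorsionModel N p) (hG : GaloisFacts N p)
    (hS : levelPrimes N ⊆ (↑S : Set ℕ)) (hpN : ¬ p ∣ N) (hpS : p ∉ (↑S : Set ℕ))
    (hd : FrobeniusDense) (hp2 : p ≠ 2) (ψ : ℤ_[p] →+* B) (hp : (p : B) ∈ maximalIdeal B)
    {χ : 𝕋 →+* B} {ρB : GaloisRepAdic B} (hρ : IsAttached p χ ρB)
    (hdet : ∀ g, (repMat ρB g).det = ψ (cyclo p g : ℤ_[p]))
    (habs : ρB.residual.IsAbsolutelyIrreducible)
    (hres : (GaloisRepAdic.ofResidualGaloisRep ρB.residual).IsOrdinaryAt p)
    {A : ValuationSubring (AlgebraicClosure ℚ)} (hA : A.LiesOverPrime p) {σ : Γℚ}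
    (hσ : A.IsFrobeniusAt σ p) (n : ℕ) (hpn1 : 1 ≤ n) :
    ∃ e : 𝕋, IsUnit (χ e) ∧ ∀ s ∈ A.inertiaSubgroupIn ℚ,
      (∀ τ ∈ A.inertiaSubgroupIn ℚ,
        redP p n (castP p ((TN.matModel hG hS).Tm e) * ((TN.matModel hG hS).G s *
          ((TN.matModel hG hS).G τ - 1) -
            (cyclo p s : ℤ_[p]) • ((TN.matModel hG hS).G τ - 1))) = 0) ∧
      redP p n (castP p ((TN.matModel hG hS).Tm e) *
        (((TN.matModel hG hS).G s - (cyclo p s : ℤ_[p]) • 1) *
          ((TN.matModel hG hS).G σ * (TN.matModel hG hS).G σ -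
            castP p ((TN.matModel hG hS).Tm
              (CuspForm.heckeAlgebra.T (Fact.out : p.Prime) hpN hpS)) * (TN.matModel hG hS).G σ +
            (p : ℤ_[p]) • 1))) = 0 := by
  classical
  set Mm := TN.matModel hG hS
  obtain ⟨Hl, hHl, hconn⟩ : ∃ H, IsModel (levelInertia Mm n A) H ∧ ∀ σ : Γℚ, A.IsFrobeniusAt σ p →
      ∀ v : LevelVec Mm n, IsModel.IsConnected H (levelAct Mm n σ (levelAct Mm n σ v) -
        redP p n (castP p (Mm.Tm (CuspForm.heckeAlgebra.T (Fact.out : p.Prime) hpN hpS))) *ᵥ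
          levelAct Mm n σ v + p • v) := exists_levelModel_congruence TN hG hS hA hpN hpS n
  have hconn := hconn σ hσ
  obtain ⟨Tp, hTp⟩ : ∃ x : 𝕋, CuspForm.heckeAlgebra.T (Fact.out : p.Prime) hpN hpS = x := ⟨_, rfl⟩
  rw [hTp] at hconn ⊢
  let : Module 𝕋 (LevelVec Mm n) := Module.compHom _ (levelHecke Mm n)
  have hsmul : ∀ (t : 𝕋) (v : LevelVec Mm n), t • v = redP p n (castP p (Mm.Tm t)) *ᵥ v :=
    fun t v => rfl
  have : NeZero (p ^ n) := ⟨pow_ne_zero n (Fact.out : p.Prime).ne_zero⟩
  -- the maximal ideal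
  set 𝔪 : Ideal 𝕋 := RingHom.ker ((residue B).comp χ) with h𝔪
  have hker : ∀ t : 𝕋, t ∈ 𝔪 ↔ residue B (χ t) = 0 := fun t => RingHom.mem_ker
  have : Finite ((residue B).comp χ).range := Finite.of_injective _ Subtype.val_injective
  have : 𝔪.IsMaximal := by
    let : Field ((residue B).comp χ).range :=
      (Finite.isField_of_domain ((residue B).comp χ).range).toField
    rw [h𝔪, ← RingHom.ker_rangeRestrict ((residue B).comp χ)]
    exact RingHom.ker_isMaximal_of_surjective ((residue B).comp χ).rangeRestrict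
      (RingHom.rangeRestrict_surjective _)
  -- traces and the cyclotomic character as Hecke elements
  choose t ht1 ht2 using fun g => exists_trace_approx Mm hd hρ g n
  let dn : Γℚ → ℕ := fun g => ((cyclo p g : ℤ_[p]).toZModPow n).val
  let d : Γℚ → 𝕋 := fun g => (dn g : 𝕋)
  have hdT : ∀ g, (dn g : B) - ψ (cyclo p g : ℤ_[p]) ∈ maximalIdeal B ^ n := fun g => by
    rw [← map_natCast ψ, ← map_sub]
    exact padicHom_mem_pow ψ hp (by rw [map_sub, map_natCast]; simp [dn])
  have hrest : ∀ g, residue B (χ (t g)) = residue B (ρB.trace g) := fun g => by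
    refine (Ideal.Quotient.eq.mpr (Ideal.pow_le_self (show n ≠ 0 by omega) ?_))
    rw [← neg_mem_iff, neg_sub]
    exact ht2 g
  have hresd : ∀ g, residue B (χ (d g)) = residue B (ψ (cyclo p g : ℤ_[p])) := fun g => by
    rw [map_natCast]
    exact Ideal.Quotient.eq.mpr (Ideal.pow_le_self (show n ≠ 0 by omega) (hdT g))
  have hresdet : ∀ g, residue B (χ (d g)) = (residualMat ρB g).det := fun g => by
    rw [hresd, ← hdet g]
    exact RingHom.map_det _ _
  -- a localiser and the part at `𝔪`
  obtain ⟨e, he, L, hL⟩ := exists_localiser 𝔪 (Ideal.IsMaximal.ne_top inferInstance) (LevelVec Mm n)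
  let X : Submodule 𝕋 (LevelVec Mm n) := LinearMap.range (e • (LinearMap.id : LevelVec Mm n →ₗ[𝕋] _))
  have hcomm : ∀ g (r : 𝕋) (v : LevelVec Mm n),
      levelAct Mm n g (r • v) = r • levelAct Mm n g v := fun g r v => by
    rw [levelAct_apply, levelAct_apply, hsmul, hsmul, Matrix.mulVec_mulVec, Matrix.mulVec_mulVec,
      ← map_mul, ← map_mul, Mm.G_comm]
  let gl : Γℚ → (LevelVec Mm n →ₗ[𝕋] LevelVec Mm n) := fun g =>
    { toFun := levelAct Mm n g
      map_add' := map_add _
      map_smul' := hcomm g }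
  let ρ : Γℚ →* Module.End 𝕋 X :=
    { toFun := fun g => (gl g).restrict (p := X) (q := X) (by
        rintro _ ⟨v, rfl⟩
        exact ⟨levelAct Mm n g v, (hcomm g e v).symm⟩)
      map_one' := LinearMap.ext fun x => Subtype.ext (by
        show levelAct Mm n 1 (x : LevelVec Mm n) = x
        rw [map_one]; rfl)
      map_mul' := fun g g' => LinearMap.ext fun x => Subtype.ext (by
        show levelAct Mm n (g * g') (x : LevelVec Mm n) =
          levelAct Mm n g (levelAct Mm n g' (x : LevelVec Mm n))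
        rw [map_mul]; rfl) }
  have hd_smul : ∀ g (v : LevelVec Mm n),
      d g • v = ((cyclo p g : ℤ_[p]).toZModPow n) • v := fun g v => by
    rw [Nat.cast_smul_eq_nsmul, ← natCast_smul_levelVec, ZMod.natCast_zmod_val]
  have hphi : ∀ g (v : LevelVec Mm n),
      t g • v = levelAct Mm n g v + d g • levelAct Mm n g⁻¹ v := fun g v => by
    rw [hsmul, ← ht1, MatModel.phi, map_add, redP_smul, Matrix.add_mulVec, Matrix.smul_mulVec,
      hd_smul]
    rfl
  -- local data
  obtain ⟨s₀, hs₀, hs₀1⟩ := exists_cyclo_ne_one hp2 hA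
  obtain ⟨s, rfl⟩ := exists_inertiaHom_eq hs₀
  have hp1 : ∀ g, ((p : ℤ) ∣ (dn g : ℤ) - 1) ↔ (cyclo p g : ℤ_[p]).toZModPow 1 = 1 := fun g => by
    have h : ((dn g : ℕ) : ZMod (p ^ 1)) = (cyclo p g : ℤ_[p]).toZModPow 1 := by
      have h1 := congrArg (fun r : ℤ_[p] →+* ZMod (p ^ 1) => r (cyclo p g : ℤ_[p]))
        (PadicInt.zmod_cast_comp_toZModPow 1 n hpn1)
      rw [← h1]
      simp only [RingHom.comp_apply, dn]
      rw [← ZMod.natCast_zmod_val ((cyclo p g : ℤ_[p]).toZModPow n), map_natCast,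
        ZMod.natCast_zmod_val]
    rw [← h]
    constructor
    · intro hdvd
      have := (ZMod.intCast_zmod_eq_zero_iff_dvd ((dn g : ℤ) - 1) (p ^ 1)).mpr (by rwa [pow_one])
      rwa [Int.cast_sub, Int.cast_natCast, Int.cast_one, sub_eq_zero] at this
    · intro h1
      have := (ZMod.intCast_zmod_eq_zero_iff_dvd ((dn g : ℤ) - 1) (p ^ 1)).mp
        (by rw [Int.cast_sub, Int.cast_natCast, Int.cast_one, h1, sub_self])
      rwa [pow_one] at this
  have hsd : (residualMat ρB (inertiaHom A s)).det ≠ 1 := by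
    intro h
    rw [← hresdet, map_natCast, ← map_one (residue B)] at h
    apply hs₀1
    rw [← hp1]
    have h' : (residue B) (((dn (inertiaHom A s) : ℤ) - 1 : ℤ) : B) = 0 := by
      rw [Int.cast_sub, Int.cast_natCast, Int.cast_one, map_sub, h, sub_self]
    by_contra hnd
    obtain ⟨a, b, hab⟩ := ((Nat.prime_iff_prime_int.mp (Fact.out : p.Prime)).coprime_iff_not_dvd.mpr
      hnd)
    have h2 := congrArg (fun z : ℤ => residue B (z : B)) hab
    rw [residue_eq_zero_iff] at h'
    have h3 := (residue_eq_zero_iff ((p : B))).mpr hp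
    have h4 := (residue_eq_zero_iff _).mpr h'
    simp only [Int.cast_add, Int.cast_mul, map_add, map_mul, Int.cast_natCast, h3, h4, mul_zero,
      add_zero, Int.cast_one, map_one] at h2
    exact zero_ne_one h2
  obtain ⟨Mr, hMtr, hMdet, hMtri, hMs, h₀, hh₀⟩ :=
    exists_residual_shape ρB habs hres hA hs₀ hsd
  have hres_t : ∀ g, residue B (χ (t g)) = Mr g 0 0 + Mr g 1 1 := fun g => by
    rw [hrest, ← hMtr, Matrix.trace_fin_two]
  have hres_d : ∀ g, residue B (χ (d g)) = Mr g 0 0 * Mr g 1 1 - Mr g 0 1 * Mr g 1 0 := fun g => by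
    rw [hresdet, ← hMdet, Matrix.det_fin_two]
  have hdet_tri : ∀ g ∈ A.inertiaSubgroupIn ℚ, residue B (χ (d g)) = Mr g 0 0 := fun g hg => by
    rw [hres_d, (hMtri g hg).1, (hMtri g hg).2, mul_one, mul_zero, sub_zero]
  have hdefect : ∀ u ∈ A.inertiaSubgroupIn ℚ, ∀ v ∈ A.inertiaSubgroupIn ℚ, ∀ g,
      t (u * v * g) - t (u * g) - d u * t (v * g) + d u * t g ∈ 𝔪 := by
    intro u hu v hv g
    rw [hker]
    simp only [map_add, map_sub, map_mul, hdet_tri u hu, hres_t, Matrix.mul_apply,
      Fin.sum_univ_two, (hMtri u hu).1, (hMtri u hu).2, (hMtri v hv).1, (hMtri v hv).2]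
    ring
  let cn : inertiaRing A → ℕ := fun w => dn (inertiaHom A w)
  have D : ResidualData p n 𝔪 ρ t d (inertiaHom A) cn s h₀ := by
    constructor
    · rw [hker, map_natCast]; exact (residue_eq_zero_iff _).mpr hp
    · refine ⟨fun g x => Subtype.ext ?_, fun g h x => Subtype.ext ?_⟩
      · show levelAct Mm n g (levelAct Mm n g (x : LevelVec Mm n)) -
          t g • levelAct Mm n g (x : LevelVec Mm n) + d g • (x : LevelVec Mm n) = 0
        rw [hphi, show levelAct Mm n g⁻¹ (levelAct Mm n g (x : LevelVec Mm n)) = x by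
          show (levelAct Mm n g⁻¹ * levelAct Mm n g) (x : LevelVec Mm n) = x
          rw [← map_mul, inv_mul_cancel, map_one]; rfl]
        abel
      · show d (g * h) • (x : LevelVec Mm n) = (d g * d h) • (x : LevelVec Mm n)
        rw [mul_smul, hd_smul, hd_smul, hd_smul, map_mul, Units.val_mul, map_mul, mul_smul]
    · intro x
      refine Subtype.ext ?_
      show p ^ n • (x : LevelVec Mm n) = 0
      rw [← natCast_smul_levelVec, ZMod.natCast_self, zero_smul]
    · exact fun w x => Nat.cast_smul_eq_nsmul _ _ _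
    · intro w; simp [d, cn]
    · show t _ - (1 + (dn _ : 𝕋)) ∈ 𝔪
      rw [hker, map_sub, map_add, map_one, map_sub, map_add, map_one, hres_t,
        hdet_tri _ hs₀, (hMtri _ hs₀).2]
      ring
    · rw [hp1]; exact hs₀1
    · intro w w'
      have e : ((dn (inertiaHom A (w * w')) : ℤ) - dn (inertiaHom A w) * dn (inertiaHom A w') :
          ZMod (p ^ n)) = 0 := by
        simp only [dn, Int.cast_natCast, Int.cast_mul, map_mul, Units.val_mul, ZMod.natCast_zmod_val,
          sub_self]
      refine dvd_trans (dvd_pow_self (p : ℤ) (show n ≠ 0 by omega)) ?_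
      rw [← Nat.cast_pow, ← ZMod.intCast_zmod_eq_zero_iff_dvd]
      simpa [cn] using e
    · show irredDisc t d _ h₀ 1 (dn _ : 𝕋) ∉ 𝔪
      rw [hker, irredDisc]
      simp only [map_add, map_sub, map_mul, map_pow, map_one, hres_t, hres_d, Matrix.mul_apply,
        Fin.sum_univ_two]
      have hb : residue B (χ (dn (inertiaHom A s) : 𝕋)) = Mr (inertiaHom A s) 0 0 :=
        hdet_tri _ hs₀
      rw [hb, (hMtri _ hs₀).1, (hMtri _ hs₀).2, hMs]
      intro h
      have hne : Mr (inertiaHom A s) 0 0 ≠ 1 := by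
        intro h1
        have := hMdet (inertiaHom A s)
        rw [Matrix.det_fin_two, (hMtri _ hs₀).1, (hMtri _ hs₀).2, h1] at this
        exact hsd (by rw [← this]; ring)
      refine mul_ne_zero (mul_ne_zero hh₀.1 hh₀.2)
        (pow_ne_zero 2 (sub_ne_zero.mpr (Ne.symm hne))) ?_
      linear_combination (-1 : ResidueField B) * h
    · intro w g
      exact hdefect _ hs₀ _ (inertiaHom_mem w) g
    · intro w g
      exact hdefect _ (inertiaHom_mem w) _ hs₀ g
  have hχroot : ∀ (w : inertiaRing A) (ζ : AlgebraicClosure ℚ), ζ ^ p ^ n = 1 →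
      (w : AlgebraicClosure ℚ ≃+* AlgebraicClosure ℚ) ζ = ζ ^ cn w :=
    fun w ζ hζ => cyclo_spec p (inertiaHom A w) hζ
  -- the model on `X`
  let incl : (⊤ : AddSubgroup X) →+ LevelVec Mm n :=
    X.subtype.toAddMonoidHom.comp (⊤ : AddSubgroup X).subtype
  have hincl : Function.Injective incl := fun a b h => Subtype.ext (Subtype.ext h)
  have hGX : ∀ w, ∀ x ∈ (⊤ : AddSubgroup X), inertiaAction ρ (inertiaHom A) w x ∈
      (⊤ : AddSubgroup X) := fun _ _ _ => trivial
  have hHX := hHl.comap (ρ' := restrictAction (inertiaAction ρ (inertiaHom A)) ⊤ hGX) incl hincl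
    (fun w y => rfl)
  have hI := isUnramifiedBase_inertia (Fact.out : p.Prime) hA
  have key := smul_sub_eq_of_model hI hp2 D hχroot
    ⟨L, fun r hr x => by
      obtain ⟨v, hv⟩ := x.2
      refine Subtype.ext ?_
      show r • (x : LevelVec Mm n) = 0
      rw [← hv]
      exact hL r hr v⟩
    ⊤ hGX (fun w x => trivial) hHX
  have hcn : ∀ (w : inertiaRing A) (v : LevelVec Mm n),
      cn w • v = ((cyclo p (inertiaHom A w) : ℤ_[p]).toZModPow n) • v := fun w v => by
    rw [← natCast_smul_levelVec, ZMod.natCast_zmod_val]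
  -- the values of the congruence relation are cyclotomic
  have hcong : ∀ (v : LevelVec Mm n) (w : inertiaRing A),
      levelAct Mm n (inertiaHom A w) (levelAct Mm n σ (levelAct Mm n σ (e • v)) -
          Tp • levelAct Mm n σ (e • v) +
          p • (e • v)) =
        cn w • (levelAct Mm n σ (levelAct Mm n σ (e • v)) -
          Tp • levelAct Mm n σ (e • v) +
          p • (e • v)) := fun v w => by
    let x : X := ⟨e • v, v, rfl⟩
    let z : (⊤ : AddSubgroup X) := ⟨ρ σ (ρ σ x) - Tp • ρ σ x + p • x, trivial⟩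
    have hρval : ∀ (g : Γℚ) (y : X), ((ρ g y : X) : LevelVec Mm n) = levelAct Mm n g y :=
      fun _ _ => rfl
    have hval : incl z = levelAct Mm n σ (levelAct Mm n σ (e • v)) -
        Tp • levelAct Mm n σ (e • v) + p • (e • v) := by
      show ((ρ σ (ρ σ x) - Tp • ρ σ x + p • x : X) : LevelVec Mm n) = _
      rw [Submodule.coe_add, Submodule.coe_sub, Submodule.coe_smul, Submodule.coe_smul_of_tower,
        hρval, hρval]
    have hz : IsModel.IsConnected
        (Hl.map (LinearMap.funLeft _ _ incl)) z := by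
      rintro _ ⟨f, hf, rfl⟩
      show A.valuation (f (incl z) - f (incl 0)) < 1
      have hc := hconn (e • v) f hf
      rw [← hsmul] at hc
      rw [map_zero incl, hval]
      exact hc
    have h := map_eq_of_isConnected hI hp2 hHX cn
      (fun y => Subtype.ext (D.pow_smul (y : X)))
      (fun w₁ w₂ y => Subtype.ext (key w₁ w₂ (y : X))) hz w
    rw [← hval]
    exact (congrArg incl h).trans (map_nsmul incl _ _)
  refine ⟨e, ?_, fun s₁ hs₁ => ?_⟩
  · rw [← residue_ne_zero_iff_isUnit, Ne, ← hker]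
    exact he
  obtain ⟨w₁, rfl⟩ := exists_inertiaHom_eq hs₁
  have hcE : ∀ g, Commute (redP p n (castP p (Mm.Tm e))) (redP p n (Mm.G g)) := fun g =>
    Commute.map (Mm.G_comm g e).symm (redP p n)
  refine ⟨fun τ hτ => ?_, ?_⟩
  · obtain ⟨w₂, rfl⟩ := exists_inertiaHom_eq hτ
    refine Matrix.ext_iff_mulVec.mpr fun v => ?_
    rw [Matrix.zero_mulVec, map_mul, map_sub, map_mul, redP_smul, map_sub, map_one,
      ((((hcE _).mul_right ((hcE _).sub_right (Commute.one_right _)))).sub_right
      (((hcE _).sub_right (Commute.one_right _)).smul_right _)).eq, ← Matrix.mulVec_mulVec,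
      ← hsmul, Matrix.sub_mulVec, Matrix.smul_mulVec, ← Matrix.mulVec_mulVec, Matrix.sub_mulVec,
      Matrix.one_mulVec, ← levelAct_apply, ← levelAct_apply, ← hcn, sub_eq_zero]
    exact congrArg Subtype.val (key w₁ w₂ ⟨e • v, v, rfl⟩)
  · refine Matrix.ext_iff_mulVec.mpr fun v => ?_
    have hcT : Commute (redP p n (castP p (Mm.Tm e))) (redP p n (castP p (Mm.Tm Tp))) :=
      ((Commute.all e _).map Mm.Tm |>.map (castP p)).map (redP p n)
    rw [Matrix.zero_mulVec, map_mul, map_mul, map_sub, map_add, map_sub, map_mul, map_mul,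
      redP_smul, redP_smul, map_one, map_natCast,
      (((hcE _).sub_right ((Commute.one_right _).smul_right _)).mul_right
        ((((hcE _).mul_right (hcE _)).sub_right (hcT.mul_right (hcE _))).add_right
          ((Commute.one_right _).smul_right _))).eq]
    simp only [← Matrix.mulVec_mulVec, Matrix.add_mulVec, Matrix.sub_mulVec, Matrix.smul_mulVec,
      Matrix.one_mulVec, natCast_smul_levelVec, ← levelAct_apply, ← hsmul, ← hcn]
    rw [sub_eq_zero]
    exact hcong v w₁

end FLTAgent.RT.AtP
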