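import Fermat.Agent.RT.AtP.Push
import Fermat.Agent.Semistable.LevelAutFrob
import Fermat.Agent.LevelSq.Push
import Fermat.Agent.GalRep.Cyclo
import Mathlib.FieldTheory.Finite.Basic

/-!
# The toric part of `J₀(Mp)` at a place over `p`

On the classes moved by inertia whose images in `J₀(M)` under both degeneracy maps vanish, inertia
and the squares of decomposition elements act by the cyclotomic character.
-/

set_option autoImplicit false
set_option linter.style.haveILetI false
set_option linter.unusedSectionVars false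
set_option synthInstance.maxHeartbeats 100000

noncomputable section

open ModularCurve AlgebraicCurve IsLocalRing SemilinearAut

namespace FLTAgent.RT.AtP

open FLTAgent.GoodRed FLTAgent.GoodRed.RedDatum FLTAgent.Hecke FLTAgent.FunctionField
  FLTAgent.Semistable FLTAgent.GalRep FLTAgent.LevelSq

local notation "Qbar" => AlgebraicClosure ℚ
local notation "Γℚ" => AlgebraicClosure ℚ ≃ₐ[ℚ] AlgebraicClosure ℚ

local instance (priority := high) instAlgebraFullCLevelToric {K : Type*} [Field K] (N : ℕ)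
    [NeZero N] : Algebra K (modularFunctionFieldFullC K N) :=
  SubalgebraClass.toAlgebra (modularFunctionFieldFullC K N)

local instance (priority := high) instAlgebraBarLevelToric (N : ℕ) :
    Algebra Qbar (MF Qbar N) :=
  SubalgebraClass.toAlgebra (MF Qbar N)

/-- The square of a field automorphism fixes the field with `p ^ 2` elements. -/
theorem ringEquiv_sq_fix {p : ℕ} [Fact p.Prime] {k : Type*} [Field k] [CharP k p] (τ : k ≃+* k)
    {t : k} (ht : t ^ (p ^ 2) = t) : τ (τ t) = t := by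
  have hfix : ∀ a : k, a ^ p = a → τ a = a := fun a ha => by
    have hle : (⊥ : Subfield k) ≤ RingHom.eqLocusField (τ : k →+* k) (RingHom.id k) := bot_le
    exact hle ((Subfield.mem_bot_iff_pow_eq_self k p).2 ha)
  have ht' : (t ^ p) ^ p = t := by rw [← pow_mul, ← pow_two, ht]
  have hs : τ (t + t ^ p) = t + t ^ p := hfix _ (by rw [add_pow_char, ht', add_comm])
  have hn : τ (t * t ^ p) = t * t ^ p := hfix _ (by rw [mul_pow, ht', mul_comm])
  rw [map_add] at hs
  rw [map_mul] at hn
  have h : (τ t - t) * (τ t - t ^ p) = 0 := by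
    have e1 : τ (t ^ p) = t + t ^ p - τ t := by linear_combination hs
    rw [e1] at hn
    linear_combination -hn
  rcases mul_eq_zero.1 h with h | h
  · rw [sub_eq_zero] at h; rw [h, h]
  · rw [sub_eq_zero] at h
    rw [h, map_pow, h, ht']

variable {M : ℕ} [NeZero M] {p : ℕ} [Fact p.Prime]

local instance : NeZero p := ⟨(Fact.out : p.Prime).ne_zero⟩
local instance instAlgebraLevelToric : Algebra (MF Qbar M) (MF Qbar (M * p)) :=
  algebraAlong (alphaMap Qbar M p)
local instance : IsScalarTower Qbar (MF Qbar M) (MF Qbar (M * p)) :=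
  isScalarTower_along (alphaMap Qbar M p)
local instance : Module.Finite (MF Qbar M) (MF Qbar (M * p)) := finite_alongAlpha M (q := p)

variable {A : ValuationSubring (AlgebraicClosure ℚ)} {hA : A.LiesOverPrime p} {hpM : ¬ p ∣ M}
  [CharP (ResidueField A) p] [IsAlgClosed (ResidueField A)]
  [IsFunctionField (ResidueField A) (modularFunctionFieldFullC (ResidueField A) M)]
  {ι : Type*} [Fintype ι]
  {X : CrossData (x0Datum A hA M hpM) (redInf A hA M hpM) (redZero A hA M hpM)
    (frobC (K := ResidueField A) p M) p ι}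
  (hfr : X.frP = frPlace p M) (hx : Set.range X.x = crossingSet A hA hpM)
  (hG₁ : ∀ σ : Γℚ, arithmeticGalois (modularFunctionFieldFull M) σ • X.G₁ = X.G₁)
  (hG₂ : ∀ σ : Γℚ, arithmeticGalois (modularFunctionFieldFull M) σ • X.G₂ = X.G₂)

include hfr hx hG₁ hG₂ in
/-- Inertia elements and squares of decomposition elements give automorphisms fixing the
crossings. -/
theorem exists_nodeAut_perm_id {σ : Γℚ}
    (hσ : σ ∈ A.inertiaSubgroupIn ℚ ∨ ∃ g ∈ A.decompositionSubgroup ℚ, σ = g * g) :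
    ∃ T : NodeSystem.NodeAut X.nodeSystem,
      T.s = arithmeticGalois (modularFunctionFieldFull (M * p)) σ ∧ ∀ i, T.perm i = i := by
  rcases hσ with hσ | ⟨g, hg, rfl⟩
  · obtain ⟨T, hT, hTi⟩ := exists_inertial_nodeAut hfr hx hG₁ hG₂ hσ
    exact ⟨T, hT, hTi.2.2.2⟩
  · let g₀ : A.decompositionSubgroup ℚ := ⟨g, hg⟩
    refine ⟨levelAut hfr hx hG₁ hG₂ (g₀ * g₀), rfl,
      levelAut_perm_eq hfr hx hG₁ hG₂ _ fun t ht => ?_⟩
    show (g₀ * g₀) • t = t
    rw [mul_smul]
    exact ringEquiv_sq_fix (residueAut g₀) ht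

set_option maxHeartbeats 2000000 in
-- the statement mentions several large fields
include hfr hx hG₁ hG₂ in
/-- **The toric identity on `J₀(Mp)`.** -/
theorem smul_inertia_sub_eq {n : ℕ} {x : JZero (M * p)} (hn : p ^ n • x = 0)
    (h₁ : pushPic 1 (by rw [mul_one]; exact dvd_mul_right M p : M * 1 ∣ M * p) x = 0)
    (h₂ : pushPic p (dvd_rfl : M * p ∣ M * p) x = 0) {σ τ : Γℚ}
    (hσ : σ ∈ A.inertiaSubgroupIn ℚ ∨ ∃ g ∈ A.decompositionSubgroup ℚ, σ = g * g)
    (hτ : τ ∈ A.inertiaSubgroupIn ℚ) :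
    σ • (τ • x - x) = ((cyclo p σ : ℤ_[p]).toZModPow n).val • (τ • x - x) := by
  set χ := ((cyclo p σ : ℤ_[p]).toZModPow n).val with hχdef
  obtain ⟨T, hT, hperm⟩ := exists_nodeAut_perm_id hfr hx hG₁ hG₂ hσ
  obtain ⟨Tτ, hTτ, hTi⟩ := exists_inertial_nodeAut hfr hx hG₁ hG₂ hτ
  obtain ⟨D, rfl⟩ := Pic0.mk_surjective x
  have hp : p.Prime := Fact.out
  -- a function for `p ^ n` times the class
  have hn' : p ^ n • D ∈ (Divisor.principal (K := Qbar) (F := MF Qbar (M * p))).addSubgroupOf
      Divisor.degZero := (QuotientAddGroup.eq_zero_iff _).1 hn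
  obtain ⟨g, hg, hdiv⟩ := hn'
  have hdiv' : divisorOf g = (p ^ n) • (D : Divisor Qbar (MF Qbar (M * p))) :=
    Finsupp.ext fun v => (divisorOf_apply g v).trans (hdiv v).symm
  have hflat := Tτ.isFlat_smul_sub hTi (m := p ^ n) D.2 hg hdiv'
  set σs := arithmeticGalois (modularFunctionFieldFull (M * p)) σ
  set τs := arithmeticGalois (modularFunctionFieldFull (M * p)) τ
  set Y := degZeroSMulHom τs D - D with hY
  have hmk : τ • Pic0.mk D - Pic0.mk D = Pic0.mk Y := by
    rw [galois_smul_pic0_def, pic0_smul_mk]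
    exact (QuotientAddGroup.mk_sub _ _ _).symm
  have hYcoe : (Y : Divisor Qbar (MF Qbar (M * p))) =
      Tτ.s • (D : Divisor Qbar (MF Qbar (M * p))) - (D : Divisor Qbar (MF Qbar (M * p))) := by
    rw [hTτ]; rfl
  have hpush : ∀ (d : ℕ) [NeZero d] (h : M * d ∣ M * p), pushPic d h (Pic0.mk D) = 0 →
      (pushDegZero d h Y : Divisor Qbar (MF Qbar M)).IsPrincipal := fun d _ h h0 => by
    have e : pushPic d h (Pic0.mk Y) = 0 := by
      rw [← hmk, map_sub, pushPic_smul, h0, smul_zero_jZero, sub_zero]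
    rw [pushPic_mk] at e
    exact (QuotientAddGroup.eq_zero_iff _).1 e
  obtain ⟨ζ, hζ⟩ := HasEnoughRootsOfUnity.exists_primitiveRoot Qbar p
  have hζA : ζ ∈ A := by
    rw [← A.valuation_le_one_iff, ← pow_le_one_iff hp.ne_zero, ← map_pow, hζ.pow_eq_one, map_one]
  have hζ' : IsPrimitiveRoot (⟨ζ, hζA⟩ : A) p :=
    IsPrimitiveRoot.of_map_of_injective (f := A.subtype) (by exact hζ) Subtype.val_injective
  obtain ⟨f, hf, hfdiv⟩ := smul_sub_nsmul_of_push (alphaMap Qbar M p) (betaMap Qbar M p)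
    ((levelFacts Qbar).integral 1 _) ((levelFacts Qbar).integral p dvd_rfl)
    ((levelFacts Qbar).finite M (M * p) 1 _) ((levelFacts Qbar).finite M (M * p) p dvd_rfl)
    T hperm (Semistable.isRankOne_of_liesOverPrime hA hp) ⟨(p : Qbar), Nat.cast_ne_zero.2 hp.ne_zero, hA⟩
    X.side (oneSide_beta hA hpM) X.hpow X.hpow hζ' (Nat.cast_ne_zero.2 hp.ne_zero) (n := n)
    (χ := χ) (X := (Y : Divisor Qbar (MF Qbar (M * p))))
    (fun μ hμ => by rw [hT, baseAut_arithmeticGalois]; exact cyclo_spec p σ hμ)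
    (hYcoe ▸ hflat) (hpush 1 _ h₁) (hpush p dvd_rfl h₂)
  rw [hmk, galois_smul_pic0_def, pic0_smul_mk, ← sub_eq_zero]
  refine Eq.trans ?_ ((QuotientAddGroup.eq_zero_iff
    (degZeroSMulHom σs Y - χ • Y)).2 ⟨f, hf, fun v => ?_⟩)
  · exact (congrArg _ (QuotientAddGroup.mk_nsmul _ Y χ).symm).trans
      (QuotientAddGroup.mk_sub _ _ _).symm
  · show ((degZeroSMulHom σs Y - χ • Y : Divisor.degZero (K := Qbar) (F := MF Qbar (M * p))) :
      Divisor Qbar (MF Qbar (M * p))) v = _
    rw [← divisorOf_apply, ← hfdiv, hT]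
    rfl

end FLTAgent.RT.AtP
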