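import Fermat.Agent.FlatModel.X0AllPrimes
import Fermat.Agent.FlatModel.X0Torsion
import Fermat.Agent.FlatModel.ModelOfFunction
import Fermat.Agent.FlatModel.Trivial
import Fermat.Agent.GoodRed.X0Inputs

/-!
# The kernel of reduction lies in the connected part of the model

A torsion class of `J₀(M)` reducing to zero at a place over `l ∤ M` is connected in the integral
model of the torsion built from the coordinates of effective representatives. In a model on which
inertia satisfies `(σ - χ σ) (τ - 1) = 0` the connected part is cyclotomic.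
-/

set_option autoImplicit false
set_option linter.unusedSectionVars false
set_option linter.style.haveILetI false
set_option synthInstance.maxHeartbeats 100000

noncomputable section

open AlgebraicCurve ModularCurve IsLocalRing

namespace FLTAgent.RT.AtP

open FLTAgent.FlatModel FLTAgent.FunctionField FLTAgent.GoodRed FLTAgent.Frobenius

local notation "Qbar" => AlgebraicClosure ℚ
local notation "Γℚ" => AlgebraicClosure ℚ ≃ₐ[ℚ] AlgebraicClosure ℚ

section cyclotomic

variable {K : Type*} [Field K] [CharZero K] {p : ℕ} {A : ValuationSubring K}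
  {I : Subgroup (K ≃+* K)} {X : Type*} [AddCommGroup X] [Finite X] {ρ : I →* AddMonoid.End X}
  {H : Submodule (baseRing A I) (X → K)}

/-- If inertia moves everything into classes where it acts by `χ`, so it does on the connected
part. -/
theorem map_eq_of_isConnected (hI : IsUnramifiedBase p A I) (hp2 : p ≠ 2) (hH : IsModel ρ H)
    (χ : I → ℕ) {n : ℕ} (hn : ∀ x : X, p ^ n • x = 0)
    (hkey : ∀ σ τ x, ρ σ (ρ τ x - x) = χ σ • (ρ τ x - x)) {x : X} (hx : IsModel.IsConnected H x) (τ : I) :
    ρ τ x = χ τ • x := by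
  let U : AddSubgroup X :=
    { carrier := {z | ∀ τ : I, ρ τ z = χ τ • z}
      zero_mem' := fun τ => by rw [map_zero, smul_zero]
      add_mem' := fun {a b} ha hb τ => by rw [map_add, ha τ, hb τ, smul_add]
      neg_mem' := fun {a} ha τ => by rw [map_neg, ha τ, smul_neg] }
  have hU : ∀ τ, ∀ u ∈ U, ρ τ u ∈ U := fun τ u hu => by
    rw [show ρ τ u = χ τ • u from hu τ]
    exact U.nsmul_mem hu _
  suffices h : ∀ j, ∀ w ∈ hH.connectedPart, p ^ j • w = 0 → w ∈ U from h n x hx (hn x) τ
  intro j
  induction j with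
  | zero =>
    intro w _ hw
    rw [pow_zero, one_smul] at hw
    rw [hw]
    exact U.zero_mem
  | succ j ih =>
    intro w hw hwj
    let W : AddSubgroup X := hH.connectedPart ⊓ (nsmulAddMonoidHom (p ^ (j + 1)) : X →+ X).ker
    have hst : ∀ τ, ∀ z ∈ W, ρ τ z ∈ W := fun τ z hz => ⟨hH.map_mem_connectedPart hI τ hz.1, by
      show p ^ (j + 1) • ρ τ z = 0
      rw [← map_nsmul (ρ τ), show p ^ (j + 1) • z = 0 from hz.2, map_zero]⟩
    have htriv : ∀ τ, ∀ z ∈ W, ρ τ z - z ∈ U := fun τ z _ σ => hkey σ τ z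
    have hpW : ∀ z ∈ W, p • z ∈ U := fun z hz => ih _ (hH.connectedPart.nsmul_mem hz.1 p) (by
      rw [← mul_smul, ← pow_succ]; exact hz.2)
    exact hH.le_of_connected_trivial hI hp2 W U hst hU inf_le_left htriv hpW ⟨hw, hwj⟩

end cyclotomic

section congruence

variable {F₀ : IntermediateField ℚ (LaurentSeries ℚ)}
  {A : ValuationSubring (AlgebraicClosure ℚ)}
  {Fb : IntermediateField (IsLocalRing.ResidueField A) (LaurentSeries (IsLocalRing.ResidueField A))}
  [IsFunctionField (AlgebraicClosure ℚ) ↥(FBar F₀)]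
  [IsFunctionField (IsLocalRing.ResidueField A) ↥Fb]
  [IsAlgClosed (IsLocalRing.ResidueField A)]
  {C : CurveDatum F₀ A Fb}

/-- Congruent model divisors have congruent coordinates. -/
theorem co_vF_sub_mem_nonunits {E E' : Divisor Qbar ↥(FBar F₀)} (hE : C.IsModelDiv E)
    (hE' : C.IsModelDiv E') (h : C.red E = C.red E') {i : ℤ} (hi : 2 * (C.g : ℤ) ≤ i) (j : ℤ) :
    co j (C.vF E i) - co j (C.vF E' i) ∈ A.nonunits := by
  have hsp : C.spaceb E' i = C.spaceb E i := by
    rw [CurveDatum.spaceb, CurveDatum.spaceb, h]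
  have hb : C.vFb E i = C.vFb E' i := by
    refine sub_eq_zero.1 (hE.eq_zero_of_mem_spaceb (i := i) (by omega)
      (Submodule.sub_mem _ (hE.vFb_mem hi le_rfl) (hsp ▸ hE'.vFb_mem hi le_rfl)) fun n hn => ?_)
    rw [map_sub, hE.co_vFb hi (Finset.mem_Icc.1 hn).1, hE'.co_vFb hi (Finset.mem_Icc.1 hn).1,
      sub_self]
  obtain ⟨h1, e1⟩ := C.co_red _ _ (hE.vF_spec hi).2.1
    (CurveDatum.regAway_space hE.nonneg (hE.vF_spec hi).1) j
  obtain ⟨h2, e2⟩ := C.co_red _ _ (hE'.vF_spec hi).2.1
    (CurveDatum.regAway_space hE'.nonneg (hE'.vF_spec hi).1) j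
  rw [hb, ← e2, ← sub_eq_zero, ← map_sub, IsLocalRing.residue_eq_zero_iff,
    ← ValuationSubring.coe_mem_nonunits_iff] at e1
  exact e1

variable {ι : Type} [MulAction Γℚ ι] {cl : ι → Pic0 (AlgebraicClosure ℚ) ↥(FBar F₀)}

/-- Representatives of classes congruent modulo principal divisors reduce to the same divisor. -/
theorem red_ediv_eq (B : GoodBase C cl) (n : EmbSet B.K) {x y : ι} {z : Fb} (hz : z ≠ 0)
    (h : C.red (B.X x : Divisor Qbar ↥(FBar F₀)) - C.red (B.X y : Divisor Qbar ↥(FBar F₀)) =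
      divisorOf z) : C.red (B.ediv (n, x)) = C.red (B.ediv (n, y)) := by
  obtain ⟨f, hf, hfe⟩ := B.exists_ediv_sub (n, x)
  obtain ⟨f', hf', hfe'⟩ := B.exists_ediv_sub (n, y)
  obtain ⟨u, hu, hue⟩ := C.exists_red_divisorOf hf
  obtain ⟨u', hu', hue'⟩ := C.exists_red_divisorOf hf'
  rw [← hfe, C.red_sub, GoodBase.base, C.red_add, C.red_add] at hue
  rw [← hfe', C.red_sub, GoodBase.base, C.red_add, C.red_add] at hue'
  refine eq_of_effective_of_ell_sub_single (P := C.infb)
    (C.red_nonneg (B.isModelDiv_ediv (n, y)).nonneg)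
    (C.red_nonneg (B.isModelDiv_ediv (n, x)).nonneg) (B.isModelDiv_ediv (n, y)).rr_inf
    (f := u * u'⁻¹ * z) (mul_ne_zero (mul_ne_zero hu (inv_ne_zero hu')) hz) ?_
  rw [divisorOf_mul (mul_ne_zero hu (inv_ne_zero hu')) hz, divisorOf_mul hu (inv_ne_zero hu'),
    divisorOf_inv, ← hue, ← hue', ← h]
  abel

variable {l : ℕ} [Fact l.Prime]

/-- The functions of the descended ring are congruent at congruent classes. -/
theorem sub_mem_nonunits_ring (B : GoodBase C cl) (hA : A.LiesOverPrime l)
    (hcl : ∀ (σ : Γℚ) (x : ι), cl (σ • x) = σ • cl x) {S : Type} [MulAction Γℚ S] {φ : S → ι}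
    (hφ : ∀ (σ : Γℚ) (s : S), φ (σ • s) = σ • φ s) {a b : S}
    (h : ∀ n : EmbSet B.K, C.red (B.ediv (n, φ a)) = C.red (B.ediv (n, φ b)))
    {f : S → Qbar} (hf : f ∈ B.ring l φ) : f a - f b ∈ A.nonunits := by
  have hint : ∀ r ∈ genAlg l B.K (B.family φ), ∀ t, r t ∈ A := fun r hr t =>
    mem_of_isIntegral_ratLocalizedAt hA ((mem_intFun.1
      (genAlg_le_intFun (B.family_subset_intFun hA hcl hφ) hr)).2 t)
  suffices key : ∀ r ∈ genAlg l B.K (B.family φ), ∀ n,
      A.valuation (r (n, a) - r (n, b)) < 1 from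
    (ValuationSubring.mem_nonunits_iff A).2 (key _ hf.1 1)
  intro r hr
  induction hr using Algebra.adjoin_induction with
  | mem r hr =>
    intro n
    rcases hr with ⟨o, -, rfl⟩ | ⟨g, i, j, hi, rfl⟩
    · simp
    · exact (ValuationSubring.mem_nonunits_iff A).1
        (co_vF_sub_mem_nonunits (B.isModelDiv_ediv _) (B.isModelDiv_ediv _) (h _) hi j)
  | algebraMap c => intro n; simp
  | add r s _ _ hr hs =>
    intro n
    rw [Pi.add_apply, Pi.add_apply, add_sub_add_comm]
    exact A.valuation.map_add_lt (hr n) (hs n)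
  | mul r s hr' hs' hr hs =>
    intro n
    exact valuation_mul_sub_mul_lt (hr n) (hs n) (hint r hr' _) (hint s hs' _)

end congruence

/-- The curve datum of level `M` with a given reduction of places. -/
theorem exists_curveDatum_with {A : ValuationSubring (AlgebraicClosure ℚ)} {l : ℕ} [Fact l.Prime]
    (hA : A.LiesOverPrime l) {M : ℕ} [NeZero M] (hlM : ¬ l ∣ M) [IsAlgClosed (ResidueField A)]
    [IsFunctionField (ResidueField A) (modularFunctionFieldFullC (ResidueField A) M)]
    (R : PlaceRed (x0Datum A hA M hlM)) :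
    ∃ C : CurveDatum (modularFunctionFieldFull M) A
      (modularFunctionFieldFullC (ResidueField A) M),
      ∀ D, C.red D = Finsupp.mapDomain R.r D := by
  have h := genusEqAt_of_not_dvd hlM A hA
  obtain ⟨g, c, hL, hk⟩ : ∃ (g : ℕ) (c : ℤ),
      RRLarge Qbar (modularFunctionFieldBar M) g c ∧
        RRLarge (ResidueField A) (modularFunctionFieldFullC (ResidueField A) M) g c := by
    obtain ⟨d₁, hd₁⟩ := exists_forall_finrank_H1_eq_zero (K := Qbar) (F := modularFunctionFieldBar M)
    obtain ⟨d₂, hd₂⟩ := exists_forall_finrank_H1_eq_zero (K := ResidueField A)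
      (F := modularFunctionFieldFullC (ResidueField A) M)
    refine ⟨genusFF Qbar (modularFunctionFieldBar M), max d₁ d₂, fun W hW => ?_, fun W hW => ?_⟩
    · exact finrank_rr_eq_add Qbar W (hd₁ W (by omega))
    · rw [h]; exact finrank_rr_eq_add (ResidueField A) W (hd₂ W (by omega))
  have hord : ((x0J A hA M hlM : modularFunctionFieldBar M) : LaurentSeries Qbar).order = -1 := by
    rw [coe_x0J]; exact jqModC_order _
  have hordb : ((x0Jb A hA M hlM : modularFunctionFieldFullC (ResidueField A) M) :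
      LaurentSeries (ResidueField A)).order = -1 := by
    rw [coe_x0Jb]; exact jqModC_order _
  obtain ⟨v, hv⟩ := exists_isInfPlace (f := (x0J A hA M hlM)⁻¹) (by
    rw [IntermediateField.coe_inv]; exact order_inv_of_order_eq hord)
  obtain ⟨vb, hvb⟩ := exists_isInfPlace (f := (x0Jb A hA M hlM)⁻¹) (by
    rw [IntermediateField.coe_inv]; exact order_inv_of_order_eq hordb)
  have hx0 : x0J A hA M hlM ≠ 0 := fun h0 => by rw [h0] at hord; simp at hord
  have hxb0 : x0Jb A hA M hlM ≠ 0 := fun h0 => by rw [h0] at hordb; simp at hordb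
  exact ⟨{
    D := x0Datum A hA M hlM
    R := R
    g := g
    c := c
    hL := hL
    hk := hk
    inf := v
    hinf := hv
    infb := vb
    hinfb := hvb
    x := x0J A hA M hlM
    xb := x0Jb A hA M hlM
    red_x := red_x0J A hA M hlM
    ord_x := by rw [hv _ hx0, hord]; norm_num
    ord_xb := by rw [hvb _ hxb0, hordb, hv _ hx0, hord]
    co_red := fun y z hr hreg n => coeff_mem_and_residue (x0Basis A hA M hlM)
      (isResidueMap_residue A) (isRankOne_of_liesOverPrime hA Fact.out) hr hreg (-n) },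
    fun _ => rfl⟩

set_option maxHeartbeats 1000000 in
-- the statement mentions several large fields
/-- **Torsion classes reducing to zero are connected** in some integral model of the torsion. -/
theorem exists_model_reduction {A : ValuationSubring (AlgebraicClosure ℚ)} {l : ℕ} [Fact l.Prime]
    (hA : A.LiesOverPrime l) {M : ℕ} [NeZero M] (hlM : ¬ l ∣ M) {G : Type} [AddCommGroup G]
    [DistribMulAction Γℚ G] [Finite G] (hG : IsLevelled G) (ψ : G →+ JZero M)
    (hψ : ∀ (σ : Γℚ) (x : G), ψ (σ • x) = σ • ψ x) (hinj : Function.Injective ψ) :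
    ∃ H : Submodule (baseRing A (inertiaRing A)) (G → Qbar),
      IsModel ((DistribMulAction.toAddMonoidEnd Γℚ G).comp (inertiaHom A)) H ∧
        ∀ x : G, reductionModL A M (ψ x) = 0 → IsModel.IsConnected H x := by
  have := isAlgClosed_residue A
  have := isFunctionField_fullC A hA M hlM
  have hin := reductionInputsModL_x0 hA hlM
  obtain ⟨R, hR⟩ := exists_placeRed_of_isPlaceReductionModL hA hlM
    (isPlaceReductionModL_placeReductionModL hin)
  obtain ⟨C, hC⟩ := exists_curveDatum_with hA hlM R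
  obtain ⟨B⟩ := exists_goodBase C hA (fun x : G => ψ x)
  let F := B.functionModel hA hψ hG id (fun _ _ => rfl) (fun x y => map_add ψ x y) hinj
  refine ⟨_, isModel_span_functionModel hA hG F, fun x hx => ?_⟩
  -- the representative of `x` reduces to a principal divisor, as does that of `0`
  rw [← B.hX x, reductionModL_mk hin] at hx
  obtain ⟨z, hz, hzv⟩ := AddSubgroup.mem_addSubgroupOf.1 ((QuotientAddGroup.eq_zero_iff _).1 hx)
  have hzd : C.red (B.X x : Divisor Qbar ↥(modularFunctionFieldBar M)) = divisorOf z := by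
    rw [hC, hR]
    exact Finsupp.ext fun v => (hzv v).trans (divisorOf_apply z v).symm
  obtain ⟨f₀, hf₀, hf₀v⟩ := AddSubgroup.mem_addSubgroupOf.1
    ((QuotientAddGroup.eq_zero_iff _).1 ((B.hX 0).trans (map_zero ψ)))
  obtain ⟨z₀, hz₀, hz₀d⟩ := C.exists_red_divisorOf hf₀
  rw [show divisorOf f₀ = ((B.X 0 : Divisor.degZero) : Divisor Qbar ↥(modularFunctionFieldBar M))
    from Finsupp.ext fun v => (divisorOf_apply f₀ v).trans (hf₀v v).symm] at hz₀d
  have hcong : ∀ n, C.red (B.ediv (n, id x)) = C.red (B.ediv (n, id 0)) := fun n =>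
    red_ediv_eq B n (z := z * z₀⁻¹) (mul_ne_zero hz (inv_ne_zero hz₀)) (by
      rw [divisorOf_mul hz (inv_ne_zero hz₀), divisorOf_inv, ← hzd, ← hz₀d, sub_eq_add_neg]
      rfl)
  intro f hf
  induction hf using Submodule.span_induction with
  | mem f hf =>
    exact (ValuationSubring.mem_nonunits_iff A).1
      (sub_mem_nonunits_ring B hA hψ (φ := id) (fun _ _ => rfl) hcong hf)
  | zero => simp
  | add f f' _ _ hf hf' =>
    rw [Pi.add_apply, Pi.add_apply, add_sub_add_comm]
    exact A.valuation.map_add_lt hf hf'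
  | smul c f _ hf =>
    rw [Pi.smul_apply, Pi.smul_apply, Subring.smul_def, Subring.smul_def, smul_eq_mul, smul_eq_mul,
      ← mul_sub, map_mul]
    exact (mul_le_of_le_one_left' ((A.valuation_le_one_iff _).mpr c.2.1)).trans_lt hf

end FLTAgent.RT.AtP
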