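import Fermat.Agent.Reduction.Peu.NotFlat
import Fermat.Agent.RT.Setting.Residual
import Fermat.Agent.TW.Flat.Model
import Fermat.Agent.FlatModel.Comap

/-!
# A très ramifié residual representation is not flat

At a multiplicative odd prime `p` with `p ∤ v_p(Δ)` the representation `E[p]`, over any finite
field of coefficients, is not flat: a finite flat model of it would restrict to a model of `E[p]`.
-/

set_option autoImplicit false

noncomputable section

open WeierstrassCurve IsLocalRing TensorProduct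
open WeierstrassCurve.Affine.Point (galoisRepModuleEnd galoisRepModuleEnd_apply)

namespace FLTAgent.RT

open FLTAgent.Reduction FLTAgent.FlatModel

local notation "Qbar" => AlgebraicClosure ℚ
local notation "Γℚ" => AlgebraicClosure ℚ ≃ₐ[ℚ] AlgebraicClosure ℚ

variable {O : Type} [CommRing O] [IsLocalRing O] {p : ℕ}
  [Fact p.Prime] {W : WeierstrassCurve ℤ}

/-- **`E[p]` is not flat at a multiplicative prime `p` with `p ∤ v_p(Δ)`.** -/
theorem not_isFlatAt_rbar (hΔ : W.Δ ≠ 0) (hp : (p : O) ∈ maximalIdeal O) (hp2 : p ≠ 2)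
    (hbad : (p : ℤ) ∣ W.Δ) (hc₄ : ¬ (p : ℤ) ∣ W.c₄) (hndiv : ¬ p ∣ padicValInt p W.Δ) :
    ¬ (GaloisRepAdic.ofResidualGaloisRep (rbar p hΔ hp)).IsFlatAt p := by
  intro hflat
  obtain ⟨A, -, hA, -⟩ := Frobenius.exists_liesOverPrime_isFrobeniusAt (Fact.out : p.Prime)
  obtain ⟨𝔓, rfl⟩ := TW.Flat.exists_localPlace hA
  letI : Algebra (ZMod p) (ResidueField O) := (resHom hp).toAlgebra
  set k := ResidueField O
  set r := GaloisRepAdic.ofResidualGaloisRep (rbar p hΔ hp) with hr
  have : Finite (ResidueField k) := hflat.1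
  have : Finite k := Finite.of_injective (residue k) (RingHom.injective _)
  have hfinV : Finite r.V := by
    have : Module.Finite k r.V := inferInstanceAs (Module.Finite k (rbar p hΔ hp).V)
    exact Module.finite_of_finite k
  obtain ⟨H₀, i1, i2, hfinite, -, -, e, hadd, hact⟩ := hflat.2 ⊥
    (Finite.of_surjective (Submodule.Quotient.mk (p := (⊥ : Ideal k)))
      (Submodule.Quotient.mk_surjective _))
  let q := Submodule.quotEquivOfEqBot ((⊥ : Ideal k) • (⊤ : Submodule k r.V))
    (Submodule.bot_smul _)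
  let a : Γℚ →* AddMonoid.End r.V :=
    { toFun := fun σ => (r.ρ σ).toAddMonoidHom
      map_one' := AddMonoidHom.ext fun x => by
        show r.ρ 1 x = x
        rw [map_one]; rfl
      map_mul' := fun σ τ => AddMonoidHom.ext fun x => by
        show r.ρ (σ * τ) x = r.ρ σ (r.ρ τ x)
        rw [map_mul]; rfl }
  obtain ⟨H, hH, -⟩ := 𝔓.exists_model a (e.trans q.toEquiv)
    (fun f g => by
      show q (e (f * g)) = q (e f) + q (e g)
      rw [hadd, map_add])
    (fun σ f g hfg => by
      show q (e g) = r.ρ σ (q (e f))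
      rw [hact σ f g hfg]
      obtain ⟨x, hx⟩ := Submodule.Quotient.mk_surjective _ (e f)
      rw [← hx]
      rfl)
  -- restrict to `E[p]`
  let φ : TorsQ W p →+ r.V :=
    (TensorProduct.mk (ZMod p) k (TorsQ W p) 1).toAddMonoidHom
  have hφ : Function.Injective φ := fun v w h => by
    refine (TensorProduct.lid (ZMod p) (TorsQ W p)).symm.injective
      (Module.Flat.rTensor_preserves_injective_linearMap (M := TorsQ W p)
        (Algebra.linearMap (ZMod p) k) (resHom hp).injective ?_)
    rw [TensorProduct.lid_symm_apply, TensorProduct.lid_symm_apply, LinearMap.rTensor_tmul,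
      LinearMap.rTensor_tmul, Algebra.linearMap_apply, map_one]
    exact h
  have hρ : ∀ (τ : Peu.inertiaRing 𝔓.P) (v : TorsQ W p),
      φ (Peu.torsInertia W p 𝔓.P τ v) = 𝔓.actI a τ (φ v) := fun τ v => by
    have e : TW.Flat.ofRingEquivGQ (τ : Qbar ≃+* Qbar) = Peu.inertiaLift 𝔓.P τ :=
      AlgEquiv.ext fun _ => rfl
    show _ = r.ρ (TW.Flat.ofRingEquivGQ (τ : Qbar ≃+* Qbar)) (φ v)
    rw [e]
    rfl
  exact Peu.false_of_isModel_of_not_dvd hA hp2 hΔ hbad hc₄ hndiv (hH.comap φ hφ hρ)

/-- A semistable curve with `E[p]` not peu ramifiée at `p` has `E[p]` not flat at `p`. -/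
theorem not_isFlatAt_rbar_of_not_peu (hΔ : W.Δ ≠ 0) (hp : (p : O) ∈ maximalIdeal O) (hp2 : p ≠ 2)
    (hsemi : W.IsSemistableModel) (hpeu : ¬ (W.map (Int.castRingHom ℚ)).IsPeuRamifieeAt p p) :
    ¬ (GaloisRepAdic.ofResidualGaloisRep (rbar p hΔ hp)).IsFlatAt p := by
  have hndiv : ¬ p ∣ padicValInt p W.Δ := fun hd => hpeu (by
    rw [WeierstrassCurve.IsPeuRamifieeAt, WeierstrassCurve.map_Δ, eq_intCast,
      padicValRat.of_int]
    exact Int.natCast_dvd_natCast.2 hd)
  have hbad : (p : ℤ) ∣ W.Δ := by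
    by_contra h
    exact hndiv (by rw [padicValInt.eq_zero_of_not_dvd h]; exact dvd_zero _)
  exact not_isFlatAt_rbar hΔ hp hp2 hbad (hsemi p (Fact.out : p.Prime) hbad) hndiv

end FLTAgent.RT
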