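import Fermat.Agent.RT.AtP.Strict
import Fermat.Agent.RT.AtP.Cover
import Fermat.Agent.LevelSq.NewPart
import Fermat.Agent.JTors.Model
import Mathlib.RingTheory.Ideal.MinimalPrime.Localization

/-!
# Systems new at `p` are strictly ordinary at `p`

The geometric input is the toric identity of level `M p`, which holds for every `M` prime to `p`
up to a nonzero integer; the Tate module has no torsion, so the integer does no harm.
-/

set_option autoImplicit false
set_option linter.style.haveILetI false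
set_option linter.unusedSectionVars false
set_option synthInstance.maxHeartbeats 100000

noncomputable section

open ModularCurve AlgebraicCurve IsLocalRing

namespace FLTAgent.RT.AtP

open FLTAgent.GoodRed FLTAgent.Hecke FLTAgent.Semistable FLTAgent.GalRep FLTAgent.LevelSq

local notation "Qbar" => AlgebraicClosure ℚ
local notation "Γℚ" => AlgebraicClosure ℚ ≃ₐ[ℚ] AlgebraicClosure ℚ

variable (M p : ℕ) [NeZero M] [Fact p.Prime]

local instance : NeZero p := ⟨(Fact.out : p.Prime).ne_zero⟩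
local instance instAlgebraPNew : Algebra (MF Qbar M) (MF Qbar (M * p)) :=
  algebraAlong (alphaMap Qbar M p)
local instance : IsScalarTower Qbar (MF Qbar M) (MF Qbar (M * p)) :=
  isScalarTower_along (alphaMap Qbar M p)
local instance : Module.Finite (MF Qbar M) (MF Qbar (M * p)) := finite_alongAlpha M (q := p)

variable {M p}

theorem levelPrimes_mul_left {S : Set ℕ} (hS : levelPrimes (M * p) ⊆ S) : levelPrimes M ⊆ S :=
  fun _ hq => hS ⟨hq.1, hq.2.trans (dvd_mul_right M p)⟩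

/-- The identity on the Tate module for an operator vanishing at the level `M`. -/
theorem castP_mul_defect_eq_zero (hpM : ¬ p ∣ M) (hp2 : p ≠ 2) {S : Set ℕ}
    (hpS : p ∈ S) (TN : TorsionModel (M * p) p) (TL : TorsionModel M p)
    (hGN : GaloisFacts (M * p) p) (hGL : GaloisFacts M p) (hS : levelPrimes (M * p) ⊆ S)
    {t : CuspForm.heckeAlgebra (M * p) 2 S}
    (ht : (t, (0 : CuspForm.heckeAlgebra M 2 S)) ∈ pairAlg (M * p) M S)
    {A : ValuationSubring Qbar} (hA : A.LiesOverPrime p) {σ τ : Γℚ}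
    (hσ : σ ∈ A.inertiaSubgroupIn ℚ ∨ ∃ g ∈ A.decompositionSubgroup ℚ, σ = g * g)
    (hτ : τ ∈ A.inertiaSubgroupIn ℚ) :
    castP p ((TN.matModel hGN hS).Tm t) * ((TN.matModel hGN hS).G σ *
      ((TN.matModel hGN hS).G τ - 1) -
      (cyclo p σ : ℤ_[p]) • ((TN.matModel hGN hS).G τ - 1)) = 0 := by
  set Z := TN.heckeMat ((Subalgebra.inclusion (CuspForm.heckeAlgebra_mono hS)).toRingHom t)
    with hZ
  have hc : ∀ g, Commute (castP p Z) (TN.galHom g) := fun g =>
    ((TN.matModel hGN hS).G_comm g t).symm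
  show castP p Z * (TN.galHom σ * (TN.galHom τ - 1) -
    (cyclo p σ : ℤ_[p]) • (TN.galHom τ - 1)) = 0
  rw [((((hc σ).mul_right ((hc τ).sub_right (Commute.one_right _)))).sub_right
    (((hc τ).sub_right (Commute.one_right _)).smul_right _)).eq]
  obtain ⟨D, hD, hrel⟩ := exists_smul_inertia_sub_eq M hA hp2 hpM
  refine Or.resolve_left (smul_eq_zero.1 ?_) (show (D : ℤ_[p]) ≠ 0 from Nat.cast_ne_zero.2 hD)
  refine redP_ext fun n => ?_
  set c := ((cyclo p σ : ℤ_[p]).toZModPow n).val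
  have key := TN.map_eq_of_projv_eq n
    (X := D • (TN.levelMat n σ * ((TN.levelMat n τ - 1) * Z) -
      (c : ℤ) • ((TN.levelMat n τ - 1) * Z)))
    (Y := 0) fun v => by
      have h0 : ∀ (d : ℕ) [NeZero d] (h : M * d ∣ M * p),
          pushPic d h (TN.projv n (Z.mulVec v)) = 0 := fun d _ h =>
        push_eq_zero TN hGN hGL hpS hS (levelPrimes_mul_left hS) d h ht TL n v
      have e := hrel n _ (TN.pow_smul_projv n (Z.mulVec v)) (h0 1 _) (h0 p dvd_rfl) σ τ hσ hτ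
      rw [Matrix.zero_mulVec, map_zero, Matrix.smul_mulVec, map_nsmul, Matrix.sub_mulVec,
        Matrix.smul_mulVec, map_sub, map_zsmul,
        natCast_zsmul, ← Matrix.mulVec_mulVec, ← TN.smul_projv, ← Matrix.mulVec_mulVec,
        Matrix.sub_mulVec, Matrix.one_mulVec, map_sub, ← TN.smul_projv]
      rw [nsmul_sub, e, sub_self]
  haveI : NeZero (p ^ n) := ⟨pow_ne_zero n (Fact.out : p.Prime).ne_zero⟩
  rw [map_zero, redP_smul, map_natCast, map_mul, map_sub, map_mul, redP_smul, map_sub, map_one,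
    redP_castP, Nat.cast_smul_eq_nsmul]
  change D • ((redP p n (TN.galMat σ) * (redP p n (TN.galMat τ) - 1) -
    PadicInt.toZModPow n (cyclo p σ : ℤ_[p]) • (redP p n (TN.galMat τ) - 1)) * Z.map Int.cast) = 0
  rw [TN.redP_galMat, TN.redP_galMat]
  rw [Matrix.map_zero _ Int.cast_zero] at key
  rw [← key, ← ZMod.natCast_zmod_val (PadicInt.toZModPow n (cyclo p σ : ℤ_[p])),
    Nat.cast_smul_eq_nsmul]
  show _ = (Int.castRingHom (ZMod (p ^ n))).mapMatrix _
  simp only [map_sub, map_mul, natCast_zsmul, map_nsmul, sub_mul,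
    smul_mul_assoc, Matrix.mul_assoc, RingHom.mapMatrix_apply, Int.coe_castRingHom, mul_sub,
    Matrix.mul_one, Matrix.one_mul, c]

variable {S : Finset ℕ} {𝒪 : Type} [CommRing 𝒪] [IsDomain 𝒪] [IsDiscreteValuationRing 𝒪]
  [IsAdicComplete (maximalIdeal 𝒪) 𝒪]
  {θ : CuspForm.heckeAlgebra (M * p) 2 (↑S : Set ℕ) →+* ResidueField 𝒪}
  {T : Type} [CommRing T] [IsLocalRing T] [IsNoetherianRing T]
  [IsAdicComplete (maximalIdeal T) T] [Algebra 𝒪 T] [IsLocalHom (algebraMap 𝒪 T)]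
  [Module.Finite 𝒪 T] [Module.Free 𝒪 T]

/-- **A system new at `p` is strictly ordinary at `p`.** -/
theorem isStrictOrdinaryAt_of_pNew (hspec : SpecializationsExist)
    (hpM : ¬ p ∣ M) (hp2 : p ≠ 2) (hp𝒪 : (p : 𝒪) ∈ maximalIdeal 𝒪)
    (hS : ∀ q : ℕ, q.Prime → q ∣ M * p → q ∈ S)
    (H : CuspForm.HeckeGaloisRepDatum (M * p) (↑S : Set ℕ) 𝒪 θ T)
    (hnew : ∀ x : T, (∀ t : CuspForm.heckeAlgebra (M * p) 2 (↑S : Set ℕ),
      (t, (0 : CuspForm.heckeAlgebra M 2 (↑S : Set ℕ))) ∈ pairAlg (M * p) M (↑S : Set ℕ) →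
        H.π t * x = 0) → x = 0) :
    H.ρ.IsStrictOrdinaryAt p := by
  have hS' : levelPrimes (M * p) ⊆ (↑S : Set ℕ) := fun q hq => hS q hq.1 hq.2
  have hpS : p ∈ (↑S : Set ℕ) := hS p Fact.out (dvd_mul_left p M)
  exact isStrictOrdinaryAt_of_kills
    ((JTors.torsionModel (M * p) p).matModel (galoisFacts hspec (M * p) p) hS')
    LevelDrop.frobeniusDense hp2 hp𝒪 H _ hnew fun t ht A hA σ hσ τ hτ =>
      castP_mul_defect_eq_zero hpM hp2 hpS (JTors.torsionModel (M * p) p) (JTors.torsionModel M p)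
        (galoisFacts hspec (M * p) p) (galoisFacts hspec M p) hS' ht hA hσ hτ

omit [IsAdicComplete (maximalIdeal 𝒪) 𝒪] [IsDiscreteValuationRing 𝒪] in
/-- No residual system of level `M` makes the new hypothesis automatic. -/
theorem eq_zero_of_no_residual_old (hS : ∀ q : ℕ, q.Prime → q ∣ M * p → q ∈ S)
    (π : CuspForm.heckeAlgebra (M * p) 2 (↑S : Set ℕ) →+* T)
    (h : ¬ ∃ χ : CuspForm.heckeAlgebra M 2 (↑S : Set ℕ) →+* ResidueField T,
      ∀ (l : ℕ) (hl : l.Prime) (hlM : ¬ l ∣ M * p) (hlM' : ¬ l ∣ M)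
        (hlS : l ∉ (↑S : Set ℕ)),
        χ (CuspForm.heckeAlgebra.T hl hlM' hlS) =
          residue T (π (CuspForm.heckeAlgebra.T hl hlM hlS)))
    (x : T) (hx : ∀ t : CuspForm.heckeAlgebra (M * p) 2 (↑S : Set ℕ),
      (t, (0 : CuspForm.heckeAlgebra M 2 (↑S : Set ℕ))) ∈ pairAlg (M * p) M (↑S : Set ℕ) →
        π t * x = 0) : x = 0 := by
  let π₁ := (RingHom.fst (CuspForm.heckeAlgebra (M * p) 2 (↑S : Set ℕ))
    (CuspForm.heckeAlgebra M 2 (↑S : Set ℕ))).comp (pairAlg (M * p) M (↑S : Set ℕ)).val.toRingHom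
  let π₂ := (RingHom.snd (CuspForm.heckeAlgebra (M * p) 2 (↑S : Set ℕ))
    (CuspForm.heckeAlgebra M 2 (↑S : Set ℕ))).comp (pairAlg (M * p) M (↑S : Set ℕ)).val.toRingHom
  by_contra hx0
  have hker : RingHom.ker π₂ ≤ RingHom.ker ((residue T).comp (π.comp π₁)) := by
    intro y hy
    rw [RingHom.mem_ker] at hy ⊢
    obtain ⟨⟨a, b⟩, hab⟩ := y
    obtain rfl : b = 0 := hy
    show residue T (π a) = 0
    by_contra hu
    exact hx0 (((residue_ne_zero_iff_isUnit _).1 hu).mul_right_eq_zero.1 (hx a hab))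
  have hsurj : Function.Surjective π₂ := fun b => by
    obtain ⟨a, ha⟩ := exists_pairAlg_snd (fun q hq hqM => hS q hq hqM) (dvd_mul_right M p) b
    exact ⟨⟨_, ha⟩, rfl⟩
  refine h ⟨RingHom.liftOfSurjective π₂ hsurj ⟨(residue T).comp (π.comp π₁), hker⟩,
    fun l hl hlM hlM' hlS => ?_⟩
  exact RingHom.liftOfRightInverse_comp_apply π₂ _ _ ⟨(residue T).comp (π.comp π₁), hker⟩
    (⟨_, Algebra.subset_adjoin ⟨l, hl, hlM, hlM', hlS, rfl⟩⟩ :
      pairAlg (M * p) M (↑S : Set ℕ))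

omit [IsAdicComplete (maximalIdeal 𝒪) 𝒪] [IsDiscreteValuationRing 𝒪] in
/-- For a reduced target the new hypothesis says that no point of `T` is a system of level `M`. -/
theorem eq_zero_of_no_old_point (hS : ∀ q : ℕ, q.Prime → q ∣ M * p → q ∈ S) [IsReduced T]
    (π : CuspForm.heckeAlgebra (M * p) 2 (↑S : Set ℕ) →+* T)
    (h : ∀ P : Ideal T, P.IsPrime → P.comap (algebraMap 𝒪 T) = ⊥ →
      ¬ ∃ χ : CuspForm.heckeAlgebra M 2 (↑S : Set ℕ) →+* T ⧸ P,
        ∀ (l : ℕ) (hl : l.Prime) (hlM : ¬ l ∣ M * p) (hlM' : ¬ l ∣ M)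
          (hlS : l ∉ (↑S : Set ℕ)),
          χ (CuspForm.heckeAlgebra.T hl hlM' hlS) =
            Ideal.Quotient.mk P (π (CuspForm.heckeAlgebra.T hl hlM hlS)))
    (x : T) (hx : ∀ t : CuspForm.heckeAlgebra (M * p) 2 (↑S : Set ℕ),
      (t, (0 : CuspForm.heckeAlgebra M 2 (↑S : Set ℕ))) ∈ pairAlg (M * p) M (↑S : Set ℕ) →
        π t * x = 0) : x = 0 := by
  let π₁ := (RingHom.fst (CuspForm.heckeAlgebra (M * p) 2 (↑S : Set ℕ))
    (CuspForm.heckeAlgebra M 2 (↑S : Set ℕ))).comp (pairAlg (M * p) M (↑S : Set ℕ)).val.toRingHom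
  let π₂ := (RingHom.snd (CuspForm.heckeAlgebra (M * p) 2 (↑S : Set ℕ))
    (CuspForm.heckeAlgebra M 2 (↑S : Set ℕ))).comp (pairAlg (M * p) M (↑S : Set ℕ)).val.toRingHom
  by_contra hx0
  obtain ⟨P, hP, hxP⟩ : ∃ P ∈ minimalPrimes T, x ∉ P := by
    by_contra! hall
    refine hx0 ?_
    have : x ∈ sInf (minimalPrimes T) := Ideal.mem_sInf.2 fun {P} hP => hall P hP
    rw [minimalPrimes, Ideal.sInf_minimalPrimes] at this
    exact (nilradical_eq_zero T).le this
  have := hP.1.1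
  have hPO : P.comap (algebraMap 𝒪 T) = ⊥ := by
    refine (Submodule.eq_bot_iff _).2 fun o ho => ?_
    by_contra ho0
    refine notMem_nonZeroDivisors_of_mem_mem_minimalPrimes (x := algebraMap 𝒪 T o)
      (Ideal.mem_comap.1 ho) hP ?_
    rw [mem_nonZeroDivisors_iff_right]
    intro y hy
    rw [mul_comm, ← Algebra.smul_def] at hy
    exact (smul_eq_zero.1 hy).resolve_left ho0
  have hker : RingHom.ker π₂ ≤ RingHom.ker ((Ideal.Quotient.mk P).comp (π.comp π₁)) := by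
    intro y hy
    rw [RingHom.mem_ker] at hy ⊢
    obtain ⟨⟨a, b⟩, hab⟩ := y
    obtain rfl : b = 0 := hy
    show Ideal.Quotient.mk P (π a) = 0
    rw [Ideal.Quotient.eq_zero_iff_mem]
    exact (hP.1.1.mem_or_mem (show π a * x ∈ P by rw [hx a hab]; exact P.zero_mem)).resolve_right hxP
  have hsurj : Function.Surjective π₂ := fun b => by
    obtain ⟨a, ha⟩ := exists_pairAlg_snd (fun q hq hqM => hS q hq hqM) (dvd_mul_right M p) b
    exact ⟨⟨_, ha⟩, rfl⟩
  refine h P hP.1.1 hPO ⟨RingHom.liftOfSurjective π₂ hsurj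
    ⟨(Ideal.Quotient.mk P).comp (π.comp π₁), hker⟩, fun l hl hlM hlM' hlS => ?_⟩
  exact RingHom.liftOfRightInverse_comp_apply π₂ _ _
    ⟨(Ideal.Quotient.mk P).comp (π.comp π₁), hker⟩
    (⟨_, Algebra.subset_adjoin ⟨l, hl, hlM, hlM', hlS, rfl⟩⟩ :
      pairAlg (M * p) M (↑S : Set ℕ))

end FLTAgent.RT.AtP
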