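import Fermat.Agent.RT.AtP.Toric
import Fermat.Agent.Semistable.OldNull
import Fermat.Prelude.Def_AlgebraicCurve_Correspondence

/-!
# The toric action on flat classes with principal push-forwards
-/

set_option autoImplicit false
set_option linter.unusedSectionVars false
set_option linter.style.haveILetI false

noncomputable section

open AlgebraicCurve AlgebraicCurve.SemilinearAut

namespace FLTAgent.RT.AtP

open FLTAgent.GoodRed FLTAgent.GoodRed.RedDatum FLTAgent.FunctionField FLTAgent.Semistable

universe w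

variable {L k : Type*} [Field L] [Field k] {A : ValuationSubring L} {π : A →+* k}
  {E E' F : Type*} {C : Type w} [Field E] [Algebra L E] [Field E'] [Algebra L E'] [Field F]
  [Algebra L F] [Field C] [Algebra k C] [IsFunctionField L E] [IsFunctionField L E']
  [IsFunctionField L F] [IsFunctionField k C] [IsAlgClosed L] [IsAlgClosed k]

/-- If the push-forward of `X` is principal, the norm of a function of `m X` is a constant times an
`m`-th power. -/
theorem exists_norm_eq_of_push [Algebra E F] [IsScalarTower L E F] [Module.Finite E F] {m : ℕ}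
    {X : Divisor L F} (hpush : (Divisor.pushforward E X).IsPrincipal) {g : F}
    (hdiv : divisorOf g = m • X) :
    ∃ (c : L) (H : E), Algebra.norm E g = algebraMap L E c * H ^ m := by
  rcases eq_or_ne g 0 with rfl | hg
  · exact ⟨0, 1, by rw [Algebra.norm_zero, map_zero, zero_mul]⟩
  obtain ⟨h, hh, hhX⟩ := hpush
  have hN0 : Algebra.norm E g ≠ 0 := Algebra.norm_ne_zero_iff.2 hg
  have hdivN : ∀ v : Place L E, v.ord (Algebra.norm E g) = v.ord (h ^ m) := fun v => by
    rw [← pushforwardNormFormula g hg (divisorOf g) (fun u => rfl) v, hdiv, map_nsmul,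
      Finsupp.smul_apply, hhX, FunctionField.ord_pow, nsmul_eq_mul]
  obtain ⟨c, hc⟩ := exists_eq_algebraMap_of_divisorOf_eq_zero (K := L)
    (z := Algebra.norm E g / h ^ m) (Finsupp.ext fun v => by
      rw [divisorOf_apply, FunctionField.ord_div hN0 (pow_ne_zero _ hh), hdivN, sub_self,
        Finsupp.zero_apply])
  exact ⟨c, h, by rw [hc, div_mul_cancel₀ _ (pow_ne_zero _ hh)]⟩

variable {DE : RedDatum A π E C} {DE' : RedDatum A π E' C} {D D' : RedDatum A π F C}
  {frob frob' : C →ₐ[k] C} {p : ℕ} [CharP k p] {ι : Type*} [Fintype ι] {N : NodeSystem D D' ι}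

/-- **Toric classes.** Along two maps of degree `p + 1`, an automorphism fixing the crossings is
`χ` on flat classes killed by `p ^ n` whose two push-forwards are principal. -/
theorem smul_sub_nsmul_of_push (φ : E →ₐ[L] F) (φ' : E' →ₐ[L] F) (hφ : φ.toRingHom.IsIntegral)
    (hφ' : φ'.toRingHom.IsIntegral) (hfin : FiniteAlong L φ) (hfin' : FiniteAlong L φ')
    (T : NodeSystem.NodeAut N) (hperm : ∀ i, T.perm i = i) (hA : IsRankOne A)
    (hA0 : ∃ ϖ : L, ϖ ≠ 0 ∧ ϖ ∈ A.nonunits)
    (hS : letI := algebraAlong φ; haveI := isScalarTower_along φ; OneSide DE D D' frob p)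
    (hS' : letI := algebraAlong φ'; haveI := isScalarTower_along φ'; OneSide DE' D' D frob' p)
    (hw : ∀ z : C, ∃ w, frob w = z ^ p) (hw' : ∀ z : C, ∃ w, frob' w = z ^ p) {ζ : A}
    (hζ : IsPrimitiveRoot ζ p) (hpL : (p : L) ≠ 0) {n χ : ℕ}
    (hχ : ∀ μ : L, μ ^ p ^ n = 1 → baseAut T.s μ = μ ^ χ) {X : Divisor L F}
    (hX : NodeSystem.IsFlat (D := D) (D' := D') (p ^ n) X)
    (h₁ : (Divisor.pushforwardAlong φ hφ X).IsPrincipal)
    (h₂ : (Divisor.pushforwardAlong φ' hφ' X).IsPrincipal) :
    ∃ h : F, h ≠ 0 ∧ T.s • X - χ • X = divisorOf h := by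
  letI := algebraAlong φ
  haveI := isScalarTower_along φ
  haveI := isIntegral_along φ hφ
  haveI : Module.Finite E F := hfin
  letI := algebraAlong φ'
  haveI := isScalarTower_along φ'
  haveI := isIntegral_along φ' hφ'
  haveI : Module.Finite E' F := hfin'
  exact smul_sub_nsmul_of_flat T hperm hA hA0 hS hS' hw hw' hζ hpL hχ hX
    (fun g hg => exists_norm_eq_of_push h₁ hg) (fun g hg => exists_norm_eq_of_push h₂ hg)

end FLTAgent.RT.AtP
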