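import Fermat.Agent.RT.AtP.PNew

/-!
# Strict ordinarity of Hecke representations without the point property

Over a quotient of a Hecke algebra, such as the one acting on a cokernel of degeneracy maps, the
representation is strictly ordinary at `p` under the same regularity hypothesis.
-/

set_option autoImplicit false
set_option linter.style.haveILetI false
set_option linter.unusedSectionVars false

noncomputable section

namespace FLTAgent.RT.AtP.Quot

open Matrix FLTAgent.GalRep IsLocalRing FLTAgent.FlatModel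

local notation "Γℚ" => AlgebraicClosure ℚ ≃ₐ[ℚ] AlgebraicClosure ℚ

/-- A representation over an algebra with a map from the Hecke algebra matching Frobenius. -/
structure RepDatum (N : ℕ) [NeZero N] (S : Finset ℕ) (T : Type) [CommRing T] [IsLocalRing T] :
    Type 1 where
  π : CuspForm.heckeAlgebra N 2 (↑S : Set ℕ) →+* T
  ρ : GaloisRepAdic T
  charpoly_frob : ∀ (ℓ : ℕ) (hℓ : ℓ.Prime) (hℓN : ¬ ℓ ∣ N) (hℓS : ℓ ∉ (↑S : Set ℕ)),
    ∀ A : ValuationSubring (AlgebraicClosure ℚ), A.LiesOverPrime ℓ →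
      ∀ σ : Γℚ, A.IsFrobeniusAt σ ℓ →
        LinearMap.charpoly (ρ.ρ σ) = Polynomial.X ^ 2 -
          Polynomial.C (π (CuspForm.heckeAlgebra.T hℓ hℓN hℓS)) * Polynomial.X +
            Polynomial.C ((ℓ : T))
  residual_absIrr : ρ.residual.IsAbsolutelyIrreducible

variable {p : ℕ} [Fact p.Prime] {N : ℕ} [NeZero N] {S : Finset ℕ}
  {T : Type} [CommRing T] [IsLocalRing T] [IsNoetherianRing T]
  [IsAdicComplete (IsLocalRing.maximalIdeal T) T]

section

open scoped Pointwise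

/-- Approximation of a Galois element by a Frobenius element, for both the matrix model and the
representation. -/
theorem exists_joint_approx (M : MatModel N p ↑S) (hd : FrobeniusDense)
    (H : RepDatum N S T) (ψ : ℤ_[p] →+* T)
    (hp : (p : T) ∈ IsLocalRing.maximalIdeal T) (g : Γℚ) (n : ℕ) :
    ∃ t : CuspForm.heckeAlgebra N 2 (↑S : Set ℕ),
      redP p n (M.phi g) = redP p n (castP p (M.Tm t)) ∧
      H.ρ.trace g - H.π t ∈ IsLocalRing.maximalIdeal T ^ n ∧
      (repMat H.ρ g).det - ψ (cyclo p g : ℤ_[p]) ∈ IsLocalRing.maximalIdeal T ^ n := by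
  obtain ⟨L₁, hL₁, h₁⟩ := H.ρ.isAdicContinuous n
  obtain ⟨L₂, hL₂, h₂⟩ := cyclo_continuous p n
  obtain ⟨ℓ, hℓ, hℓN, hℓS, A, hA, σ, hσ, hℓp, hag, happ⟩ := M.exists_approx hd g n (L₁ ⊔ L₂)
  have hfix := (fixing_of_agree hag).1
  have hv : ∀ v, H.ρ.ρ (g⁻¹ * σ) v - v ∈
      IsLocalRing.maximalIdeal T ^ n • (⊤ : Submodule T H.ρ.V) :=
    h₁ _ fun x hx => hfix x (le_sup_left (b := L₂) hx)
  have hchar := H.charpoly_frob ℓ hℓ hℓN hℓS A hA σ hσ
  refine ⟨_, happ, ?_, ?_⟩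
  · rw [← neg_mem_iff, neg_sub, ← trace_eq_of_charpoly H.ρ hchar]
    exact trace_sub_mem H.ρ hv
  · have hd1 := det_sub_mem H.ρ hv
    rw [det_eq_of_charpoly H.ρ hchar] at hd1
    have hd2 : (ℓ : T) - ψ (cyclo p g : ℤ_[p]) ∈ IsLocalRing.maximalIdeal T ^ n := by
      rw [← map_natCast ψ, ← cyclo_frobenius hℓ hℓp hA hσ, ← map_sub]
      refine padicHom_mem_pow ψ hp ?_
      rw [map_sub, show σ = g * (g⁻¹ * σ) by group, map_mul, Units.val_mul, map_mul,
        h₂ _ fun x hx => hfix x (le_sup_right (a := L₁) hx), mul_one, sub_self]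
    have := Ideal.sub_mem _ hd2 hd1
    rwa [sub_sub_sub_cancel_left] at this

/-- The determinant is the cyclotomic character. -/
theorem det_repMat_eq_cyclo (M : MatModel N p ↑S) (hd : FrobeniusDense)
    (H : RepDatum N S T) (ψ : ℤ_[p] →+* T)
    (hp : (p : T) ∈ IsLocalRing.maximalIdeal T) (g : Γℚ) :
    (repMat H.ρ g).det = ψ (cyclo p g : ℤ_[p]) :=
  eq_of_forall_sub_mem_pow fun n => by
    obtain ⟨t, -, -, h⟩ := exists_joint_approx M hd H ψ hp g n
    exact h


/-- A residually ordinary representation is ordinary if `ρ σ (ρ τ - 1) = χ σ (ρ τ - 1)` on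
inertia. -/
theorem isOrdinaryAt_of_defect (M : MatModel N p ↑S) (hd : FrobeniusDense) (hp2 : p ≠ 2)
    (H : RepDatum N S T) (ψ : ℤ_[p] →+* T)
    (hp : (p : T) ∈ maximalIdeal T)
    (hkey : ∀ P : ValuationSubring (AlgebraicClosure ℚ), P.LiesOverPrime p →
      ∀ σ ∈ P.inertiaSubgroupIn ℚ, ∀ τ ∈ P.inertiaSubgroupIn ℚ,
        repMat H.ρ σ * (repMat H.ρ τ - 1) = ψ (cyclo p σ : ℤ_[p]) • (repMat H.ρ τ - 1)) :
    H.ρ.IsOrdinaryAt p := by
  classical
  intro P hP
  let χ : Γℚ → T := fun g => ψ (cyclo p g : ℤ_[p])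
  replace hkey := hkey P hP
  -- the distinguished inertia element
  obtain ⟨s, hs, hs1⟩ := exists_cyclo_ne_one hp2 hP
  have hdet : ∀ g, (repMat H.ρ g).det = χ g := det_repMat_eq_cyclo M hd H ψ hp
  have hχ : IsUnit (χ s - 1) := by
    rw [show χ s - 1 = ψ ((cyclo p s : ℤ_[p]) - 1) by rw [map_sub, map_one]]
    refine RingHom.isUnit_map ψ ?_
    rw [← residue_ne_zero_iff_isUnit, Ne, residue_eq_zero_iff, PadicInt.maximalIdeal_eq_span_p,
      ← pow_one (p : ℤ_[p]), ← PadicInt.ker_toZModPow, RingHom.mem_ker, map_sub, map_one,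
      sub_eq_zero]
    exact hs1
  set B := repMat H.ρ s - 1 with hB
  have hBne : ∃ i j, IsUnit (B i j) := by
    by_contra! hne
    have h0 : ∀ i j, residue T (B i j) = 0 := fun i j =>
      (residue_eq_zero_iff _).mpr ((IsLocalRing.mem_maximalIdeal _).mpr (hne i j))
    have h1 : (residue T).mapMatrix (repMat H.ρ s) = 1 := by
      rw [← sub_eq_zero, ← map_one (residue T).mapMatrix, ← map_sub]
      ext i j
      exact h0 i j
    have h2 := congrArg Matrix.det h1
    rw [← RingHom.map_det, hdet, det_one, ← map_one (residue T), ← sub_eq_zero, ← map_sub] at h2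
    exact (residue_ne_zero_iff_isUnit _).mpr hχ h2
  obtain ⟨i, j, hij⟩ := hBne
  obtain ⟨b, hb⟩ := exists_basis_fin_two (fun a => B a j) i hij
  let e := (repBasis H.ρ).equivFun
  let bV : Module.Basis (Fin 2) T H.ρ.V := b.map e.symm
  have hbV : e (bV 0) = fun a => B a j := by simp [bV, hb]
  have hs0 : H.ρ.ρ s (bV 0) = χ s • bV 0 := by
    apply e.injective
    rw [map_smul, hbV, Module.Basis.equivFun_apply, repr_apply_eq_mulVec]
    rw [Module.Basis.equivFun_apply] at hbV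
    rw [hbV]
    have h := hkey s hs s hs
    funext a
    have ha := congrFun (congrFun h a) j
    rw [Matrix.mul_apply] at ha
    exact ha
  -- everything in the `χ s`-eigenspace lies on the line
  have hline : ∀ v, H.ρ.ρ s v = χ s • v → v ∈ T ∙ bV 0 := by
    intro v hv
    let Ms := LinearMap.toMatrix bV bV (H.ρ.ρ s)
    have h00 : Ms 0 0 = χ s ∧ Ms 1 0 = 0 := by
      constructor <;>
        simp [Ms, LinearMap.toMatrix_apply, hs0]
    have h11 : Ms 1 1 = 1 := by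
      have hd2 : Ms.det = χ s := by
        rw [LinearMap.det_toMatrix, ← LinearMap.det_toMatrix (repBasis H.ρ)]
        exact hdet s
      rw [Matrix.det_fin_two, h00.1, h00.2, mul_zero, sub_zero] at hd2
      have hu : IsUnit (χ s) := RingHom.isUnit_map ψ (cyclo p s).isUnit
      exact hu.mul_left_cancel (hd2.trans (mul_one _).symm)
    have hx := congrFun (LinearMap.toMatrix_mulVec_repr bV bV (H.ρ.ρ s) v) 1
    rw [hv, map_smul, Finsupp.smul_apply, smul_eq_mul, Matrix.mulVec, dotProduct,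
      Fin.sum_univ_two] at hx
    change Ms 1 0 * _ + Ms 1 1 * _ = _ at hx
    rw [h00.2, h11, zero_mul, zero_add, one_mul] at hx
    have h1 : bV.repr v 1 = 0 := by
      refine hχ.mul_left_cancel ?_
      rw [mul_zero, sub_mul, one_mul, ← hx, sub_self]
    refine Submodule.mem_span_singleton.mpr ⟨bV.repr v 0, ?_⟩
    conv_rhs => rw [← bV.sum_repr v, Fin.sum_univ_two, h1, zero_smul, add_zero]
  have himage : ∀ σ ∈ P.inertiaSubgroupIn ℚ, ∀ v, H.ρ.ρ σ v - v ∈ T ∙ bV 0 := by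
    intro σ hσ v
    refine hline _ ((repBasis H.ρ).repr.injective ?_)
    ext a
    have h := congrFun (congrArg (fun Y => Y *ᵥ ⇑((repBasis H.ρ).repr v)) (hkey s hs σ hσ)) a
    simp only [← Matrix.mulVec_mulVec, Matrix.sub_mulVec, Matrix.one_mulVec, Matrix.smul_mulVec,
      ← repr_apply_eq_mulVec] at h
    rw [repr_apply_eq_mulVec, map_smul, map_sub, Finsupp.coe_sub, Finsupp.smul_apply,
      Finsupp.sub_apply]
    simpa using h
  refine ⟨T ∙ bV 0, ⟨bV, rfl⟩, fun g hg v hv => ?_, himage⟩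
  obtain ⟨r, rfl⟩ := Submodule.mem_span_singleton.mp hv
  rw [map_smul]
  refine Submodule.smul_mem _ r ?_
  obtain ⟨u, hu⟩ : ∃ u, H.ρ.ρ s u - u = bV 0 := by
    refine ⟨repBasis H.ρ j, e.injective ?_⟩
    rw [hbV]
    funext a
    rw [Module.Basis.equivFun_apply, map_sub, Finsupp.sub_apply, repr_apply_eq_mulVec,
      Module.Basis.repr_self, Finsupp.single_eq_pi_single, Matrix.mulVec_single_one, hB,
      Matrix.sub_apply, Matrix.one_apply, Pi.single_apply]
    rfl
  have hgs : g * s * g⁻¹ ∈ P.inertiaSubgroupIn ℚ := by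
    have h := Frobenius.inertiaSubgroupIn_conj hs g
    rwa [show g • P = P from hg] at h
  have h2 := himage _ hgs (H.ρ.ρ g u)
  have e2 : H.ρ.ρ (g * s * g⁻¹) (H.ρ.ρ g u) = H.ρ.ρ g (H.ρ.ρ s u) := by
    rw [← Module.End.mul_apply, ← map_mul, inv_mul_cancel_right, map_mul, Module.End.mul_apply]
  rw [e2, ← map_sub, hu] at h2
  exact h2



/-- **Transfer.** An identity on the Tate module times jointly regular Hecke operators holds in the
representation. -/
theorem repMat_mul_sub_one_eq (M : MatModel N p ↑S) (hd : FrobeniusDense) (hp2 : p ≠ 2)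
    (H : RepDatum N S T) (ψ : ℤ_[p] →+* T)
    (hp : (p : T) ∈ maximalIdeal T) (I : Set (CuspForm.heckeAlgebra N 2 (↑S : Set ℕ)))
    (hI : ∀ x : T, (∀ t ∈ I, H.π t * x = 0) → x = 0) (σ τ : Γℚ) (u : ℤ_[p])
    (hA : ∀ t ∈ I, castP p (M.Tm t) * (M.G σ * (M.G τ - 1) - u • (M.G τ - 1)) = 0) :
    repMat H.ρ σ * (repMat H.ρ τ - 1) = ψ u • (repMat H.ρ τ - 1) := by
  classical
  have hdet := det_repMat_eq_cyclo M hd H ψ hp
  have h2 : IsUnit (2 : T) := by
    rw [← map_ofNat ψ 2]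
    refine RingHom.isUnit_map ψ ?_
    rw [← residue_ne_zero_iff_isUnit, Ne, residue_eq_zero_iff, PadicInt.maximalIdeal_eq_span_p,
      Ideal.mem_span_singleton, ← Nat.cast_ofNat, ← PadicInt.norm_lt_one_iff_dvd, PadicInt.norm_natCast_lt_one_iff]
    exact fun h => hp2 ((Nat.prime_dvd_prime_iff_eq (Fact.out : p.Prime) Nat.prime_two).1 h)
  obtain ⟨y, hy⟩ := exists_isUnit_trace_commutator H.ρ H.residual_absIrr h2
    complexConjugation_mul_self (by rw [hdet, cyclo_complexConjugation, map_neg, map_one])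
  set c := complexConjugation with hc
  obtain ⟨c₀, hc₀⟩ := M.exists_bound
  refine sub_eq_zero.1 (eq_zero_of_trace_mul_repMat H.ρ H.residual_absIrr _ fun k => hI _
    fun t ht => (hy.mul_left_eq_zero).1 (eq_of_forall_sub_mem_pow fun m => ?_))
  set n := m + c₀ + 1 with hn
  choose a ha ha' _ using fun g => exists_joint_approx M hd H ψ hp g n
  set d : ℕ := (u.toZModPow n).val with hd'
  set w := c * y * c⁻¹ * y⁻¹ with hw
  set z := t * (a (k * σ * τ) - a (k * σ) - (d : (CuspForm.heckeAlgebra N 2 (↑S : Set ℕ))) * (a (k * τ) - a k)) * (2 - a w) with hz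
  have hzero : redP p n (castP p (M.Tm z)) = 0 := by
    have h := congrArg (redP p n) (matrix_trace_identity M.G (cyclo p) (castP p (M.Tm t))
      (fun g => (M.G_comm g t).symm) (commute_phi M hd) σ τ c y k u (hA t ht))
    have hphi : ∀ g, M.G g + (cyclo p g : ℤ_[p]) • M.G g⁻¹ = M.phi g := fun g => rfl
    simp only [hphi, ← hw] at h
    rw [map_zero, map_mul, map_mul, map_sub, map_sub, map_sub, redP_smul, map_sub, map_ofNat,
      ha, ha, ha, ha, ha] at h
    have : NeZero (p ^ n) := ⟨pow_ne_zero n (Fact.out : p.Prime).ne_zero⟩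
    rw [← h, hz]
    simp only [map_mul, map_sub, map_ofNat, map_natCast, hd']
    rw [show (((u.toZModPow n).val : ℕ) : Matrix (Fin M.r) (Fin M.r) (ZMod (p ^ n))) =
      u.toZModPow n • 1 by
        rw [← Algebra.algebraMap_eq_smul_one, ← map_natCast (algebraMap (ZMod (p ^ n))
          (Matrix (Fin M.r) (Fin M.r) (ZMod (p ^ n)))), ZMod.natCast_zmod_val], smul_mul_assoc,
      Matrix.one_mul]
  obtain ⟨z', hz'⟩ := hc₀ n _ hzero
  have hnm : maximalIdeal T ^ n ≤ maximalIdeal T ^ m := Ideal.pow_le_pow_right (by omega)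
  have hπz : H.π z ∈ maximalIdeal T ^ m := by
    rw [hz', map_nsmul, nsmul_eq_mul, Nat.cast_pow]
    exact Ideal.mul_mem_right _ _ (Ideal.pow_le_pow_right (show m ≤ n - c₀ by omega)
      (Ideal.pow_mem_pow hp _))
  have hdu : (d : T) - ψ u ∈ maximalIdeal T ^ m := hnm (by
    have : NeZero (p ^ n) := ⟨pow_ne_zero n (Fact.out : p.Prime).ne_zero⟩
    rw [← map_natCast ψ, ← map_sub]
    exact padicHom_mem_pow ψ hp (by rw [map_sub, map_natCast]; simp [hd']))
  have hq : ∀ g, (Ideal.Quotient.mk (maximalIdeal T ^ m)) (H.π (a g)) =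
      Ideal.Quotient.mk (maximalIdeal T ^ m) (H.ρ.trace g) := fun g =>
    (Ideal.Quotient.eq.2 (hnm (ha' g))).symm
  rw [sub_zero, ← Ideal.Quotient.eq_zero_iff_mem]
  rw [← Ideal.Quotient.eq_zero_iff_mem, hz] at hπz
  rw [← hπz]
  simp only [Matrix.mul_sub, Matrix.mul_one, Matrix.mul_smul, ← map_mul (repMat H.ρ),
    Matrix.trace_sub, Matrix.trace_smul, trace_repMat, smul_eq_mul, ← mul_assoc]
  simp only [map_mul, map_sub, map_ofNat, map_natCast, hq]
  rw [← Ideal.Quotient.eq.2 hdu, map_natCast]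


/-- **Strict ordinarity from the defect identities.** -/
theorem isStrictOrdinaryAt_of_defect (M : MatModel N p ↑S) (hd : FrobeniusDense) (hp2 : p ≠ 2)
    (H : RepDatum N S T) (ψ : ℤ_[p] →+* T)
    (hp : (p : T) ∈ maximalIdeal T)
    (hkey : ∀ P : ValuationSubring (AlgebraicClosure ℚ), P.LiesOverPrime p →
      ∀ σ ∈ P.inertiaSubgroupIn ℚ, ∀ τ ∈ P.inertiaSubgroupIn ℚ,
        repMat H.ρ σ * (repMat H.ρ τ - 1) = ψ (cyclo p σ : ℤ_[p]) • (repMat H.ρ τ - 1))
    (hkey₂ : ∀ P : ValuationSubring (AlgebraicClosure ℚ), P.LiesOverPrime p →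
      ∀ σ ∈ P.decompositionSubgroup ℚ, ∀ τ ∈ P.inertiaSubgroupIn ℚ,
        repMat H.ρ (σ * σ) * (repMat H.ρ τ - 1) =
          ψ (cyclo p (σ * σ) : ℤ_[p]) • (repMat H.ρ τ - 1)) :
    H.ρ.IsStrictOrdinaryAt p := by
  classical
  refine ⟨hp, fun P hP => ?_⟩
  obtain ⟨L, ⟨b, hL⟩, hD, hI⟩ := isOrdinaryAt_of_defect M hd hp2 H ψ hp hkey P hP
  refine ⟨L, ⟨b, hL⟩, hD, hI, fun σ hσ => ?_⟩
  have hdet := det_repMat_eq_cyclo M hd H ψ hp
  have hdet' : ∀ g, (LinearMap.toMatrix b b (H.ρ.ρ g)).det = ψ (cyclo p g : ℤ_[p]) := fun g => by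
    rw [LinearMap.det_toMatrix, ← LinearMap.det_toMatrix (repBasis H.ρ)]
    exact hdet g
  have h1 : b.repr (b 0) 1 = 0 := by
    rw [b.repr_self, Finsupp.single_eq_of_ne (by decide : (1 : Fin 2) ≠ 0)]
  have hLmem : ∀ v ∈ L, b.repr v 1 = 0 := fun v hv => by
    rw [hL] at hv
    obtain ⟨c, rfl⟩ := Submodule.mem_span_singleton.1 hv
    rw [map_smul, Finsupp.smul_apply, h1, smul_zero]
  have hb0 : b 0 ∈ L := hL ▸ Submodule.mem_span_singleton_self _
  have hexp : ∀ v : H.ρ.V, v = b.repr v 0 • b 0 + b.repr v 1 • b 1 := fun v => by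
    conv_lhs => rw [← b.sum_repr v, Fin.sum_univ_two]
  set M₀ := LinearMap.toMatrix b b (H.ρ.ρ σ) with hM₀
  set x := M₀ 0 0
  set z := M₀ 1 1
  have hσ10 : M₀ 1 0 = 0 := by
    rw [hM₀, LinearMap.toMatrix_apply]
    exact hLmem _ (hD σ hσ _ hb0)
  have hxz : x * z = ψ (cyclo p σ : ℤ_[p]) := by
    have : M₀.det = ψ (cyclo p σ : ℤ_[p]) := hdet' σ
    rwa [Matrix.det_fin_two, hσ10, mul_zero, sub_zero] at this
  have hσ0 : H.ρ.ρ σ (b 0) = x • b 0 := by
    conv_lhs => rw [hexp (H.ρ.ρ σ (b 0)), hLmem _ (hD σ hσ _ hb0), zero_smul, add_zero]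
    rw [show x = b.repr (H.ρ.ρ σ (b 0)) 0 from LinearMap.toMatrix_apply _ _ _ _ _]
  -- the eigenvalue of the distinguished inertia element
  obtain ⟨s, hs, hs1⟩ := exists_cyclo_ne_one hp2 hP
  set e : T := ψ (cyclo p s : ℤ_[p]) - 1
  have he : IsUnit e := by
    rw [show e = ψ ((cyclo p s : ℤ_[p]) - 1) by rw [map_sub, map_one]]
    refine RingHom.isUnit_map ψ ?_
    rw [← residue_ne_zero_iff_isUnit, Ne, residue_eq_zero_iff, PadicInt.maximalIdeal_eq_span_p,
      ← pow_one (p : ℤ_[p]), ← PadicInt.ker_toZModPow, RingHom.mem_ker, map_sub, map_one,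
      sub_eq_zero]
    exact hs1
  have hs0 : (H.ρ.ρ s - 1) (b 0) = e • b 0 := by
    have hm : ∀ j, b.repr (H.ρ.ρ s (b j)) 1 = b.repr (b j) 1 := fun j => by
      have := hLmem _ (hI s hs (b j))
      rwa [map_sub, Finsupp.sub_apply, sub_eq_zero] at this
    have hd := hdet' s
    rw [Matrix.det_fin_two, LinearMap.toMatrix_apply, LinearMap.toMatrix_apply,
      LinearMap.toMatrix_apply, LinearMap.toMatrix_apply, hm, hm, b.repr_self, b.repr_self,
      Finsupp.single_eq_same, Finsupp.single_eq_of_ne (by decide : (1 : Fin 2) ≠ 0), mul_one,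
      mul_zero, sub_zero] at hd
    rw [LinearMap.sub_apply, Module.End.one_apply]
    conv_lhs => rw [hexp (H.ρ.ρ s (b 0)), hm, h1, zero_smul, add_zero, hd]
    rw [sub_smul, one_smul]
  have hx2 : x * x = ψ (cyclo p σ : ℤ_[p]) * ψ (cyclo p σ : ℤ_[p]) := by
    have h := LinearMap.congr_fun (end_eq_of_repMat H.ρ (hkey₂ P hP σ hσ s hs)) (b 0)
    rw [Module.End.mul_apply, LinearMap.smul_apply, hs0, map_smul, map_mul, Module.End.mul_apply,
      hσ0, map_smul, hσ0, smul_smul, smul_smul, smul_smul, map_mul, Units.val_mul, map_mul] at h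
    have h2 := congrArg (fun v => b.repr v 0) h
    simp only [map_smul, Finsupp.smul_apply, b.repr_self, Finsupp.single_eq_same, smul_eq_mul,
      mul_one] at h2
    exact he.mul_left_cancel (by linear_combination h2)
  have hx : x = ψ (cyclo p σ : ℤ_[p]) * z := by
    have hu : IsUnit x := isUnit_of_mul_isUnit_left
      (show IsUnit (x * z) by rw [hxz]; exact RingHom.isUnit_map ψ (cyclo p σ).isUnit)
    refine hu.mul_left_cancel ?_
    rw [hx2, mul_left_comm, hxz]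
  refine ⟨x, z, fun w hw => ?_, fun v => ?_, fun n a ha => ?_⟩
  · rw [hL] at hw
    obtain ⟨c, rfl⟩ := Submodule.mem_span_singleton.1 hw
    rw [map_smul, hσ0, smul_comm]
  · have hb1 : H.ρ.ρ σ (b 1) - z • b 1 ∈ L := by
      conv => arg 2; rw [hexp (H.ρ.ρ σ (b 1))]
      rw [show z = b.repr (H.ρ.ρ σ (b 1)) 1 from LinearMap.toMatrix_apply _ _ _ _ _, add_sub_cancel_right]
      exact L.smul_mem _ hb0
    rw [hexp v, map_add, map_smul, map_smul, hσ0, smul_add, smul_comm z, smul_comm z,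
      add_sub_add_comm, ← smul_sub, ← smul_sub, ← sub_smul]
    exact add_mem (L.smul_mem _ (L.smul_mem _ hb0)) (L.smul_mem _ hb1)
  · obtain ⟨ζ, hζ⟩ := HasEnoughRootsOfUnity.exists_primitiveRoot (AlgebraicClosure ℚ) (p ^ n)
    have h : (cyclo p σ : ℤ_[p]) - a ∈ Ideal.span {((p : ℤ_[p]) ^ n)} := by
      rw [← PadicInt.ker_toZModPow, RingHom.mem_ker, map_sub, map_natCast,
        toZModPow_cyclo_eq_natCast p σ hζ (ha ζ hζ.pow_eq_one), sub_self]
    have h2 := Ideal.mem_map_of_mem ψ h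
    rw [Ideal.map_span, Set.image_singleton, map_sub, map_natCast, map_pow, map_natCast,
      ← Nat.cast_pow] at h2
    rw [hx, ← sub_mul]
    exact Ideal.mul_mem_right _ _ h2

/-- **Strict ordinarity from the toric identity on the Tate module.** -/
theorem isStrictOrdinaryAt_of_kills (M : MatModel N p ↑S) (hd : FrobeniusDense) (hp2 : p ≠ 2)
    (hpT : (p : T) ∈ maximalIdeal T) (H : RepDatum N S T)
    (I : Set (CuspForm.heckeAlgebra N 2 (↑S : Set ℕ)))
    (hI : ∀ x : T, (∀ t ∈ I, H.π t * x = 0) → x = 0)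
    (hA : ∀ t ∈ I, ∀ P : ValuationSubring (AlgebraicClosure ℚ), P.LiesOverPrime p → ∀ σ : Γℚ,
      (σ ∈ P.inertiaSubgroupIn ℚ ∨ ∃ g ∈ P.decompositionSubgroup ℚ, σ = g * g) →
      ∀ τ ∈ P.inertiaSubgroupIn ℚ, castP p (M.Tm t) *
        (M.G σ * (M.G τ - 1) - (cyclo p σ : ℤ_[p]) • (M.G τ - 1)) = 0) :
    H.ρ.IsStrictOrdinaryAt p := by
  have hp : (p : T) ∈ maximalIdeal T := hpT
  obtain ⟨ψ⟩ := exists_padicHom p T hp
  exact isStrictOrdinaryAt_of_defect M hd hp2 H ψ hp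
    (fun P hP σ hσ τ hτ => repMat_mul_sub_one_eq M hd hp2 H ψ hp I hI σ τ _
      fun t ht => hA t ht P hP σ (Or.inl hσ) τ hτ)
    (fun P hP σ hσ τ hτ => repMat_mul_sub_one_eq M hd hp2 H ψ hp I hI (σ * σ) τ _
      fun t ht => hA t ht P hP (σ * σ) (Or.inr ⟨σ, hσ, rfl⟩) τ hτ)


end

section Level

open ModularCurve AlgebraicCurve FLTAgent.Hecke FLTAgent.LevelSq

variable {M : ℕ} [NeZero M]

local instance neZeroQuotP : NeZero p := ⟨(Fact.out : p.Prime).ne_zero⟩

/-- **A system new at `p` is strictly ordinary at `p`.** -/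
theorem isStrictOrdinaryAt_of_pNew (hspec : SpecializationsExist)
    (hpM : ¬ p ∣ M) (hp2 : p ≠ 2) (hpT : (p : T) ∈ maximalIdeal T)
    (hS : ∀ q : ℕ, q.Prime → q ∣ M * p → q ∈ S)
    (H : RepDatum (M * p) S T)
    (hnew : ∀ x : T, (∀ t : CuspForm.heckeAlgebra (M * p) 2 (↑S : Set ℕ),
      (t, (0 : CuspForm.heckeAlgebra M 2 (↑S : Set ℕ))) ∈ pairAlg (M * p) M (↑S : Set ℕ) →
        H.π t * x = 0) → x = 0) :
    H.ρ.IsStrictOrdinaryAt p := by
  have hS' : levelPrimes (M * p) ⊆ (↑S : Set ℕ) := fun q hq => hS q hq.1 hq.2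
  have hpS : p ∈ (↑S : Set ℕ) := hS p Fact.out (dvd_mul_left p M)
  exact isStrictOrdinaryAt_of_kills
    ((JTors.torsionModel (M * p) p).matModel (galoisFacts hspec (M * p) p) hS')
    LevelDrop.frobeniusDense hp2 hpT H _ hnew fun t ht A hA σ hσ τ hτ =>
      castP_mul_defect_eq_zero hpM hp2 hpS (JTors.torsionModel (M * p) p) (JTors.torsionModel M p)
        (galoisFacts hspec (M * p) p) (galoisFacts hspec M p) hS' ht hA hσ hτ

/-- The new hypothesis says that no point of the algebra is a system of level `M`. -/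
theorem eq_zero_of_no_old_point {𝒪 : Type} [CommRing 𝒪] [IsDomain 𝒪] [Algebra 𝒪 T]
    [Module.IsTorsionFree 𝒪 T] (hS : ∀ q : ℕ, q.Prime → q ∣ M * p → q ∈ S)
    (π : CuspForm.heckeAlgebra (M * p) 2 (↑S : Set ℕ) →+* T)
    (h : ∀ P : Ideal T, P.IsPrime → P.comap (algebraMap 𝒪 T) = ⊥ →
      ¬ ∃ χ : CuspForm.heckeAlgebra M 2 (↑S : Set ℕ) →+* T ⧸ P,
        ∀ (l : ℕ) (hl : l.Prime) (hlM : ¬ l ∣ M * p) (hlM' : ¬ l ∣ M)
          (hlS : l ∉ (↑S : Set ℕ)),
          χ (CuspForm.heckeAlgebra.T hl hlM' hlS) =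
            Ideal.Quotient.mk P (π (CuspForm.heckeAlgebra.T hl hlM hlS)))
    (x : T) (hx : ∀ t : CuspForm.heckeAlgebra (M * p) 2 (↑S : Set ℕ),
      (t, (0 : CuspForm.heckeAlgebra M 2 (↑S : Set ℕ))) ∈ pairAlg (M * p) M (↑S : Set ℕ) →
        π t * x = 0) : x = 0 := by
  let π₁ := (RingHom.fst (CuspForm.heckeAlgebra (M * p) 2 (↑S : Set ℕ))
    (CuspForm.heckeAlgebra M 2 (↑S : Set ℕ))).comp (pairAlg (M * p) M (↑S : Set ℕ)).val.toRingHom
  let π₂ := (RingHom.snd (CuspForm.heckeAlgebra (M * p) 2 (↑S : Set ℕ))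
    (CuspForm.heckeAlgebra M 2 (↑S : Set ℕ))).comp (pairAlg (M * p) M (↑S : Set ℕ)).val.toRingHom
  by_contra hx0
  obtain ⟨P, hP, hle⟩ := exists_le_isAssociatedPrime_of_isNoetherianRing T x hx0
  obtain ⟨hPp, z, hz⟩ := isAssociatedPrime_iff.mp hP
  have hxP : ∀ a : T, a * x = 0 → a ∈ P := fun a ha => hle (by
    rw [Submodule.mem_colon_singleton, Submodule.mem_bot]
    exact ha)
  have hPO : P.comap (algebraMap 𝒪 T) = ⊥ := by
    refine (Submodule.eq_bot_iff _).2 fun o ho => ?_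
    by_contra ho0
    have h0 : algebraMap 𝒪 T o * z = 0 := by
      have h1 : algebraMap 𝒪 T o ∈ P := Ideal.mem_comap.1 ho
      rw [hz, Submodule.mem_colon_singleton, Submodule.mem_bot] at h1
      exact h1
    rw [← Algebra.smul_def] at h0
    have hz0 : z = 0 := (smul_eq_zero.1 h0).resolve_left ho0
    refine hPp.ne_top ((Ideal.eq_top_iff_one _).2 ?_)
    rw [hz, Submodule.mem_colon_singleton, Submodule.mem_bot, hz0, smul_zero]
  have hker : RingHom.ker π₂ ≤ RingHom.ker ((Ideal.Quotient.mk P).comp (π.comp π₁)) := by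
    intro y hy
    rw [RingHom.mem_ker] at hy ⊢
    obtain ⟨⟨a, b⟩, hab⟩ := y
    obtain rfl : b = 0 := hy
    show Ideal.Quotient.mk P (π a) = 0
    rw [Ideal.Quotient.eq_zero_iff_mem]
    exact hxP _ (hx a hab)
  have hsurj : Function.Surjective π₂ := fun b => by
    obtain ⟨a, ha⟩ := exists_pairAlg_snd (fun q hq hqM => hS q hq hqM) (dvd_mul_right M p) b
    exact ⟨⟨_, ha⟩, rfl⟩
  refine h P hPp hPO ⟨RingHom.liftOfSurjective π₂ hsurj
    ⟨(Ideal.Quotient.mk P).comp (π.comp π₁), hker⟩, fun l hl hlM hlM' hlS => ?_⟩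
  exact RingHom.liftOfRightInverse_comp_apply π₂ _ _
    ⟨(Ideal.Quotient.mk P).comp (π.comp π₁), hker⟩
    (⟨_, Algebra.subset_adjoin ⟨l, hl, hlM, hlM', hlS, rfl⟩⟩ :
      pairAlg (M * p) M (↑S : Set ℕ))

end Level

end FLTAgent.RT.AtP.Quot
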