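import Fermat.Agent.GalRep.Span
import Fermat.Prelude.Def_GaloisRep_ResidualEquiv
import Fermat.Prelude.Def_GaloisRep_LocalConditions
import Mathlib.LinearAlgebra.Matrix.ToLinearEquiv
import Mathlib.LinearAlgebra.Matrix.Basis

/-!
# Bases of the residual representation of a base change

A basis of a residual representation gives one of the residual representation of any base change
of a lift, with the matrices mapped along the extension of residue fields.
-/

set_option autoImplicit false

noncomputable section

open IsLocalRing Matrix TensorProduct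

namespace FLTAgent.RT.AtP

local notation "Γℚ" => AlgebraicClosure ℚ ≃ₐ[ℚ] AlgebraicClosure ℚ

/-- A basis related to a given one by an invertible matrix. -/
theorem exists_basis_toMatrix {k V : Type*} [CommRing k] [AddCommGroup V] [Module k V]
    {n : Type*} [Fintype n] [DecidableEq n] (t : Module.Basis n k V) {P Q : Matrix n n k}
    (hPQ : P * Q = 1) (hQP : Q * P = 1) :
    ∃ b : Module.Basis n k V, ∀ X : Module.End k V,
      LinearMap.toMatrix b b X = Q * LinearMap.toMatrix t t X * P := by
  let e : V ≃ₗ[k] V := LinearEquiv.ofLinear (Matrix.toLin t t P) (Matrix.toLin t t Q)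
    (by rw [← Matrix.toLin_mul, hPQ, Matrix.toLin_one])
    (by rw [← Matrix.toLin_mul, hQP, Matrix.toLin_one])
  have h1 : t.toMatrix (t.map e) = P := by
    ext i j
    rw [Module.Basis.toMatrix_apply, Module.Basis.map_apply]
    show t.repr (Matrix.toLin t t P (t j)) i = _
    rw [Matrix.toLin_self, Module.Basis.repr_sum_self]
  have h2 : (t.map e).toMatrix t = Q := by
    have h := congrArg (Q * ·) ((t.toMatrix_mul_toMatrix_flip (t.map e)))
    simp only [h1, ← Matrix.mul_assoc, hQP, Matrix.one_mul, Matrix.mul_one] at h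
    exact h
  refine ⟨t.map e, fun X => ?_⟩
  rw [← basis_toMatrix_mul_linearMap_toMatrix_mul_basis_toMatrix (t.map e) t (t.map e) t X, h1, h2]

variable {A : Type} [CommRing A] [IsLocalRing A] {B : Type} [CommRing B] [IsLocalRing B]

/-- The basis on the residual representation of a base change. -/
theorem exists_basis_residual_baseChange (ρ : GaloisRepAdic A) (f : A →+* B) (hf : IsLocalHom f)
    (b : Module.Basis (Fin 2) (ResidueField A) ρ.residual.V) :
    ∃ b' : Module.Basis (Fin 2) (ResidueField B) (ρ.baseChangeAlong f hf).residual.V, ∀ g : Γℚ,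
      LinearMap.toMatrix b' b' ((ρ.baseChangeAlong f hf).residual.ρ g) =
        (haveI := hf; ResidueField.map f).mapMatrix
          (LinearMap.toMatrix b b (ρ.residual.ρ g)) := by
  haveI := hf
  letI := f.toAlgebra
  let r := GalRep.repBasis ρ
  let t : Module.Basis (Fin 2) (ResidueField A) ρ.residual.V :=
    Algebra.TensorProduct.basis (ResidueField A) r
  let rB : Module.Basis (Fin 2) B (ρ.baseChangeAlong f hf).V := Algebra.TensorProduct.basis B r
  let t' : Module.Basis (Fin 2) (ResidueField B) (ρ.baseChangeAlong f hf).residual.V :=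
    Algebra.TensorProduct.basis (ResidueField B) rB
  set j := ResidueField.map f
  have ht : ∀ g, LinearMap.toMatrix t t (ρ.residual.ρ g) =
      (residue A).mapMatrix (LinearMap.toMatrix r r (ρ.ρ g)) := fun g =>
    LinearMap.toMatrix_baseChange (A := ResidueField A) (ρ.ρ g) r r
  have ht' : ∀ g, LinearMap.toMatrix t' t' ((ρ.baseChangeAlong f hf).residual.ρ g) =
      j.mapMatrix (LinearMap.toMatrix t t (ρ.residual.ρ g)) := fun g => by
    refine (LinearMap.toMatrix_baseChange (A := ResidueField B)
      ((ρ.baseChangeAlong f hf).ρ g) rB rB).trans ?_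
    rw [ht, show LinearMap.toMatrix rB rB ((ρ.baseChangeAlong f hf).ρ g) =
      f.mapMatrix (LinearMap.toMatrix r r (ρ.ρ g)) from
        LinearMap.toMatrix_baseChange (A := B) (ρ.ρ g) r r]
    ext i k
    exact (ResidueField.map_residue f _).symm
  have hP : t.toMatrix b * b.toMatrix t = 1 := t.toMatrix_mul_toMatrix_flip b
  have hQ : b.toMatrix t * t.toMatrix b = 1 := b.toMatrix_mul_toMatrix_flip t
  obtain ⟨b', hb'⟩ := exists_basis_toMatrix t' (P := j.mapMatrix (t.toMatrix b))
    (Q := j.mapMatrix (b.toMatrix t)) (by rw [← map_mul, hP, map_one])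
    (by rw [← map_mul, hQ, map_one])
  refine ⟨b', fun g => ?_⟩
  rw [hb', ht', ← map_mul, ← map_mul,
    basis_toMatrix_mul_linearMap_toMatrix_mul_basis_toMatrix b t b t]

/-- The same from an equivalence with an extension of `ρbar`. -/
theorem exists_basis_residual_baseChange_of_isEquiv (ρ : GaloisRepAdic A) (f : A →+* B)
    (hf : IsLocalHom f) {k : Type} [Field k] {ρbar : ResidualGaloisRep k}
    {i : k →+* ResidueField A} (he : ρ.residual.IsEquiv (ρbar.baseChangeAlong i))
    (b : Module.Basis (Fin 2) k ρbar.V) :
    ∃ b' : Module.Basis (Fin 2) (ResidueField B) (ρ.baseChangeAlong f hf).residual.V, ∀ g : Γℚ,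
      LinearMap.toMatrix b' b' ((ρ.baseChangeAlong f hf).residual.ρ g) =
        ((haveI := hf; ResidueField.map f).comp i).mapMatrix
          (LinearMap.toMatrix b b (ρbar.ρ g)) := by
  haveI := hf
  obtain ⟨e⟩ := he
  letI := i.toAlgebra
  let bi : Module.Basis (Fin 2) (ResidueField A) (ρbar.baseChangeAlong i).V :=
    Algebra.TensorProduct.basis (ResidueField A) b
  obtain ⟨b', hb'⟩ :=
    exists_basis_residual_baseChange ρ f hf (bi.map e.toLinearEquiv.symm)
  refine ⟨b', fun g => ?_⟩
  have h1 : LinearMap.toMatrix (bi.map e.toLinearEquiv.symm) (bi.map e.toLinearEquiv.symm)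
      (ρ.residual.ρ g) = LinearMap.toMatrix bi bi ((ρbar.baseChangeAlong i).ρ g) := by
    ext a c
    rw [LinearMap.toMatrix_apply, LinearMap.toMatrix_apply, Module.Basis.map_apply,
      Module.Basis.map_repr, LinearEquiv.trans_apply, LinearEquiv.symm_symm, e.map_apply,
      LinearEquiv.apply_symm_apply]
  rw [hb', h1, show LinearMap.toMatrix bi bi ((ρbar.baseChangeAlong i).ρ g) =
    i.mapMatrix (LinearMap.toMatrix b b (ρbar.ρ g)) from
      LinearMap.toMatrix_baseChange (A := ResidueField A) (ρbar.ρ g) b b]
  rfl

/-- Vectors congruent to zero in the second coordinate form the first line. -/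
theorem mem_span_basis_zero {k V : Type*} [CommRing k] [AddCommGroup V] [Module k V]
    (b : Module.Basis (Fin 2) k V) {v : V} :
    v ∈ Submodule.span k {b 0} ↔ b.repr v 1 = 0 := by
  rw [Submodule.mem_span_singleton]
  constructor
  · rintro ⟨c, rfl⟩
    simp
  · intro h
    refine ⟨b.repr v 0, ?_⟩
    conv_rhs => rw [← b.sum_repr v, Fin.sum_univ_two, h, zero_smul, add_zero]

/-- A stable first line is a zero lower left entry. -/
theorem map_mem_line_iff {k V : Type*} [CommRing k] [AddCommGroup V] [Module k V]
    (b : Module.Basis (Fin 2) k V) (X : Module.End k V) :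
    (∀ v ∈ Submodule.span k {b 0}, X v ∈ Submodule.span k {b 0}) ↔
      LinearMap.toMatrix b b X 1 0 = 0 := by
  rw [LinearMap.toMatrix_apply, ← mem_span_basis_zero b]
  refine ⟨fun h => h _ (Submodule.mem_span_singleton_self _), fun h v hv => ?_⟩
  obtain ⟨c, rfl⟩ := Submodule.mem_span_singleton.1 hv
  rw [map_smul]
  exact Submodule.smul_mem _ _ h

/-- A map is scalar modulo the first line when its second row is `(0, c)`. -/
theorem sub_smul_mem_line_iff {k V : Type*} [CommRing k] [AddCommGroup V] [Module k V]
    (b : Module.Basis (Fin 2) k V) (X : Module.End k V) (c : k) :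
    (∀ v, X v - c • v ∈ Submodule.span k {b 0}) ↔
      LinearMap.toMatrix b b X 1 0 = 0 ∧ LinearMap.toMatrix b b X 1 1 = c := by
  simp only [mem_span_basis_zero b, map_sub, map_smul, Finsupp.sub_apply, Finsupp.smul_apply,
    LinearMap.toMatrix_apply, smul_eq_mul]
  constructor
  · intro h
    exact ⟨by simpa using h (b 0), by simpa [sub_eq_zero] using h (b 1)⟩
  · rintro ⟨h0, h1⟩ v
    have e : X v = b.repr v 0 • X (b 0) + b.repr v 1 • X (b 1) := by
      rw [← map_smul X, ← map_smul X, ← map_add]
      congr 1
      conv_lhs => rw [← b.sum_repr v, Fin.sum_univ_two]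
    simp [e, h0, h1, mul_comm c]

end FLTAgent.RT.AtP
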