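import Fermat.Agent.Semistable.PTorsSides

/-!
# The nodal ring and local approximation of pairs

`InR` are the integral functions with poles on a fixed combination of the two auxiliary divisors.
A pair `(h, h')` is locally approximable at a crossing if `S * h` and `S * h'` are the reductions
of one such function for some `S` of value one at the crossing.
-/

set_option autoImplicit false
set_option linter.unusedSectionVars false

noncomputable section

open AlgebraicCurve

namespace FLTAgent.RT.AtP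

open FLTAgent.GoodRed FLTAgent.GoodRed.RedDatum FLTAgent.FunctionField FLTAgent.Semistable

variable {L k : Type*} [Field L] [Field k] {A : ValuationSubring L} {π : A →+* k}
  {F C C' : Type*} [Field F] [Algebra L F] [Field C] [Algebra k C] [Field C'] [Algebra k C']
  [IsFunctionField L F] [IsFunctionField k C] [IsFunctionField k C'] [IsAlgClosed L]
  [IsAlgClosed k] {D : RedDatum A π F C} {D' : RedDatum A π F C'} {ι : Type*} [Fintype ι]
  (N : NodeSystem D D' ι) (β : ℕ × ℕ)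

/-- `n` times the chosen combination of the auxiliary divisors. -/
def bdiv (n : ℕ) : Divisor L F := N.Bd (n * β.1) (n * β.2)

/-- The pairs of reductions allowed by `bdiv n`. -/
def pairs (n : ℕ) : Submodule k (C × C') := N.nspace 1 (n * β.1) (n * β.2)

theorem bdiv_nonneg (n : ℕ) : 0 ≤ bdiv N β n := N.Bd_nonneg _ _

theorem bdiv_add (m n : ℕ) : bdiv N β (m + n) = bdiv N β m + bdiv N β n := by
  simp only [bdiv, add_mul, N.Bd_add]

theorem bdiv_mul (m n : ℕ) : bdiv N β (m * n) = m • bdiv N β n := by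
  simp only [bdiv, mul_assoc, N.Bd_mul]

theorem bdiv_mono {m n : ℕ} (h : m ≤ n) : bdiv N β m ≤ bdiv N β n :=
  N.Bd_mono (Nat.mul_le_mul_right _ h) (Nat.mul_le_mul_right _ h)

theorem rr_mono {m n : ℕ} (h : m ≤ n) :
    riemannRochSpace (bdiv N β m) ≤ riemannRochSpace (bdiv N β n) :=
  riemannRochSpace_mono (bdiv_mono N β h)

theorem pairs_regular {n : ℕ} {z : C × C'} (hz : z ∈ pairs N β n) (i : ι) :
    OrdGe (N.x i) 0 z.1 ∧ OrdGe (N.y i) 0 z.2 :=
  ⟨regular_of_mem_rr (N.Pd_x _ _ i) hz.1, regular_of_mem_rr (N.Qd_y _ _ i) hz.2.1⟩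

theorem pairs_val {n : ℕ} {z : C × C'} (hz : z ∈ pairs N β n) (i : ι) :
    valAt (N.y i) z.2 = valAt (N.x i) z.1 := by
  simpa using hz.2.2 i

theorem pairs_mul {m n : ℕ} {z w : C × C'} (hz : z ∈ pairs N β m) (hw : w ∈ pairs N β n) :
    z * w ∈ pairs N β (m + n) := by
  refine ⟨?_, ?_, fun i => ?_⟩
  · simpa [NodeSystem.Pd, add_mul, add_nsmul, add_add_add_comm] using mul_mem_rr hz.1 hw.1
  · simpa [NodeSystem.Qd, add_mul, add_nsmul, add_add_add_comm] using mul_mem_rr hz.2.1 hw.2.1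
  · obtain ⟨a, b⟩ := pairs_regular N β hz i
    obtain ⟨a', b'⟩ := pairs_regular N β hw i
    rw [Prod.fst_mul, Prod.snd_mul, valAt_mul a a', valAt_mul b b', pairs_val N β hz,
      pairs_val N β hw, Pi.one_apply, one_mul]

theorem pairs_mono {m n : ℕ} (h : m ≤ n) : pairs N β m ≤ pairs N β n := by
  intro z hz
  refine ⟨riemannRochSpace_mono ?_ hz.1, riemannRochSpace_mono ?_ hz.2.1, hz.2.2⟩
  · exact add_le_add (nsmul_le_nsmul_left N.p₁_nonneg (Nat.mul_le_mul_right _ h))
      (nsmul_le_nsmul_left N.p₂_nonneg (Nat.mul_le_mul_right _ h))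
  · exact add_le_add (nsmul_le_nsmul_left N.q₁_nonneg (Nat.mul_le_mul_right _ h))
      (nsmul_le_nsmul_left N.q₂_nonneg (Nat.mul_le_mul_right _ h))

theorem one_mem_pairs (n : ℕ) : ((1 : C), (1 : C')) ∈ pairs N β n := N.one_one_mem_nspace _ _

theorem algebraMap_mem_pairs (t : k) (n : ℕ) :
    (algebraMap k C t, algebraMap k C' t) ∈ pairs N β n := by
  simpa [Prod.smul_mk, Algebra.smul_def] using
    Submodule.smul_mem _ t (one_mem_pairs N β n)

/-- An integral function with poles on the chosen combination. -/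
def InR (f : F) : Prop := f ∈ D.V ∧ f ∈ D'.V ∧ ∃ n, f ∈ riemannRochSpace (bdiv N β n)

variable {N β}

theorem InR.one : InR N β 1 :=
  ⟨one_mem _, one_mem _, 0, one_mem_rr (bdiv_nonneg N β 0)⟩

theorem InR.mul {f g : F} (hf : InR N β f) (hg : InR N β g) : InR N β (f * g) := by
  obtain ⟨h₁, h₁', n, hn⟩ := hf
  obtain ⟨h₂, h₂', m, hm⟩ := hg
  exact ⟨mul_mem h₁ h₂, mul_mem h₁' h₂', n + m, by rw [bdiv_add]; exact mul_mem_rr hn hm⟩

theorem InR.pow {f : F} (hf : InR N β f) (m : ℕ) : InR N β (f ^ m) := by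
  induction m with
  | zero => rw [pow_zero]; exact InR.one
  | succ m ih => rw [pow_succ]; exact ih.mul hf

theorem InR.add {f g : F} (hf : InR N β f) (hg : InR N β g) : InR N β (f + g) := by
  obtain ⟨h₁, h₁', n, hn⟩ := hf
  obtain ⟨h₂, h₂', m, hm⟩ := hg
  exact ⟨add_mem h₁ h₂, add_mem h₁' h₂', max n m,
    add_mem (rr_mono N β (le_max_left n m) hn) (rr_mono N β (le_max_right n m) hm)⟩

theorem InR.smul {f : F} (hf : InR N β f) (a : A) : InR N β ((a : L) • f) := by
  obtain ⟨h₁, h₁', n, hn⟩ := hf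
  exact ⟨PTors.smul_mem D a h₁, PTors.smul_mem D' a h₁', n, Submodule.smul_mem _ _ hn⟩

theorem InR.neg {f : F} (hf : InR N β f) : InR N β (-f) :=
  ⟨neg_mem hf.1, neg_mem hf.2.1, hf.2.2.choose, neg_mem hf.2.2.choose_spec⟩

theorem InR.sub {f g : F} (hf : InR N β f) (hg : InR N β g) : InR N β (f - g) := by
  rw [sub_eq_add_neg]; exact hf.add hg.neg

theorem InR.sum {J : Type*} (s : Finset J) {f : J → F} (hf : ∀ j ∈ s, InR N β (f j)) :
    InR N β (∑ j ∈ s, f j) := by
  classical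
  induction s using Finset.induction with
  | empty =>
    rw [Finset.sum_empty]
    exact ⟨zero_mem _, zero_mem _, 0, zero_mem _⟩
  | insert a s ha ih =>
    rw [Finset.sum_insert ha]
    exact (hf a (Finset.mem_insert_self a s)).add (ih fun j hj => hf j (Finset.mem_insert_of_mem hj))

theorem InR.mem_pairs {f : F} (hf : InR N β f) {a : C} {b : C'} (ha : D.Red f a)
    (hb : D'.Red f b) : ∃ n, (a, b) ∈ pairs N β n := by
  obtain ⟨-, -, n, hn⟩ := hf
  obtain ⟨h₁, h₂⟩ := N.red_mem _ _ f a b hn ha hb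
  exact ⟨n, h₁, h₂, fun i => by simp [(N.agree _ _ f a b hn ha hb i).symm]⟩

variable (N β) in
/-- Reductions of `InR` functions are exactly the pairs, in large degree. -/
theorem exists_lift_pair (hβ : 1 ≤ β.1 + β.2) {m : ℕ} {z : C × C'} (hz : z ∈ pairs N β m) :
    ∃ f, InR N β f ∧ D.Red f z.1 ∧ D'.Red f z.2 := by
  set n := m + (N.c + Fintype.card ι + 1)
  have hn : N.Big (n * β.1) (n * β.2) := by
    have h1 : n ≤ n * (β.1 + β.2) := Nat.le_mul_of_pos_right n hβ
    rw [mul_add] at h1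
    simp only [NodeSystem.Big, n] at h1 ⊢
    omega
  have h := pairs_mono N β (Nat.le_add_right m _ : m ≤ n) hz
  rw [pairs, ← N.hasJump_zero _ _ hn] at h
  obtain ⟨f, hf, hr, hr'⟩ := h
  rw [add_zero] at hf
  exact ⟨f, ⟨hr.mem, hr'.mem, n, hf⟩, hr, hr'⟩

variable (N β) in
/-- A function of the ring with value one at the crossing `i`. -/
def IsUnitAt (i : ι) (S : F) : Prop :=
  InR N β S ∧ ∃ a : C, D.Red S a ∧ valAt (N.x i) a = 1

theorem IsUnitAt.exists_red' {i : ι} {S : F} (h : IsUnitAt N β i S) :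
    ∃ (a : C) (b : C'), D.Red S a ∧ D'.Red S b ∧ a ≠ 0 ∧ b ≠ 0 ∧
      valAt (N.x i) a = 1 ∧ valAt (N.y i) b = 1 := by
  obtain ⟨hR, a, ha, hv⟩ := h
  obtain ⟨b, hb⟩ := exists_red hR.2.1
  obtain ⟨n, hp⟩ := hR.mem_pairs ha hb
  have hv' : valAt (N.y i) b = 1 := by rw [pairs_val N β hp, hv]
  refine ⟨a, b, ha, hb, ?_, ?_, hv, hv'⟩
  · rintro rfl; simp at hv
  · rintro rfl; simp at hv'

theorem IsUnitAt.mul {i : ι} {S S' : F} (h : IsUnitAt N β i S) (h' : IsUnitAt N β i S') :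
    IsUnitAt N β i (S * S') := by
  obtain ⟨a, b, ha, hb, -, -, hv, -⟩ := h.exists_red'
  obtain ⟨a', b', ha', hb', -, -, hv', -⟩ := h'.exists_red'
  obtain ⟨n, hp⟩ := h.1.mem_pairs ha hb
  obtain ⟨n', hp'⟩ := h'.1.mem_pairs ha' hb'
  refine ⟨h.1.mul h'.1, a * a', ha.mul ha', ?_⟩
  rw [valAt_mul (pairs_regular N β hp i).1 (pairs_regular N β hp' i).1, hv, hv', one_mul]

theorem IsUnitAt.one (i : ι) : IsUnitAt N β i (1 : F) := ⟨InR.one, 1, red_one, valAt_one⟩

theorem IsUnitAt.of_red_one {i : ι} {P : F} (h : InR N β P) (hr : D.Red P 1) :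
    IsUnitAt N β i P :=
  ⟨h, 1, hr, valAt_one⟩

variable (N β) in
/-- Local approximability of the pair `(h, h')` at the crossing `i` to precision `T`. -/
def Loc (i : ι) (T : A) (h h' : F) : Prop :=
  ∃ S P, IsUnitAt N β i S ∧ InR N β P ∧ Close D T P (S * h) ∧ Close D' T P (S * h')

variable (N β) in
/-- Approximability of the pair `(h, h')` to precision `T`. -/
def Glob (T : A) (h h' : F) : Prop :=
  ∃ P, InR N β P ∧ Close D T P h ∧ Close D' T P h'

variable {i : ι} {T : A} {h h' g g' : F}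

theorem Glob.loc (hg : Glob N β T h h') : Loc N β i T h h' := by
  obtain ⟨P, hP, c, c'⟩ := hg
  exact ⟨1, P, IsUnitAt.one i, hP, by rwa [one_mul], by rwa [one_mul]⟩

theorem Loc.mono {T' : A} (hT : T' ∣ T) (hl : Loc N β i T h h') : Loc N β i T' h h' := by
  obtain ⟨S, P, hS, hP, c, c'⟩ := hl
  exact ⟨S, P, hS, hP, c.mono hT, c'.mono hT⟩

theorem Loc.congr (hl : Loc N β i T h h') (e : Close D T h g) (e' : Close D' T h' g') :
    Loc N β i T g g' := by
  obtain ⟨S, P, hS, hP, c, c'⟩ := hl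
  exact ⟨S, P, hS, hP, c.trans (e.mul_left hS.1.1), c'.trans (e'.mul_left hS.1.2.1)⟩

theorem Loc.mul (hl : Loc N β i T h h') (hl' : Loc N β i T g g') (hh : h ∈ D.V) (hh' : h' ∈ D'.V) :
    Loc N β i T (h * g) (h' * g') := by
  obtain ⟨S, P, hS, hP, c, c'⟩ := hl
  obtain ⟨S', P', hS', hP', d, d'⟩ := hl'
  refine ⟨S * S', P * P', hS.mul hS', hP.mul hP', ?_, ?_⟩
  · rw [mul_mul_mul_comm]; exact c.mul d hP'.1 (mul_mem hS.1.1 hh)
  · rw [mul_mul_mul_comm]; exact c'.mul d' hP'.2.1 (mul_mem hS.1.2.1 hh')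

theorem Loc.pow (hl : Loc N β i T h h') (hh : h ∈ D.V) (hh' : h' ∈ D'.V) (m : ℕ) :
    Loc N β i T (h ^ m) (h' ^ m) := by
  induction m with
  | zero =>
    exact Glob.loc ⟨1, InR.one, by rw [pow_zero]; exact Close.refl 1,
      by rw [pow_zero]; exact Close.refl 1⟩
  | succ m ih => rw [pow_succ, pow_succ]; exact ih.mul hl (pow_mem hh m) (pow_mem hh' m)

/-- Approximate inverses in the ring. -/
theorem exists_inv (hA : IsRankOne A) {T : A} (hT : (T : L) ≠ 0) (hTn : (T : L) ∈ A.nonunits)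
    {P : F} (hP : InR N β P) (hr : D.Red P 1) (hr' : D'.Red P 1) :
    ∃ Q, InR N β Q ∧ Close D T (P * Q) 1 ∧ Close D' T (P * Q) 1 := by
  obtain ⟨c, hc, hcl⟩ := exists_close_zero D hTn (y := 1 - P) (by simpa using red_one.sub hr)
  obtain ⟨c', hc', hcl'⟩ := exists_close_zero D' hTn (y := 1 - P) (by simpa using red_one.sub hr')
  obtain ⟨γ, hγ, -, hγs⟩ := PTors.exists_common_dvd (Finset.univ : Finset Bool)
    (fun b => bif b then c else c') hTn (fun b _ => by cases b <;> assumption)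
  obtain ⟨m, hm⟩ := exists_pow_dvd hA hγ hT
  refine ⟨∑ j ∈ Finset.range m, (1 - P) ^ j, InR.sum _ fun j _ => (InR.one.sub hP).pow j, ?_, ?_⟩
  · have h1 := ((hcl.mono (hγs true (Finset.mem_univ _))).zero_pow m).mono hm
    have e : P * ∑ j ∈ Finset.range m, (1 - P) ^ j = 1 - (1 - P) ^ m := by
      have := mul_neg_geom_sum (1 - P) m
      rwa [sub_sub_cancel] at this
    rw [e]
    simpa using (Close.refl (1 : F)).sub h1
  · have h1 := ((hcl'.mono (hγs false (Finset.mem_univ _))).zero_pow m).mono hm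
    have e : P * ∑ j ∈ Finset.range m, (1 - P) ^ j = 1 - (1 - P) ^ m := by
      have := mul_neg_geom_sum (1 - P) m
      rwa [sub_sub_cancel] at this
    rw [e]
    simpa using (Close.refl (1 : F)).sub h1

end FLTAgent.RT.AtP
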