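import Fermat.Agent.RT.AtP.Step
import Fermat.Agent.RT.AtP.RootApprox

/-!
# Roots of order `p ^ n`

A local root of an approximable `p ^ n`-th power exists up to a root of unity on the second
component, and a root which is locally untwisted at every crossing is global.
-/

set_option autoImplicit false
set_option linter.unusedSectionVars false

noncomputable section

open AlgebraicCurve

namespace FLTAgent.RT.AtP

open FLTAgent.GoodRed FLTAgent.GoodRed.RedDatum FLTAgent.FunctionField FLTAgent.Semistable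

universe w

variable {L k : Type*} [Field L] [Field k] {A : ValuationSubring L} {π : A →+* k}
  {F : Type*} {C C' : Type w} [Field F] [Algebra L F] [Field C] [Algebra k C] [Field C']
  [Algebra k C'] [IsFunctionField L F] [IsFunctionField k C] [IsFunctionField k C']
  [IsAlgClosed L] [IsAlgClosed k] {D : RedDatum A π F C} {D' : RedDatum A π F C'} {ι : Type*}
  [Fintype ι] {N : NodeSystem D D' ι} {p : ℕ} [CharP k p] {ζ : A}

theorem pi_eq_one_of_pow (hp : p.Prime) {n : ℕ} {μ : A} (h : π μ ^ p ^ n = 1) : π μ = 1 := by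
  have : Fact p.Prime := ⟨hp⟩
  apply iterateFrobenius_inj k p n
  simp only [iterateFrobenius_def, one_pow, h]

/-- A `p ^ n`-th root of `ζ ^ j` in the ring of integers. -/
theorem exists_root_of_zeta (hp : p.Prime) (hζ : IsPrimitiveRoot ζ p) (n j : ℕ) :
    ∃ η : A, η ^ p ^ n = ζ ^ j ∧ π η = 1 := by
  obtain ⟨η, hη⟩ := IsAlgClosed.exists_pow_nat_eq ((ζ : L) ^ j) (pow_pos hp.pos n)
  have hηA : η ∈ A := by
    rw [← A.valuation_le_one_iff, ← pow_le_one_iff (pow_ne_zero n hp.ne_zero), ← map_pow, hη,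
      A.valuation_le_one_iff]
    exact pow_mem ζ.2 j
  refine ⟨⟨η, hηA⟩, Subtype.ext (by simp [hη]), pi_eq_one_of_pow hp (n := n) ?_⟩
  rw [← map_pow, show (⟨η, hηA⟩ : A) ^ p ^ n = ζ ^ j from Subtype.ext (by simp [hη]), map_pow,
    PTors.residue_root hp hζ, one_pow]

theorem zeta_sq_ne_zero (hp : p.Prime) (hζ : IsPrimitiveRoot ζ p) :
    (((ζ - 1) * (ζ - 1) : A) : L) ≠ 0 :=
  mul_ne_zero (PTors.sub_one_ne_zero hp hζ) (PTors.sub_one_ne_zero hp hζ)

/-- **Local roots.** -/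
theorem exists_loc_root_tower (hA : IsRankOne A) (hp : p.Prime) (hζ : IsPrimitiveRoot ζ p)
    (hpL : (p : L) ≠ 0) {e₀ : F} (he₀ : D.Red e₀ 1) (he₀' : D'.Red e₀ 0) (n : ℕ) (T : A)
    (hT0 : (T : L) ≠ 0) (hTn : (T : L) ∈ A.nonunits) :
    ∃ T₀ : A, (T₀ : L) ≠ 0 ∧ (T₀ : L) ∈ A.nonunits ∧
      ∀ β : ℕ × ℕ, 1 ≤ β.1 + β.2 → ∀ (i : ι) (h : F), D.Red h 1 → D'.Red h 1 →
        Loc N β i T₀ (h ^ p ^ n) (h ^ p ^ n) →
          ∃ μ : A, μ ^ p ^ n = 1 ∧ Loc N β i T h ((μ : L) • h) := by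
  induction n with
  | zero =>
    exact ⟨T, hT0, hTn, fun β _ i h _ _ hl => ⟨1, by simp, by simpa using hl⟩⟩
  | succ n ih =>
    obtain ⟨T₁, hT₁0, hT₁n, hroot⟩ := ih
    have hthr : ((PTors.thr p ζ : A) : L) ≠ 0 := PTors.thr_ne_zero hp hζ hpL
    refine ⟨PTors.thr p ζ * ((p : A) * T₁),
      mul_ne_zero hthr (mul_ne_zero (by simpa using hpL) hT₁0),
      mul_mem_nonunits_left (PTors.thr_mem_nonunits D.isResidue), fun β hβ i h hh hh' hl => ?_⟩
    rw [pow_succ, pow_mul] at hl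
    obtain ⟨j, -, hj⟩ := loc_root hA hp hζ hpL hβ hT₁0 (h := h ^ p ^ n)
      (by simpa using hh.pow (p ^ n)) (by simpa using hh'.pow (p ^ n)) hl
    obtain ⟨η, hη, hπη⟩ := exists_root_of_zeta (π := π) hp hζ n j
    set M : A := T₁ * T with hMdef
    have hM0 : (M : L) ≠ 0 := mul_ne_zero hT₁0 hT0
    have hMn : (M : L) ∈ A.nonunits := mul_mem_nonunits_left hT₁n
    obtain ⟨e, he, he'⟩ := exists_sharp_idempotent hA he₀ he₀' hM0 hMn
    set hh₂ := h * e + (η : L) • (h * (1 - e))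
    have hηh : D.Red ((η : L) • h) 1 := by simpa [hπη] using red_smul η hh
    have hηh' : D'.Red ((η : L) • h) 1 := by simpa [hπη] using red_smul η hh'
    have c : Close D M hh₂ h := by
      simpa using (he.mul_left hh.mem).add
        (((Close.refl (1 : F)).sub he).mul_left hηh.mem)
    have c' : Close D' M hh₂ ((η : L) • h) := by
      simpa using (he'.mul_left hh'.mem).add
        (((Close.refl (1 : F)).sub he').mul_left hηh'.mem)
    have r : D.Red hh₂ 1 := c.red hMn hh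
    have r' : D'.Red hh₂ 1 := c'.red hMn hηh'
    have d : Close D T₁ (h ^ p ^ n) (hh₂ ^ p ^ n) :=
      ((c.mono (dvd_mul_right T₁ T)).pow hh.mem _).symm
    have d' : Close D' T₁ ((ζ : L) ^ j • h ^ p ^ n) (hh₂ ^ p ^ n) := by
      have h1 := ((c'.mono (dvd_mul_right T₁ T)).pow hηh'.mem (p ^ n)).symm
      rwa [smul_pow, show (η : L) ^ p ^ n = (ζ : L) ^ j by
        exact_mod_cast congrArg (fun t : A => (t : L)) hη] at h1
    obtain ⟨μ, hμ, hlμ⟩ := hroot β hβ i hh₂ r r' (hj.congr d d')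
    refine ⟨μ * η, ?_, hlμ.congr (c.mono (dvd_mul_left T T₁)) ?_⟩
    · rw [pow_succ, pow_mul, mul_pow, hμ, hη, one_mul, ← pow_mul, mul_comm, pow_mul,
        hζ.pow_eq_one, one_pow]
    · obtain ⟨w, hw, ew⟩ := c'.mono (dvd_mul_left T T₁)
      exact ⟨(μ : L) • w, PTors.smul_mem D' μ hw, by
        rw [MulMemClass.coe_mul, mul_smul, ← smul_sub, ew, smul_comm]⟩

/-- **Roots untwisted at every crossing are global.** -/
theorem exists_glob_root_tower (hA : IsRankOne A) (hp : p.Prime) (hζ : IsPrimitiveRoot ζ p)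
    (hpL : (p : L) ≠ 0) (n : ℕ) (T : A) (hT0 : (T : L) ≠ 0) (hTn : (T : L) ∈ A.nonunits) :
    ∃ T₀ : A, (T₀ : L) ≠ 0 ∧ (T₀ : L) ∈ A.nonunits ∧
      ∀ β : ℕ × ℕ, 1 ≤ β.1 + β.2 → ∀ h : F, D.Red h 1 → D'.Red h 1 →
        Glob N β T₀ (h ^ p ^ n) (h ^ p ^ n) →
          (∀ i, Loc N β i ((ζ - 1) * (ζ - 1)) h h) → Glob N β T h h := by
  induction n generalizing T with
  | zero => exact ⟨T, hT0, hTn, fun β _ h _ _ hl _ => by simpa using hl⟩
  | succ n ih =>
    have hthr : ((PTors.thr p ζ : A) : L) ≠ 0 := PTors.thr_ne_zero hp hζ hpL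
    obtain ⟨T₀, hT₀0, hT₀n, hroot⟩ := ih (PTors.thr p ζ * ((p : A) * T))
      (mul_ne_zero hthr (mul_ne_zero (by simpa using hpL) hT0))
      (mul_mem_nonunits_left (PTors.thr_mem_nonunits D.isResidue))
    refine ⟨T₀, hT₀0, hT₀n, fun β hβ h hh hh' hl hloc => ?_⟩
    rw [pow_succ', pow_mul] at hl
    exact glob_root hA hp hζ hpL hβ hT0 hTn hh hh'
      (hroot β hβ (h ^ p) (by simpa using hh.pow p) (by simpa using hh'.pow p) hl
        fun i => (hloc i).pow hh.mem hh'.mem p) hloc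

end FLTAgent.RT.AtP
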