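import Fermat.Agent.RT.AtP.Threshold

/-!
# Extracting one `p`-th root of an approximable pair

A local root exists up to a power of `ζ` on the second component; it is unique, and a root which
is locally untwisted at every crossing is global.
-/

set_option autoImplicit false
set_option linter.unusedSectionVars false

noncomputable section

open AlgebraicCurve

namespace FLTAgent.RT.AtP

open FLTAgent.GoodRed FLTAgent.GoodRed.RedDatum FLTAgent.FunctionField FLTAgent.Semistable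

universe w

variable {L k : Type*} [Field L] [Field k] {A : ValuationSubring L} {π : A →+* k}
  {F : Type*} {C C' : Type w} [Field F] [Algebra L F] [Field C] [Algebra k C] [Field C']
  [Algebra k C'] [IsFunctionField L F] [IsFunctionField k C] [IsFunctionField k C']
  [IsAlgClosed L] [IsAlgClosed k] {D : RedDatum A π F C} {D' : RedDatum A π F C'} {ι : Type*}
  [Fintype ι] {N : NodeSystem D D' ι} {β : ℕ × ℕ} {p : ℕ} [CharP k p] {ζ : A}

theorem pow_sub_one_eq (ζ : A) (j : ℕ) :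
    (ζ : L) ^ j - 1 = ((ζ - 1 : A) : L) * ((∑ l ∈ Finset.range j, ζ ^ l : A) : L) := by
  push_cast
  rw [mul_comm, geom_sum_mul]

/-- Iteration of the Newton step. -/
theorem exists_newton (hA : IsRankOne A) (hp : p.Prime) (hζ : IsPrimitiveRoot ζ p)
    (hpL : (p : L) ≠ 0) (good : F → Prop)
    (hmul : ∀ {S S'}, good S → good S' → good (S * S'))
    (hgood : ∀ {S}, good S → InR N β S ∧
      ∃ a b, D.Red S a ∧ D'.Red S b ∧ a ≠ 0 ∧ b ≠ 0)
    {E T : A} (hT : (T : L) ≠ 0) (hEn : (E : L) ∈ A.nonunits) {h h' S P Se Pe : F}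
    (hh : D.Red h 1) (hh' : D'.Red h' 1) (hS : good S) (hP : InR N β P) (hSe : InR N β Se)
    (hPe : good Pe) (hc : Close D ((ζ - 1) * E) P (S * h))
    (hc' : Close D' ((ζ - 1) * E) P (S * h'))
    (he : Close D (PTors.thr p ζ * T) Pe (Se * h ^ p))
    (he' : Close D' (PTors.thr p ζ * T) Pe (Se * h' ^ p)) :
    ∃ S' P', good S' ∧ InR N β P' ∧ Close D T P' (S' * h) ∧ Close D' T P' (S' * h') := by
  have hpow : ∀ {S : F}, good S → ∀ m, good (S ^ (m + 1)) := by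
    intro S hS m
    induction m with
    | zero => simpa using hS
    | succ m ih => rw [pow_succ]; exact hmul ih hS
  obtain ⟨b₁, hb₁⟩ := exists_red hSe.1
  obtain ⟨b₁', hb₁'⟩ := exists_red hSe.2.1
  have hiter : ∀ j, ∃ (G : A) (S P : F), good S ∧ InR N β P ∧ Close D ((ζ - 1) * G) P (S * h) ∧
      Close D' ((ζ - 1) * G) P (S * h') ∧ (T ∣ G ∨ G ∣ T ∧ E ^ 2 ^ j ∣ G) := by
    intro j
    induction j with
    | zero =>
      rcases ValuationRing.dvd_total T E with hTE | hET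
      · exact ⟨T, S, P, hS, hP, hc.mono (mul_dvd_mul_left _ hTE), hc'.mono (mul_dvd_mul_left _ hTE),
          Or.inl dvd_rfl⟩
      · exact ⟨E, S, P, hS, hP, hc, hc', Or.inr ⟨hET, by rw [pow_zero, pow_one]⟩⟩
    | succ j ih =>
      obtain ⟨G, S₁, P₁, hS₁, hP₁, hcG, hcG', hG⟩ := ih
      rcases hG with hG | ⟨hGT, hEG⟩
      · exact ⟨G, S₁, P₁, hS₁, hP₁, hcG, hcG', Or.inl hG⟩
      obtain ⟨G', hG₁, hG₂, hG₃⟩ : ∃ G', G' ∣ G * G ∧ G' ∣ T ∧
          (T ∣ G' ∨ G' ∣ T ∧ E ^ 2 ^ (j + 1) ∣ G') := by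
        rcases ValuationRing.dvd_total T (G * G) with h1 | h1
        · exact ⟨T, h1, dvd_rfl, Or.inl dvd_rfl⟩
        · exact ⟨G * G, dvd_rfl, h1, Or.inr ⟨h1, by
            rw [pow_succ, pow_mul, pow_two]; exact mul_dvd_mul hEG hEG⟩⟩
      obtain ⟨hS₁R, a, b, ha, hb, ha0, hb0⟩ := hgood hS₁
      obtain ⟨m₁, e₁⟩ := close_newton D.isResidue hp hζ hpL hG₁ hG₂ hh ha ha0 hb₁ (hgood hPe).1.1
        hcG he
      obtain ⟨m₁', e₁'⟩ := close_newton D'.isResidue hp hζ hpL hG₁ hG₂ hh' hb hb0 hb₁'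
        (hgood hPe).1.2.1 hcG' he'
      obtain ⟨m, hm⟩ := Nat.exists_eq_succ_of_ne_zero hp.ne_zero
      have hPeR := (hgood hPe).1
      have hX := ((hP₁.pow p).mul hSe).sub ((hS₁R.pow p).mul hPeR)
      have hR := hP₁.mul ((hS₁R.pow p).mul hPeR)
      obtain ⟨-, -, n₁, hn₁⟩ := hX
      obtain ⟨-, -, n₂, hn₂⟩ := hR
      obtain ⟨-, -, n₃, hn₃⟩ := hP₁
      refine ⟨G', S₁ * (S₁ ^ p * Pe), _, hmul hS₁ (hmul (hm ▸ hpow hS₁ m) hPe),
        ⟨m₁, m₁', max n₂ (n₃ + n₁), sub_mem (rr_mono N β (le_max_left _ _) hn₂)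
          (rr_mono N β (le_max_right _ _) ?_)⟩, e₁, e₁', hG₃⟩
      rw [bdiv_add]
      exact mul_mem_rr hn₃ (Submodule.smul_mem _ _ hn₁)
  obtain ⟨M, hM⟩ := exists_pow_dvd hA hEn hT
  obtain ⟨G, S', P', hS', hP', hcG, hcG', hG⟩ := hiter M
  have hTG : T ∣ (ζ - 1) * G := by
    refine Dvd.dvd.mul_left ?_ _
    rcases hG with hG | ⟨-, hEG⟩
    · exact hG
    · exact hM.trans ((pow_dvd_pow E Nat.lt_two_pow_self.le).trans hEG)
  exact ⟨S', P', hS', hP', hcG.mono hTG, hcG'.mono hTG⟩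

/-- Lift of a residual root with twist `ζ ^ j`. -/
theorem exists_lift_root (hp : p.Prime) (hζ : IsPrimitiveRoot ζ p) (hβ : 1 ≤ β.1 + β.2)
    {h u r : F} {σ v : C} {σ' v' : C'} {n m : ℕ} (hu : InR N β u)
    (hur : u = h + ((ζ - 1 : A) : L) • r) (_hh : D.Red h σ) (hh' : D'.Red h σ') (hr : D.Red r v)
    (hr' : D'.Red r v') (hv : v ∈ riemannRochSpace (N.Pd (n * β.1) (n * β.2)))
    (hv' : v' ∈ riemannRochSpace (N.Qd (n * β.1) (n * β.2))) (hσ : (σ, σ') ∈ pairs N β m)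
    {S₂ : F} (hS₂ : InR N β S₂) {s : C} {s' : C'} (hs : D.Red S₂ s) (hs' : D'.Red S₂ s') (j : ℕ)
    (hag : ∀ i, valAt (N.x i) s *
      ((j : k) * valAt (N.x i) σ - (valAt (N.y i) v' - valAt (N.x i) v)) = 0) :
    ∃ (P : F) (E : A), InR N β P ∧ (E : L) ∈ A.nonunits ∧ Close D ((ζ - 1) * E) P (S₂ * h) ∧
      Close D' ((ζ - 1) * E) P (S₂ * ((ζ : L) ^ j • h)) := by
  obtain ⟨n₂, hn₂⟩ := hS₂.mem_pairs hs hs'
  have h0 := (pairs_mono N β (le_max_left m n) hσ)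
  have hσP : σ ∈ riemannRochSpace (N.Pd (max m n * β.1) (max m n * β.2)) := h0.1
  have hσQ : σ' ∈ riemannRochSpace (N.Qd (max m n * β.1) (max m n * β.2)) := h0.2.1
  have mono₁ : N.Pd (n * β.1) (n * β.2) ≤ N.Pd (max m n * β.1) (max m n * β.2) :=
    add_le_add (nsmul_le_nsmul_left N.p₁_nonneg (Nat.mul_le_mul_right _ (le_max_right _ _)))
      (nsmul_le_nsmul_left N.p₂_nonneg (Nat.mul_le_mul_right _ (le_max_right _ _)))
  have mono₂ : N.Qd (n * β.1) (n * β.2) ≤ N.Qd (max m n * β.1) (max m n * β.2) :=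
    add_le_add (nsmul_le_nsmul_left N.q₁_nonneg (Nat.mul_le_mul_right _ (le_max_right _ _)))
      (nsmul_le_nsmul_left N.q₂_nonneg (Nat.mul_le_mul_right _ (le_max_right _ _)))
  have hwP : -(s * v) ∈ riemannRochSpace
      (N.Pd (n₂ * β.1) (n₂ * β.2) + N.Pd (max m n * β.1) (max m n * β.2)) :=
    neg_mem (mul_mem_rr hn₂.1 (riemannRochSpace_mono mono₁ hv))
  have hjQ : algebraMap k C' (j : k) * σ' ∈
      riemannRochSpace (N.Qd (max m n * β.1) (max m n * β.2)) := by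
    rw [← Algebra.smul_def]; exact Submodule.smul_mem _ _ hσQ
  have hwQ : s' * (algebraMap k C' (j : k) * σ' - v') ∈ riemannRochSpace
      (N.Qd (n₂ * β.1) (n₂ * β.2) + N.Qd (max m n * β.1) (max m n * β.2)) :=
    mul_mem_rr hn₂.2.1 (sub_mem hjQ (riemannRochSpace_mono mono₂ hv'))
  have hpair : (-(s * v), s' * (algebraMap k C' (j : k) * σ' - v')) ∈
      pairs N β (n₂ + max m n) := by
    refine ⟨?_, ?_, fun i => ?_⟩
    · simpa [NodeSystem.Pd, add_mul, add_nsmul, add_add_add_comm] using hwP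
    · simpa [NodeSystem.Qd, add_mul, add_nsmul, add_add_add_comm] using hwQ
    have gs := regular_of_mem_rr (N.Pd_x _ _ i) hn₂.1
    have gs' := regular_of_mem_rr (N.Qd_y _ _ i) hn₂.2.1
    have gv := regular_of_mem_rr (N.Pd_x _ _ i) hv
    have gv' := regular_of_mem_rr (N.Qd_y _ _ i) hv'
    have gσ' := regular_of_mem_rr (N.Qd_y _ _ i) hσQ
    have gjσ : OrdGe (N.y i) 0 (algebraMap k C' (j : k) * σ') :=
      regular_of_mem_rr (N.Qd_y _ _ i) hjQ
    have e1 : valAt (N.y i) (algebraMap k C' (j : k) * σ' - v') =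
        (j : k) * valAt (N.x i) σ - valAt (N.y i) v' := by
      rw [eq_sub_iff_add_eq, ← valAt_add (gjσ.sub gv') gv', sub_add_cancel,
        valAt_mul (ordGe_algebraMap _) gσ', valAt_algebraMap, pairs_val N β h0 i]
    have e2 : valAt (N.x i) (-(s * v)) = -(valAt (N.x i) s * valAt (N.x i) v) := by
      rw [eq_neg_iff_add_eq_zero, ← valAt_mul gs gv, ← valAt_add (gs.mul gv |>.neg |> fun h => by
        simpa using h) (by simpa using gs.mul gv), neg_add_cancel, valAt_zero]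
    rw [Pi.one_apply, one_mul, e2, valAt_mul gs' (gjσ.sub gv'), e1, pairs_val N β hn₂ i]
    linear_combination hag i
  obtain ⟨W, hW, hWr, hWr'⟩ := exists_lift_pair N β hβ hpair
  set P := S₂ * u + ((ζ - 1 : A) : L) • W with hP
  set κ : A := ∑ l ∈ Finset.range j, ζ ^ l with hκ
  have e1 : P - S₂ * h = ((ζ - 1 : A) : L) • (S₂ * r + W) := by
    rw [hP, hur, mul_add, mul_smul_comm, smul_add]; abel
  have e2 : P - S₂ * ((ζ : L) ^ j • h) =
      ((ζ - 1 : A) : L) • (S₂ * r + W - (κ : L) • (S₂ * h)) := by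
    rw [smul_sub, ← e1, smul_smul, ← pow_sub_one_eq, sub_smul, one_smul, mul_smul_comm]
    abel
  have r₁ : D.Red (S₂ * r + W) 0 := by simpa using (hs.mul hr).add hWr
  have r₂ : D'.Red (S₂ * r + W - (κ : L) • (S₂ * h)) 0 := by
    have := ((hs'.mul hr').add hWr').sub (red_smul κ (hs'.mul hh'))
    convert this using 1
    rw [hκ, PTors.residue_geom_sum hp hζ, Algebra.smul_def]
    ring
  have hζn := PTors.sub_one_mem_nonunits D.isResidue hp hζ
  obtain ⟨E₁, hE₁, c₁⟩ := exists_close_zero D hζn r₁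
  obtain ⟨E₂, hE₂, c₂⟩ := exists_close_zero D' hζn r₂
  obtain ⟨E, hE, -, hEs⟩ := PTors.exists_common_dvd (Finset.univ : Finset Bool)
    (fun b => bif b then E₁ else E₂) hζn (fun b _ => by cases b <;> assumption)
  refine ⟨P, E, (hS₂.mul hu).add (hW.smul _), hE, ?_, ?_⟩
  · have := (c₁.mono (hEs true (Finset.mem_univ _))).smul_left (ζ - 1)
    rw [smul_zero, ← e1] at this
    simpa using this.add (Close.refl (S₂ * h))
  · have := (c₂.mono (hEs false (Finset.mem_univ _))).smul_left (ζ - 1)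
    rw [smul_zero, ← e2] at this
    simpa using this.add (Close.refl (S₂ * ((ζ : L) ^ j • h)))

/-- The twist of a local root is unique. -/
theorem eq_zero_of_loc (hp : p.Prime) (hζ : IsPrimitiveRoot ζ p) {i : ι} {h : F}
    (hh : D.Red h 1) (hh' : D'.Red h 1) {E : A} (hE : (E : L) ∈ A.nonunits) {j : ℕ} (hj : j < p)
    (h₁ : Loc N β i ((ζ - 1) * E) h h) (h₂ : Loc N β i ((ζ - 1) * E) h ((ζ : L) ^ j • h)) :
    j = 0 := by
  obtain ⟨S₁, P₁, hS₁, hP₁, c₁, c₁'⟩ := h₁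
  obtain ⟨S₂, P₂, hS₂, hP₂, c₂, c₂'⟩ := h₂
  set X : A := ζ - 1 with hX
  have hX0 : (X : L) ≠ 0 := PTors.sub_one_ne_zero hp hζ
  set κ : A := ∑ l ∈ Finset.range j, ζ ^ l with hκ
  set Z := S₁ * P₂ - S₂ * P₁ with hZ
  set Y := (X : L)⁻¹ • Z with hY
  have hZY : Z = (X : L) • Y := by rw [hY, smul_inv_smul₀ hX0]
  obtain ⟨a₁, b₁, ra₁, rb₁, -, -, -, vb₁⟩ := hS₁.exists_red'
  obtain ⟨a₂, b₂, ra₂, rb₂, -, -, -, vb₂⟩ := hS₂.exists_red'
  have d₁ : Close D (X * E) Z ((X : L) • (0 : F)) := by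
    have := (c₂.mul_left hS₁.1.1).sub (c₁.mul_left hS₂.1.1)
    rwa [mul_left_comm S₁ S₂ h, sub_self, ← smul_zero (X : L)] at this
  have d₂ : Close D' (X * E) Z ((X : L) • ((κ : L) • (S₁ * S₂ * h))) := by
    have := (c₂'.mul_left hS₁.1.2.1).sub (c₁'.mul_left hS₂.1.2.1)
    rw [smul_smul, ← pow_sub_one_eq, sub_smul, one_smul]
    convert this using 1
    simp only [mul_smul_comm]
    ring_nf
  rw [hZY] at d₁ d₂
  have rY : D.Red Y 0 := (Close.cancel hX0 d₁).red hE red_zero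
  have rY' : D'.Red Y ((j : k) • (b₁ * b₂)) := by
    refine (Close.cancel hX0 d₂).red hE ?_
    have := red_smul κ ((rb₁.mul rb₂).mul hh')
    rwa [hκ, PTors.residue_geom_sum hp hζ, mul_one] at this
  obtain ⟨-, -, n, hn⟩ := (hS₁.1.mul hP₂).sub (hS₂.1.mul hP₁)
  have hYR : InR N β Y := ⟨rY.mem, rY'.mem, n, Submodule.smul_mem _ _ hn⟩
  obtain ⟨m, hm⟩ := hYR.mem_pairs rY rY'
  have hval := pairs_val N β hm i
  obtain ⟨m₁, hm₁⟩ := hS₁.1.mem_pairs ra₁ rb₁
  obtain ⟨m₂, hm₂⟩ := hS₂.1.mem_pairs ra₂ rb₂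
  rw [valAt_smul _ ((pairs_regular N β hm₁ i).2.mul (pairs_regular N β hm₂ i).2),
    valAt_mul (pairs_regular N β hm₁ i).2 (pairs_regular N β hm₂ i).2, vb₁, vb₂, valAt_zero,
    mul_one, mul_one, CharP.cast_eq_zero_iff k p] at hval
  exact Nat.eq_zero_of_dvd_of_lt hval hj

/-- A local `p`-th root. -/
theorem loc_root (hA : IsRankOne A) (hp : p.Prime) (hζ : IsPrimitiveRoot ζ p)
    (hpL : (p : L) ≠ 0) (hβ : 1 ≤ β.1 + β.2) {i : ι} {T : A} (hT : (T : L) ≠ 0) {h : F}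
    (hh : D.Red h 1) (hh' : D'.Red h 1)
    (hl : Loc N β i (PTors.thr p ζ * ((p : A) * T)) (h ^ p) (h ^ p)) :
    ∃ j : ℕ, j < p ∧ Loc N β i T h ((ζ : L) ^ j • h) := by
  classical
  obtain ⟨S, Pe, hS, hPe, c, c'⟩ := hl
  obtain ⟨a, b, ha, hb, ha0, hb0, hva, -⟩ := hS.exists_red'
  obtain ⟨m, hm⟩ := hS.1.mem_pairs ha hb
  have hM : PTors.thr p ζ * (p : A) ∣ PTors.thr p ζ * ((p : A) * T) :=
    mul_dvd_mul_left _ (dvd_mul_right _ _)
  have hSp : S ^ (p - 1) * S = S ^ p := by rw [← pow_succ, Nat.sub_add_cancel hp.one_lt.le]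
  obtain ⟨u, r, hu, hur, v, v', n, hr, hr', hv, hv', hjs⟩ :=
    exists_threshold (D := D) (D' := D') hp hζ hpL hβ (h := S * h) (e := S ^ (p - 1) * Pe)
      (σ := a) (σ' := b) (by simpa using ha.mul hh) (by simpa using hb.mul hh') ha0 hb0 hm
      ((hS.1.pow _).mul hPe)
      (by have := (c.mono hM).mul_left (pow_mem hS.1.1 (p - 1))
          rwa [← mul_assoc, hSp, ← mul_pow] at this)
      (by have := (c'.mono hM).mul_left (pow_mem hS.1.2.1 (p - 1))
          rwa [← mul_assoc, hSp, ← mul_pow] at this)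
  obtain ⟨j, hj, hjk⟩ := hjs i hva
  set n₂ := N.c + Fintype.card ι + 1
  obtain ⟨z, hz, hzt⟩ := N.exists_mem_nspace 1 (n₁ := n₂ * β.1) (n₂ := n₂ * β.2)
    (by
      have h1 : n₂ ≤ n₂ * (β.1 + β.2) := Nat.le_mul_of_pos_right n₂ hβ
      rw [mul_add] at h1
      exact h1) (Pi.single i 1)
  obtain ⟨S₂, hS₂, hs, hs'⟩ := exists_lift_pair N β hβ hz
  obtain ⟨P, E, hP, hE, e, e'⟩ := exists_lift_root (D := D) (D' := D') hp hζ hβ hu hur
    (by simpa using ha.mul hh) (by simpa using hb.mul hh') hr hr' hv hv' hm hS₂ hs hs' j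
    (fun l => by
      rw [hzt]
      rcases eq_or_ne l i with rfl | hl'
      · rw [hva, hjk, mul_one, sub_self, mul_zero]
      · rw [Pi.single_eq_of_ne hl', zero_mul])
  have hu₂ : IsUnitAt N β i S₂ := ⟨hS₂, z.1, hs, by rw [hzt, Pi.single_eq_same]⟩
  have hPeu : IsUnitAt N β i Pe := by
    have hn : ((PTors.thr p ζ * ((p : A) * T) : A) : L) ∈ A.nonunits :=
      ValuationSubring.coe_mem_nonunits_iff.2 (Ideal.mul_mem_right _ _
        (ValuationSubring.coe_mem_nonunits_iff.1 (PTors.thr_mem_nonunits D.isResidue)))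
    exact ⟨hPe, a, c.red hn (by simpa using ha.mul (hh.pow p)), hva⟩
  have hT' : PTors.thr p ζ * T ∣ PTors.thr p ζ * ((p : A) * T) :=
    mul_dvd_mul_left _ (dvd_mul_left _ _)
  have hζj : ((ζ : L) ^ j • h) ^ p = h ^ p := by
    rw [smul_pow, ← pow_mul, mul_comm j, pow_mul, show (ζ : L) ^ p = 1 by
      exact_mod_cast congrArg (fun t : A => (t : L)) hζ.pow_eq_one, one_pow, one_smul]
  have hh'' : D'.Red ((ζ : L) ^ j • h) 1 := by
    simpa [PTors.residue_root hp hζ] using red_smul (ζ ^ j) hh'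
  obtain ⟨S', P', hS', hP', f, f'⟩ := exists_newton (N := N) (β := β) hA hp hζ hpL
    (fun S => IsUnitAt N β i S) (fun h1 h2 => h1.mul h2)
    (fun {S₀} h1 => by
      obtain ⟨a', b', h₁, h₂, h₃, h₄, -, -⟩ := h1.exists_red'
      exact ⟨h1.1, a', b', h₁, h₂, h₃, h₄⟩)
    hT hE hh hh'' (hu₂.mul hS) hP hS.1 hPeu (by rwa [mul_assoc])
    (by rw [mul_assoc, mul_smul_comm]; exact e')
    (c.mono hT') (by rw [hζj]; exact c'.mono hT')
  exact ⟨j, hj, S', P', hS', hP', f, f'⟩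

/-- A locally untwisted root is global. -/
theorem glob_root (hA : IsRankOne A) (hp : p.Prime) (hζ : IsPrimitiveRoot ζ p)
    (hpL : (p : L) ≠ 0) (hβ : 1 ≤ β.1 + β.2) {T : A} (hT : (T : L) ≠ 0)
    (hTn : (T : L) ∈ A.nonunits) {h : F} (hh : D.Red h 1) (hh' : D'.Red h 1)
    (hl : Glob N β (PTors.thr p ζ * ((p : A) * T)) (h ^ p) (h ^ p))
    (hloc : ∀ i, Loc N β i ((ζ - 1) * (ζ - 1)) h h) : Glob N β T h h := by
  classical
  obtain ⟨Pe, hPe, c, c'⟩ := hl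
  have hM : PTors.thr p ζ * (p : A) ∣ PTors.thr p ζ * ((p : A) * T) :=
    mul_dvd_mul_left _ (dvd_mul_right _ _)
  obtain ⟨u, r, hu, hur, v, v', n, hr, hr', hv, hv', hjs⟩ :=
    exists_threshold (D := D) (D' := D') (N := N) hp hζ hpL hβ hh hh' one_ne_zero one_ne_zero
      (one_mem_pairs N β 0) hPe (c.mono hM) (c'.mono hM)
  have hζn := PTors.sub_one_mem_nonunits D.isResidue hp hζ
  have hd : ∀ i, valAt (N.y i) v' - valAt (N.x i) v = 0 := by
    intro i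
    obtain ⟨j, hj, hjk⟩ := hjs i valAt_one
    set n₂ := N.c + Fintype.card ι + 1
    obtain ⟨z, hz, hzt⟩ := N.exists_mem_nspace 1 (n₁ := n₂ * β.1) (n₂ := n₂ * β.2)
      (by
        have h1 : n₂ ≤ n₂ * (β.1 + β.2) := Nat.le_mul_of_pos_right n₂ hβ
        rw [mul_add] at h1
        exact h1) (Pi.single i 1)
    obtain ⟨S₂, hS₂, hs, hs'⟩ := exists_lift_pair N β hβ hz
    obtain ⟨P, E, hP, hE, e, e'⟩ := exists_lift_root (D := D) (D' := D') hp hζ hβ hu hur hh hh' hr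
      hr' hv hv' (one_mem_pairs N β 0) hS₂ hs hs' j (fun l => by
        rw [hzt]
        rcases eq_or_ne l i with rfl | hl'
        · rw [valAt_one, hjk, mul_one, sub_self, mul_zero]
        · rw [Pi.single_eq_of_ne hl', zero_mul])
    have hu₂ : IsUnitAt N β i S₂ := ⟨hS₂, z.1, hs, by rw [hzt, Pi.single_eq_same]⟩
    have h₂ : Loc N β i ((ζ - 1) * E) h ((ζ : L) ^ j • h) := ⟨S₂, P, hu₂, hP, e, e'⟩
    obtain ⟨E', hE', hE'ζ, hE's⟩ := PTors.exists_common_dvd ({()} : Finset Unit) (fun _ => E) hζn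
      (fun _ _ => hE)
    have := eq_zero_of_loc hp hζ hh hh' hE' hj ((hloc i).mono (mul_dvd_mul_left _ hE'ζ))
      (h₂.mono (mul_dvd_mul_left _ (hE's () (by simp))))
    rw [← hjk, this, Nat.cast_zero]
  obtain ⟨P, E, hP, hE, e, e'⟩ := exists_lift_root (D := D) (D' := D') hp hζ hβ hu hur hh hh' hr
    hr' hv hv' (one_mem_pairs N β 0) InR.one red_one red_one 0
    (fun l => by rw [hd, Nat.cast_zero, zero_mul, sub_zero, mul_zero])
  rw [pow_zero, one_smul] at e'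
  have hT' : PTors.thr p ζ * T ∣ PTors.thr p ζ * ((p : A) * T) :=
    mul_dvd_mul_left _ (dvd_mul_left _ _)
  have hMn : ((PTors.thr p ζ * ((p : A) * T) : A) : L) ∈ A.nonunits :=
    ValuationSubring.coe_mem_nonunits_iff.2 (Ideal.mul_mem_right _ _
      (ValuationSubring.coe_mem_nonunits_iff.1 (PTors.thr_mem_nonunits D.isResidue)))
  obtain ⟨S', P', ⟨hS', hS'r, hS'r'⟩, hP', f, f'⟩ := exists_newton (N := N) (β := β) hA hp hζ hpL
    (fun S => InR N β S ∧ D.Red S 1 ∧ D'.Red S 1)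
    (fun h1 h2 => ⟨h1.1.mul h2.1, by simpa using h1.2.1.mul h2.2.1,
      by simpa using h1.2.2.mul h2.2.2⟩)
    (fun h1 => ⟨h1.1, 1, 1, h1.2.1, h1.2.2, one_ne_zero, one_ne_zero⟩)
    hT hE hh hh' ⟨InR.one, red_one, red_one⟩ hP InR.one
    ⟨hPe, c.red hMn (by simpa using hh.pow p), c'.red hMn (by simpa using hh'.pow p)⟩ e e'
    (by rw [one_mul]; exact c.mono hT') (by rw [one_mul]; exact c'.mono hT')
  obtain ⟨Q, hQ, q, q'⟩ := exists_inv hA hT hTn hS' hS'r hS'r'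
  refine ⟨P' * Q, hP'.mul hQ, ?_, ?_⟩
  · refine (f.mul_right hQ.1).trans ?_
    rw [mul_right_comm]
    simpa using q.mul_right hh.mem
  · refine (f'.mul_right hQ.2.1).trans ?_
    rw [mul_right_comm]
    simpa using q'.mul_right hh'.mem

end FLTAgent.RT.AtP
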