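import Fermat.Agent.RT.AtP.Identity
import Fermat.Agent.FlatModel.LevelVec
import Fermat.Prelude.Def_GaloisRep_StrictOrdinary

/-!
# Strict ordinarity from the toric identity

If inertia elements and squares of decomposition elements act through the cyclotomic character on
the part moved by inertia, on the Tate module after multiplication by jointly regular Hecke
operators, then the representation is strictly ordinary at `p`.
-/

set_option autoImplicit false

namespace FLTAgent.RT.AtP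

open Matrix GalRep IsLocalRing FlatModel

local notation "Γℚ" => AlgebraicClosure ℚ ≃ₐ[ℚ] AlgebraicClosure ℚ

variable {p : ℕ} [Fact p.Prime] {N : ℕ} [NeZero N] {S : Finset ℕ}
  {𝒪 : Type} [CommRing 𝒪] [IsDomain 𝒪] [IsDiscreteValuationRing 𝒪]
  [IsAdicComplete (IsLocalRing.maximalIdeal 𝒪) 𝒪]
  {θ : CuspForm.heckeAlgebra N 2 (↑S : Set ℕ) →+* IsLocalRing.ResidueField 𝒪}
  {T : Type} [CommRing T] [IsLocalRing T] [IsNoetherianRing T]
  [IsAdicComplete (IsLocalRing.maximalIdeal T) T] [Algebra 𝒪 T] [IsLocalHom (algebraMap 𝒪 T)]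
  [Module.Finite 𝒪 T] [Module.Free 𝒪 T]

omit [IsNoetherianRing T] [IsAdicComplete (maximalIdeal T) T] in
theorem end_eq_of_repMat (ρ : GaloisRepAdic T) {σ τ : Γℚ} {c : T}
    (h : repMat ρ σ * (repMat ρ τ - 1) = c • (repMat ρ τ - 1)) :
    ρ.ρ σ * (ρ.ρ τ - 1) = c • (ρ.ρ τ - 1) := by
  apply (LinearMap.toMatrix (repBasis ρ) (repBasis ρ)).injective
  rw [LinearMap.toMatrix_mul, map_smul, map_sub, LinearMap.toMatrix_one]
  exact h

/-- **Strict ordinarity from the defect identities.** -/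
theorem isStrictOrdinaryAt_of_defect (M : MatModel N p ↑S) (hd : FrobeniusDense) (hp2 : p ≠ 2)
    (H : CuspForm.HeckeGaloisRepDatum N (↑S : Set ℕ) 𝒪 θ T) (ψ : ℤ_[p] →+* T)
    (hp : (p : T) ∈ maximalIdeal T)
    (hkey : ∀ P : ValuationSubring (AlgebraicClosure ℚ), P.LiesOverPrime p →
      ∀ σ ∈ P.inertiaSubgroupIn ℚ, ∀ τ ∈ P.inertiaSubgroupIn ℚ,
        repMat H.ρ σ * (repMat H.ρ τ - 1) = ψ (cyclo p σ : ℤ_[p]) • (repMat H.ρ τ - 1))
    (hkey₂ : ∀ P : ValuationSubring (AlgebraicClosure ℚ), P.LiesOverPrime p →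
      ∀ σ ∈ P.decompositionSubgroup ℚ, ∀ τ ∈ P.inertiaSubgroupIn ℚ,
        repMat H.ρ (σ * σ) * (repMat H.ρ τ - 1) =
          ψ (cyclo p (σ * σ) : ℤ_[p]) • (repMat H.ρ τ - 1)) :
    H.ρ.IsStrictOrdinaryAt p := by
  classical
  refine ⟨hp, fun P hP => ?_⟩
  obtain ⟨L, ⟨b, hL⟩, hD, hI⟩ := isOrdinaryAt_of_defect M hd hp2 H ψ hp hkey P hP
  refine ⟨L, ⟨b, hL⟩, hD, hI, fun σ hσ => ?_⟩
  have hdet := det_repMat_eq_cyclo M hd H ψ hp
  have hdet' : ∀ g, (LinearMap.toMatrix b b (H.ρ.ρ g)).det = ψ (cyclo p g : ℤ_[p]) := fun g => by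
    rw [LinearMap.det_toMatrix, ← LinearMap.det_toMatrix (repBasis H.ρ)]
    exact hdet g
  have h1 : b.repr (b 0) 1 = 0 := by
    rw [b.repr_self, Finsupp.single_eq_of_ne (by decide : (1 : Fin 2) ≠ 0)]
  have hLmem : ∀ v ∈ L, b.repr v 1 = 0 := fun v hv => by
    rw [hL] at hv
    obtain ⟨c, rfl⟩ := Submodule.mem_span_singleton.1 hv
    rw [map_smul, Finsupp.smul_apply, h1, smul_zero]
  have hb0 : b 0 ∈ L := hL ▸ Submodule.mem_span_singleton_self _
  have hexp : ∀ v : H.ρ.V, v = b.repr v 0 • b 0 + b.repr v 1 • b 1 := fun v => by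
    conv_lhs => rw [← b.sum_repr v, Fin.sum_univ_two]
  set M₀ := LinearMap.toMatrix b b (H.ρ.ρ σ) with hM₀
  set x := M₀ 0 0
  set z := M₀ 1 1
  have hσ10 : M₀ 1 0 = 0 := by
    rw [hM₀, LinearMap.toMatrix_apply]
    exact hLmem _ (hD σ hσ _ hb0)
  have hxz : x * z = ψ (cyclo p σ : ℤ_[p]) := by
    have : M₀.det = ψ (cyclo p σ : ℤ_[p]) := hdet' σ
    rwa [Matrix.det_fin_two, hσ10, mul_zero, sub_zero] at this
  have hσ0 : H.ρ.ρ σ (b 0) = x • b 0 := by
    conv_lhs => rw [hexp (H.ρ.ρ σ (b 0)), hLmem _ (hD σ hσ _ hb0), zero_smul, add_zero]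
    rw [show x = b.repr (H.ρ.ρ σ (b 0)) 0 from LinearMap.toMatrix_apply _ _ _ _ _]
  -- the eigenvalue of the distinguished inertia element
  obtain ⟨s, hs, hs1⟩ := exists_cyclo_ne_one hp2 hP
  set e : T := ψ (cyclo p s : ℤ_[p]) - 1
  have he : IsUnit e := by
    rw [show e = ψ ((cyclo p s : ℤ_[p]) - 1) by rw [map_sub, map_one]]
    refine RingHom.isUnit_map ψ ?_
    rw [← residue_ne_zero_iff_isUnit, Ne, residue_eq_zero_iff, PadicInt.maximalIdeal_eq_span_p,
      ← pow_one (p : ℤ_[p]), ← PadicInt.ker_toZModPow, RingHom.mem_ker, map_sub, map_one,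
      sub_eq_zero]
    exact hs1
  have hs0 : (H.ρ.ρ s - 1) (b 0) = e • b 0 := by
    have hm : ∀ j, b.repr (H.ρ.ρ s (b j)) 1 = b.repr (b j) 1 := fun j => by
      have := hLmem _ (hI s hs (b j))
      rwa [map_sub, Finsupp.sub_apply, sub_eq_zero] at this
    have hd := hdet' s
    rw [Matrix.det_fin_two, LinearMap.toMatrix_apply, LinearMap.toMatrix_apply,
      LinearMap.toMatrix_apply, LinearMap.toMatrix_apply, hm, hm, b.repr_self, b.repr_self,
      Finsupp.single_eq_same, Finsupp.single_eq_of_ne (by decide : (1 : Fin 2) ≠ 0), mul_one,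
      mul_zero, sub_zero] at hd
    rw [LinearMap.sub_apply, Module.End.one_apply]
    conv_lhs => rw [hexp (H.ρ.ρ s (b 0)), hm, h1, zero_smul, add_zero, hd]
    rw [sub_smul, one_smul]
  have hx2 : x * x = ψ (cyclo p σ : ℤ_[p]) * ψ (cyclo p σ : ℤ_[p]) := by
    have h := LinearMap.congr_fun (end_eq_of_repMat H.ρ (hkey₂ P hP σ hσ s hs)) (b 0)
    rw [Module.End.mul_apply, LinearMap.smul_apply, hs0, map_smul, map_mul, Module.End.mul_apply,
      hσ0, map_smul, hσ0, smul_smul, smul_smul, smul_smul, map_mul, Units.val_mul, map_mul] at h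
    have h2 := congrArg (fun v => b.repr v 0) h
    simp only [map_smul, Finsupp.smul_apply, b.repr_self, Finsupp.single_eq_same, smul_eq_mul,
      mul_one] at h2
    exact he.mul_left_cancel (by linear_combination h2)
  have hx : x = ψ (cyclo p σ : ℤ_[p]) * z := by
    have hu : IsUnit x := isUnit_of_mul_isUnit_left
      (show IsUnit (x * z) by rw [hxz]; exact RingHom.isUnit_map ψ (cyclo p σ).isUnit)
    refine hu.mul_left_cancel ?_
    rw [hx2, mul_left_comm, hxz]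
  refine ⟨x, z, fun w hw => ?_, fun v => ?_, fun n a ha => ?_⟩
  · rw [hL] at hw
    obtain ⟨c, rfl⟩ := Submodule.mem_span_singleton.1 hw
    rw [map_smul, hσ0, smul_comm]
  · have hb1 : H.ρ.ρ σ (b 1) - z • b 1 ∈ L := by
      conv => arg 2; rw [hexp (H.ρ.ρ σ (b 1))]
      rw [show z = b.repr (H.ρ.ρ σ (b 1)) 1 from LinearMap.toMatrix_apply _ _ _ _ _, add_sub_cancel_right]
      exact L.smul_mem _ hb0
    rw [hexp v, map_add, map_smul, map_smul, hσ0, smul_add, smul_comm z, smul_comm z,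
      add_sub_add_comm, ← smul_sub, ← smul_sub, ← sub_smul]
    exact add_mem (L.smul_mem _ (L.smul_mem _ hb0)) (L.smul_mem _ hb1)
  · obtain ⟨ζ, hζ⟩ := HasEnoughRootsOfUnity.exists_primitiveRoot (AlgebraicClosure ℚ) (p ^ n)
    have h : (cyclo p σ : ℤ_[p]) - a ∈ Ideal.span {((p : ℤ_[p]) ^ n)} := by
      rw [← PadicInt.ker_toZModPow, RingHom.mem_ker, map_sub, map_natCast,
        toZModPow_cyclo_eq_natCast p σ hζ (ha ζ hζ.pow_eq_one), sub_self]
    have h2 := Ideal.mem_map_of_mem ψ h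
    rw [Ideal.map_span, Set.image_singleton, map_sub, map_natCast, map_pow, map_natCast,
      ← Nat.cast_pow] at h2
    rw [hx, ← sub_mul]
    exact Ideal.mul_mem_right _ _ h2

/-- **Strict ordinarity from the toric identity on the Tate module.** -/
theorem isStrictOrdinaryAt_of_kills (M : MatModel N p ↑S) (hd : FrobeniusDense) (hp2 : p ≠ 2)
    (hp𝒪 : (p : 𝒪) ∈ maximalIdeal 𝒪) (H : CuspForm.HeckeGaloisRepDatum N (↑S : Set ℕ) 𝒪 θ T)
    (I : Set (CuspForm.heckeAlgebra N 2 (↑S : Set ℕ)))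
    (hI : ∀ x : T, (∀ t ∈ I, H.π t * x = 0) → x = 0)
    (hA : ∀ t ∈ I, ∀ P : ValuationSubring (AlgebraicClosure ℚ), P.LiesOverPrime p → ∀ σ : Γℚ,
      (σ ∈ P.inertiaSubgroupIn ℚ ∨ ∃ g ∈ P.decompositionSubgroup ℚ, σ = g * g) →
      ∀ τ ∈ P.inertiaSubgroupIn ℚ, castP p (M.Tm t) *
        (M.G σ * (M.G τ - 1) - (cyclo p σ : ℤ_[p]) • (M.G τ - 1)) = 0) :
    H.ρ.IsStrictOrdinaryAt p := by
  have hp : (p : T) ∈ maximalIdeal T := natCast_mem_maximalIdeal_of_map hp𝒪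
  obtain ⟨ψ⟩ := exists_padicHom p T hp
  exact isStrictOrdinaryAt_of_defect M hd hp2 H ψ hp
    (fun P hP σ hσ τ hτ => repMat_mul_sub_one_eq M hd hp2 H ψ hp I hI σ τ _
      fun t ht => hA t ht P hP σ (Or.inl hσ) τ hτ)
    (fun P hP σ hσ τ hτ => repMat_mul_sub_one_eq M hd hp2 H ψ hp I hI (σ * σ) τ _
      fun t ht => hA t ht P hP (σ * σ) (Or.inr ⟨σ, hσ, rfl⟩) τ hτ)

end FLTAgent.RT.AtP
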