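import Fermat.Agent.RT.AtP.Ring
import Fermat.Agent.RT.AtP.Expand

/-!
# Approximate roots with bounded poles and the residual equation

If `e` is a `p`-th power beyond the threshold on both components, of a function with nonzero
reductions agreeing at the crossings, then a function of the ring is a root up to `ζ - 1` and the
residual roots differ at a crossing by an element of the prime field.
-/

set_option autoImplicit false
set_option linter.unusedSectionVars false

noncomputable section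

open AlgebraicCurve

namespace FLTAgent.RT.AtP

open FLTAgent.GoodRed FLTAgent.GoodRed.RedDatum FLTAgent.FunctionField FLTAgent.Semistable

section bound

variable {K G : Type*} [Field K] [Field G] [Algebra K G] [IsFunctionField K G]

theorem ordGe_pow {w : Place K G} {z : G} {m : ℤ} (h : OrdGe w m z) (n : ℕ) :
    OrdGe w (n * m) (z ^ n) := by
  rcases eq_or_ne (z ^ n) 0 with h0 | h0
  · rw [h0]; exact ordGe_zero _
  rcases Nat.eq_zero_or_pos n with rfl | hn
  · simpa using ordGe_algebraMap (v := w) (1 : K)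
  refine ordGe_of_le_ord ?_
  rw [FunctionField.ord_pow]
  exact mul_le_mul_of_nonneg_left (h.le_ord fun hz => h0 (by rw [hz, zero_pow hn.ne']))
    (Nat.cast_nonneg n)

/-- A root of `s ^ (p - 1) v - v ^ p = a` has no more poles than `a` allows. -/
theorem mem_rr_of_residual {p : ℕ} (hp : 2 ≤ p) {P : Divisor K G} {s v a : G}
    (hs : s ∈ riemannRochSpace P) (ha : a ∈ riemannRochSpace (p • P))
    (he : a = s ^ (p - 1) * v - v ^ p) : v ∈ riemannRochSpace P := by
  obtain ⟨m, rfl⟩ : ∃ m, p = m + 1 := ⟨p - 1, by omega⟩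
  rw [Nat.add_sub_cancel] at he
  refine mem_rr_iff.2 fun w => ?_
  rcases eq_or_ne v 0 with rfl | hv
  · exact ordGe_zero _
  refine ordGe_of_le_ord ?_
  by_contra hlt
  push Not at hlt
  have hm : (1 : ℤ) ≤ m := by exact_mod_cast (by omega : 1 ≤ m)
  have h1 : OrdGe w ((m : ℤ) * (-(P w)) + w.ord v) (s ^ m * v) :=
    (ordGe_pow (mem_rr_iff.1 hs w) m).mul (ordGe_ord v)
  have h2 : OrdGe w (((m + 1 : ℕ) : ℤ) * w.ord v + 1) a := by
    refine (mem_rr_iff.1 ha w).mono ?_
    rw [Finsupp.smul_apply, nsmul_eq_mul]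
    push_cast
    nlinarith
  have h3 : OrdGe w (((m + 1 : ℕ) : ℤ) * w.ord v + 1) (s ^ m * v) := h1.mono (by
    push_cast
    nlinarith)
  have h5 := h3.sub h2
  rw [he, sub_sub_cancel] at h5
  have h4 := h5.le_ord (pow_ne_zero _ hv)
  rw [FunctionField.ord_pow] at h4
  omega

end bound

universe w

variable {L k : Type*} [Field L] [Field k] {A : ValuationSubring L} {π : A →+* k}
  {F : Type*} {C C' : Type w} [Field F] [Algebra L F] [Field C] [Algebra k C] [Field C']
  [Algebra k C'] [IsFunctionField L F] [IsFunctionField k C] [IsFunctionField k C']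
  [IsAlgClosed L] [IsAlgClosed k] {D : RedDatum A π F C} {D' : RedDatum A π F C'} {ι : Type*}
  [Fintype ι] {N : NodeSystem D D' ι} {β : ℕ × ℕ} {p : ℕ} [CharP k p] {ζ : A}

/-- A function of the ring within `ζ - 1` of `h`, with residual roots `v`, `v'`. -/
theorem exists_threshold (hp : p.Prime) (hζ : IsPrimitiveRoot ζ p) (hpL : (p : L) ≠ 0)
    (hβ : 1 ≤ β.1 + β.2) {h : F} {σ : C} {σ' : C'} (hh : D.Red h σ) (hh' : D'.Red h σ')
    (hσ : σ ≠ 0) (hσ' : σ' ≠ 0) {m : ℕ} (hpair : (σ, σ') ∈ pairs N β m) {e : F}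
    (heR : InR N β e) (hc : Close D (PTors.thr p ζ * (p : A)) e (h ^ p))
    (hc' : Close D' (PTors.thr p ζ * (p : A)) e (h ^ p)) :
    ∃ u r : F, InR N β u ∧ u = h + ((ζ - 1 : A) : L) • r ∧
      ∃ (v : C) (v' : C') (n : ℕ), D.Red r v ∧ D'.Red r v' ∧
        v ∈ riemannRochSpace (N.Pd (n * β.1) (n * β.2)) ∧
        v' ∈ riemannRochSpace (N.Qd (n * β.1) (n * β.2)) ∧
        ∀ i, valAt (N.x i) σ = 1 →
          ∃ j : ℕ, j < p ∧ (j : k) = valAt (N.y i) v' - valAt (N.x i) v := by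
  classical
  have : Fact p.Prime := ⟨hp⟩
  have hπ := D.isResidue
  obtain ⟨ne, hne⟩ := heR.2.2
  set n := max m ne + (N.c + Fintype.card ι + 1) with hn
  have hbig : N.Big (n * β.1) (n * β.2) := by
    have h1 : n ≤ n * (β.1 + β.2) := Nat.le_mul_of_pos_right n hβ
    rw [mul_add] at h1
    simp only [NodeSystem.Big]
    omega
  have hne' : e ∈ riemannRochSpace (bdiv N β (p * n)) :=
    rr_mono N β (le_trans (by omega) (Nat.le_mul_of_pos_left n hp.pos)) hne
  have hσn : (σ, σ') ∈ pairs N β n := pairs_mono N β (by omega) hpair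
  have hspace : pairSpace D D' (riemannRochSpace (bdiv N β n)) = pairs N β n := by
    have := N.hasJump_zero _ _ hbig
    rwa [add_zero] at this
  set W := riemannRochSpace (bdiv N β n) with hW
  -- the first step
  obtain ⟨u, r, hu, hur, hrV, hrV'⟩ : ∃ u r : F, u ∈ W ∧ u = h + ((ζ - 1 : A) : L) • r ∧
      r ∈ D.V ∧ r ∈ D'.V := by
    by_cases hhW : h ∈ W
    · exact ⟨h, 0, hhW, by rw [smul_zero, add_zero], zero_mem _, zero_mem _⟩
    have hh0 : h ≠ 0 := hh.ne_zero hσ
    have hW' : Module.finrank L (W ⊔ Submodule.span L {h} : Submodule L F) =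
        Module.finrank L W + 1 := by
      have e1 := Submodule.finrank_sup_add_finrank_inf_eq W (Submodule.span L {h})
      rwa [(Submodule.disjoint_span_singleton_of_notMem hhW).eq_bot, finrank_bot, add_zero,
        finrank_span_singleton hh0] at e1
    obtain ⟨⟨a, b⟩, ⟨r, hr, hra, hrb⟩, hnot⟩ : ∃ q ∈ pairSpace D D' (W ⊔ Submodule.span L {h}),
        q ∉ pairs N β n := by
      by_contra hall
      push Not at hall
      have := (N.finrank_nspace_le 1 hbig).1
      have e2 := Submodule.finrank_mono (show pairSpace D D' (W ⊔ Submodule.span L {h}) ≤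
        N.nspace 1 (n * β.1) (n * β.2) from hall)
      rw [finrank_pairSpace, hW'] at e2
      rw [pairs] at hspace
      rw [← hspace, finrank_pairSpace] at e2
      omega
    obtain ⟨u₁, hu₁, z, hz, hyz⟩ := Submodule.mem_sup.1 hr
    obtain ⟨t, rfl⟩ := Submodule.mem_span_singleton.1 hz
    have ht : t ∉ A := fun ht => hnot (by
      have h1 := hra.sub (red_smul ⟨t, ht⟩ hh)
      have h1' := hrb.sub (red_smul ⟨t, ht⟩ hh')
      rw [← hyz] at h1 h1'
      simp only [add_sub_cancel_right] at h1 h1'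
      have hm : (a - π ⟨t, ht⟩ • σ, b - π ⟨t, ht⟩ • σ') ∈ pairs N β n :=
        hspace ▸ ⟨u₁, hu₁, h1, h1'⟩
      have hsum := add_mem hm (Submodule.smul_mem _ (π ⟨t, ht⟩) hσn)
      simpa using hsum)
    have ht0 : t ≠ 0 := fun h0 => ht (h0 ▸ zero_mem _)
    have htn : t⁻¹ ∈ A.nonunits := by
      rw [ValuationSubring.inv_mem_nonunits_iff]; exact Or.inr ht
    set δ : A := -⟨t⁻¹, A.nonunits_subset htn⟩ with hδ
    have hδ0 : (δ : L) ≠ 0 := by simp [hδ, ht0]
    have hδn : (δ : L) ∈ A.nonunits := by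
      rw [← hπ.eq_zero_iff, hδ, map_neg, (hπ.eq_zero_iff _).2 htn, neg_zero]
    set u := (δ : L) • u₁ with hu
    have huh : u = h + (δ : L) • r := by
      rw [hu, ← hyz, smul_add, smul_smul, show (δ : L) * t = -1 by simp [hδ, ht0], neg_one_smul]
      abel
    by_cases hδζ : ζ - 1 ∣ δ
    · obtain ⟨η, hη⟩ := hδζ
      refine ⟨u, (η : L) • r, Submodule.smul_mem _ _ hu₁, ?_, PTors.smul_mem D η hra.mem,
        PTors.smul_mem D' η hrb.mem⟩
      rw [huh, hη, smul_smul, MulMemClass.coe_mul]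
    exfalso
    obtain ⟨η, hη⟩ := (ValuationRing.dvd_total δ (ζ - 1)).resolve_right hδζ
    have hηn : (η : L) ∈ A.nonunits := by
      rw [← hπ.eq_zero_iff]
      by_contra h1
      exact hδζ (hη ▸ (PTors.isUnit_of_residue hπ h1).mul_right_dvd.2 dvd_rfl)
    obtain ⟨w, hwp⟩ := PTors.exists_unit_natCast hπ hp hζ
    have hdiv1 : δ ^ p * η ∣ (p : A) * δ := by
      obtain ⟨s, hs⟩ := Nat.exists_eq_add_of_le hp.two_le
      refine Dvd.intro (η ^ s * w) ?_
      rw [hwp, hη, hs, show 2 + s - 1 = s + 1 by omega]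
      ring
    have hdiv2 : δ ^ p * η ∣ PTors.thr p ζ * (p : A) :=
      hdiv1.trans (Dvd.intro (η * (p : A)) (by rw [PTors.thr, hη]; ring))
    have hYr : ∀ {C₁ : Type w} [Field C₁] [Algebra k C₁] (D₁ : RedDatum A π F C₁),
        Close D₁ (PTors.thr p ζ * (p : A)) e (h ^ p) → h ∈ D₁.V → ∀ {a₁ : C₁}, D₁.Red r a₁ →
        D₁.Red (((δ ^ p : A) : L)⁻¹ • (u ^ p - e)) (a₁ ^ p) := by
      intro C₁ _ _ D₁ h₂ hhV a₁ h₃
      have h4 := ((close_add_pow (x := δ) hp hhV h₃.mem).mono hdiv1).sub (h₂.mono hdiv2)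
      rw [← huh, add_sub_cancel_left] at h4
      have hδp : ((δ ^ p : A) : L) ≠ 0 := by
        rw [SubmonoidClass.coe_pow]; exact pow_ne_zero _ hδ0
      rw [← smul_inv_smul₀ hδp (u ^ p - e)] at h4
      exact (Close.cancel hδp h4).red hηn (h₃.pow p)
    have hA := hYr D hc hh.mem hra
    have hB := hYr D' hc' hh'.mem hrb
    have hum : u ∈ W := Submodule.smul_mem _ _ hu₁
    have hYmem : ((δ ^ p : A) : L)⁻¹ • (u ^ p - e) ∈
        riemannRochSpace (N.Bd (p * (n * β.1)) (p * (n * β.2))) := by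
      rw [N.Bd_mul]
      refine Submodule.smul_mem _ _ (Submodule.sub_mem _ (PTors.pow_mem_rr hum p) ?_)
      rwa [bdiv_mul] at hne'
    obtain ⟨ha, hb⟩ := N.red_mem _ _ _ _ _ hYmem hA hB
    have ha' : a ∈ riemannRochSpace (N.Pd (n * β.1) (n * β.2)) :=
      mem_rr_of_pow_mul_mem hp.pos (s := 1) one_ne_zero
        (by rw [map_one, mul_one, ← N.Pd_mul]; exact ha)
    have hb' : b ∈ riemannRochSpace (N.Qd (n * β.1) (n * β.2)) :=
      mem_rr_of_pow_mul_mem hp.pos (s := 1) one_ne_zero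
        (by rw [map_one, mul_one, ← N.Qd_mul]; exact hb)
    refine hnot ⟨ha', hb', fun i => ?_⟩
    have hag := N.agree _ _ _ _ _ hYmem hA hB i
    rw [(valAt_pow (regular_of_mem_rr (N.Pd_x _ _ i) ha') p).2,
      (valAt_pow (regular_of_mem_rr (N.Qd_y _ _ i) hb') p).2] at hag
    rw [Pi.one_apply, one_mul]
    exact frobenius_inj k p (by simpa [frobenius_def] using hag.symm)
  -- the residual equation
  obtain ⟨v, hv⟩ := exists_red hrV
  obtain ⟨v', hv'⟩ := exists_red hrV'
  have hA := red_threshold hπ hp hζ hpL hh hσ hv hc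
  have hB := red_threshold hπ hp hζ hpL hh' hσ' hv' hc'
  rw [← hur] at hA hB
  have hYmem : ((PTors.thr p ζ : A) : L)⁻¹ • (u ^ p - e) ∈
      riemannRochSpace (N.Bd (p * (n * β.1)) (p * (n * β.2))) := by
    rw [N.Bd_mul]
    refine Submodule.smul_mem _ _ (Submodule.sub_mem _ (PTors.pow_mem_rr hu p) ?_)
    rwa [bdiv_mul] at hne'
  obtain ⟨ha, hb⟩ := N.red_mem _ _ _ _ _ hYmem hA hB
  have hvm : v ∈ riemannRochSpace (N.Pd (n * β.1) (n * β.2)) :=
    mem_rr_of_residual hp.two_le hσn.1 (by rw [← N.Pd_mul]; exact ha) rfl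
  have hvm' : v' ∈ riemannRochSpace (N.Qd (n * β.1) (n * β.2)) :=
    mem_rr_of_residual hp.two_le hσn.2.1 (by rw [← N.Qd_mul]; exact hb) rfl
  have heu : u ∈ D.V ∧ u ∈ D'.V :=
    ⟨hur ▸ add_mem hh.mem (PTors.smul_mem D _ hrV),
      hur ▸ add_mem hh'.mem (PTors.smul_mem D' _ hrV')⟩
  refine ⟨u, r, ⟨heu.1, heu.2, n, hu⟩, hur, v, v', n, hv, hv', hvm, hvm', fun i hi => ?_⟩
  have hag := N.agree _ _ _ _ _ hYmem hA hB i
  obtain ⟨gσ, gσ'⟩ := pairs_regular N β hσn i
  have gv : OrdGe (N.x i) 0 v := regular_of_mem_rr (N.Pd_x _ _ i) hvm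
  have gv' : OrdGe (N.y i) 0 v' := regular_of_mem_rr (N.Qd_y _ _ i) hvm'
  have hi' : valAt (N.y i) σ' = 1 := by rw [pairs_val N β hσn, hi]
  have key : ∀ {G : Type w} [Field G] [Algebra k G] [IsFunctionField k G] (q : Place k G) (s z : G),
      OrdGe q 0 s → OrdGe q 0 z → valAt q s = 1 →
      valAt q (s ^ (p - 1) * z - z ^ p) = valAt q z - valAt q z ^ p := by
    intro G _ _ _ q s z hs hz hs1
    have e2 : valAt q (s ^ (p - 1) * z - z ^ p + z ^ p) =
        valAt q (s ^ (p - 1) * z - z ^ p) + valAt q (z ^ p) :=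
      valAt_add (((valAt_pow hs _).1.mul hz).sub (valAt_pow hz p).1 |> fun h => by simpa using h)
        (valAt_pow hz p).1
    rw [sub_add_cancel, valAt_mul (valAt_pow hs _).1 hz, (valAt_pow hs _).2, hs1, one_pow, one_mul,
      (valAt_pow hz p).2] at e2
    exact eq_sub_of_add_eq e2.symm
  rw [key _ _ _ gσ gv hi, key _ _ _ gσ' gv' hi'] at hag
  obtain ⟨j, hj, hjk⟩ := exists_natCast_of_pow_eq hp
    (d := valAt (N.y i) v' - valAt (N.x i) v) (by rw [sub_pow_char]; linear_combination hag)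
  exact ⟨j, hj, hjk⟩

end FLTAgent.RT.AtP
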