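import Fermat.Agent.RT.AtP.UnitRootCore
import Fermat.Agent.RT.AtP.ResidualBasis
import Fermat.Agent.RT.HeckeRep.NewPart
import Fermat.Agent.RT.HeckeRep.Datum
import Fermat.Agent.RT.Cond.Basic
import Fermat.Agent.GalRep.Specializations
import Fermat.Agent.JTors.Model

/-!
# `T p` is the unit root plus `p` over it on a part of level prime to `p`

For an action of a deformation ring with cyclotomic determinant on a part, compatible with the
Frobenius traces, and a root `α` of `X ^ 2 - tr ρ σ X + χ σ` congruent to the residual unramified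
quotient at a Frobenius element `σ` over `p`, the operator `T p - (α + p / α)` is nilpotent.
-/

set_option autoImplicit false
set_option linter.style.haveILetI false

noncomputable section

open IsLocalRing Matrix

namespace FLTAgent.RT.AtP

open FLTAgent.GalRep FLTAgent.Deformation

local notation "Γℚ" => AlgebraicClosure ℚ ≃ₐ[ℚ] AlgebraicClosure ℚ

variable {p : ℕ} [Fact p.Prime] {O : Type} [CommRing O] [IsDomain O] [IsDiscreteValuationRing O]
  [IsAdicComplete (maximalIdeal O) O] [Finite (ResidueField O)]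
  {ρbar : ResidualGaloisRep (ResidueField O)}
  {𝒟 : ∀ ⦃A : Type⦄ [CommRing A] [IsLocalRing A] [Algebra O A], GaloisRepAdic A → Prop}

/-- The residual hypotheses at a Frobenius element `σ` over `p`: a line with trivial inertia and
value `ε` of `σ` on the quotient. -/
def HasUnramifiedQuotient (ρbar : ResidualGaloisRep (ResidueField O))
    (P : ValuationSubring (AlgebraicClosure ℚ)) (σ : Γℚ) (ε : O) : Prop :=
  ∃ L : Submodule (ResidueField O) ρbar.V,
    (∃ b : Module.Basis (Fin 2) (ResidueField O) ρbar.V, L = ResidueField O ∙ b 0) ∧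
    (∀ s ∈ P.inertiaSubgroupIn ℚ, ∀ v, ρbar.ρ s v - v ∈ L) ∧
    ∀ v, ρbar.ρ σ v - residue O ε • v ∈ L

set_option maxHeartbeats 800000 in
-- several residual representations
/-- **The unit root at a point of the deformation ring.** -/
theorem eigenvalue_eq_point (hp2 : p ≠ 2) (hp : (p : O) ∈ maximalIdeal O)
    (Dat : GaloisRep.DeformationRingData O ρbar 𝒟) (hdetc : Dat.ρ.DetIsCyclotomic p)
    (hord : (GaloisRepAdic.ofResidualGaloisRep ρbar).IsOrdinaryAt p) (ψ : ℤ_[p] →+* O)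
    {P : ValuationSubring (AlgebraicClosure ℚ)} (hP : P.LiesOverPrime p) {σ : Γℚ}
    (hσ : P.IsFrobeniusAt σ p) (hv : IsUnit (ψ (cyclo p σ : ℤ_[p]) - 1)) {ε : O}
    (hε : ε * ε = 1) (hval : HasUnramifiedQuotient ρbar P σ ε)
    {α β : Dat.R}
    (hα : α ^ 2 - Dat.ρ.trace σ * α + algebraMap O Dat.R (ψ (cyclo p σ : ℤ_[p])) = 0)
    (hαε : α - algebraMap O Dat.R ε ∈ maximalIdeal Dat.R) (hαβ : α * β = 1)
    {N : ℕ} [NeZero N] {S : Finset ℕ} (hS : levelPrimes N ⊆ (↑S : Set ℕ)) (hpN : ¬ p ∣ N)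
    (hpS : p ∉ (↑S : Set ℕ)) {B : Type} [CommRing B] [IsLocalRing B]
    [IsAdicComplete (maximalIdeal B) B] [Finite (ResidueField B)] [Algebra O B]
    (x : Dat.R →ₐ[O] B) (hx : IsLocalHom (x : Dat.R →+* B))
    (χ : CuspForm.heckeAlgebra N 2 (↑S : Set ℕ) →+* B)
    (hχ : IsAttached p χ (Dat.ρ.baseChangeAlong (x : Dat.R →+* B) hx)) :
    χ (CuspForm.heckeAlgebra.T (Fact.out : p.Prime) hpN hpS) = x (α + (p : Dat.R) * β) := by
  classical
  set ρ := Dat.ρ.baseChangeAlong (x : Dat.R →+* B) hx with hρ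
  let ψB : ℤ_[p] →+* B := (algebraMap O B).comp ψ
  have hR := isCoeff_deformationRing Dat
  have hpR : (p : Dat.R) ∈ maximalIdeal Dat.R := RTCond.natCast_mem_maximalIdeal hp hR
  have hpB : (p : B) ∈ maximalIdeal B := by
    rw [← map_natCast (x : Dat.R →+* B)]
    exact map_nonunit (x : Dat.R →+* B) _ hpR
  have hdet : ∀ g, (repMat ρ g).det = ψB (cyclo p g : ℤ_[p]) := fun g => by
    have h := (RTCond.detIsCyclotomic_iff ψ hp hR Dat.ρ).1 hdetc g
    rw [RTCond.det_stdMatrix, sub_eq_zero] at h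
    let : Algebra Dat.R B := (x : Dat.R →+* B).toAlgebra
    refine (LinearMap.det_toMatrix (repBasis ρ) (ρ.ρ g)).trans ?_
    refine (LinearMap.det_baseChange (Dat.ρ.ρ g)).trans ?_
    rw [h]
    exact x.commutes _
  -- residual bases
  let jj : ResidueField O →+* ResidueField B :=
    (haveI := hx; ResidueField.map (x : Dat.R →+* B)).comp
      (ResidueField.map (algebraMap O Dat.R))
  have hjj : ∀ o, jj (residue O o) = residue B (algebraMap O B o) := fun o => by
    have := hx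
    simp only [jj, RingHom.comp_apply, ResidueField.map_residue]
    exact congrArg (residue B) (x.commutes o)
  have hbasis := exists_basis_residual_baseChange_of_isEquiv Dat.ρ (x : Dat.R →+* B) hx
    Dat.residual_isEquiv
  have habs : ρ.residual.IsAbsolutelyIrreducible := by
    refine Carayol.isAbsolutelyIrreducible_of_trace_eq
      (isAbsolutelyIrreducible_baseChangeAlong jj ρbar Dat.absIrr) fun g => ?_
    let b := Module.finBasisOfFinrankEq (ResidueField O) ρbar.V ρbar.finrank_eq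
    obtain ⟨b', hb'⟩ := hbasis b
    let : Algebra (ResidueField O) (ResidueField B) := jj.toAlgebra
    refine (LinearMap.trace_baseChange (ρbar.ρ g) (ResidueField B)).trans ?_
    rw [LinearMap.trace_eq_matrix_trace _ b, LinearMap.trace_eq_matrix_trace _ b', hb',
      Matrix.trace_fin_two, Matrix.trace_fin_two, map_add]
    rfl
  have hres : (GaloisRepAdic.ofResidualGaloisRep ρ.residual).IsOrdinaryAt p := by
    intro P' hP'
    obtain ⟨L, ⟨e, rfl⟩, hD, hI⟩ := hord P' hP'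
    let e' : Module.Basis (Fin 2) (ResidueField O) ρbar.V := e
    obtain ⟨b', hb'⟩ := hbasis e'
    refine ⟨_, ⟨b', rfl⟩, fun g hg => ?_, fun s hs v => ?_⟩
    · refine (map_mem_line_iff b' (ρ.residual.ρ g)).2 ?_
      rw [hb', RingHom.mapMatrix_apply, Matrix.map_apply,
        (map_mem_line_iff e' (ρbar.ρ g)).1 (hD g hg), map_zero]
    · have h := (sub_smul_mem_line_iff e' (ρbar.ρ s) 1).1
        (fun v => by rw [one_smul]; exact hI s hs v)
      have := (sub_smul_mem_line_iff b' (ρ.residual.ρ s) 1).2 (by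
        rw [hb', RingHom.mapMatrix_apply, Matrix.map_apply, Matrix.map_apply, h.1, h.2, map_zero,
          map_one]
        exact ⟨rfl, rfl⟩) v
      rwa [one_smul] at this
  have hline : ∀ s ∈ P.inertiaSubgroupIn ℚ,
      (FlatModel.residualMat ρ s - residue B (ψB (cyclo p s : ℤ_[p])) • 1) *
        (FlatModel.residualMat ρ σ - residue B (algebraMap O B ε) • 1) = 0 := by
    intro s hs
    obtain ⟨L, ⟨b, rfl⟩, hI, hE⟩ := hval
    obtain ⟨b', hb'⟩ := hbasis b
    set c := residue B (ψB (cyclo p s : ℤ_[p]))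
    set X := ρ.residual.ρ s
    set Y := ρ.residual.ρ σ
    have hs1 := (sub_smul_mem_line_iff b (ρbar.ρ s) 1).1
      (fun v => by rw [one_smul]; exact hI s hs v)
    have hσ1 := (sub_smul_mem_line_iff b (ρbar.ρ σ) _).1 hE
    have hX1 : LinearMap.toMatrix b' b' X 1 0 = 0 ∧ LinearMap.toMatrix b' b' X 1 1 = 1 := by
      rw [hb', RingHom.mapMatrix_apply, Matrix.map_apply, Matrix.map_apply, hs1.1, hs1.2, map_zero,
        map_one]
      exact ⟨rfl, rfl⟩
    have hY1 : LinearMap.toMatrix b' b' Y 1 0 = 0 ∧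
        LinearMap.toMatrix b' b' Y 1 1 = residue B (algebraMap O B ε) := by
      rw [hb', RingHom.mapMatrix_apply, Matrix.map_apply, Matrix.map_apply, hσ1.1, hσ1.2, map_zero]
      exact ⟨rfl, hjj ε⟩
    let tb : Module.Basis (Fin 2) (ResidueField B) ρ.residual.V :=
      Algebra.TensorProduct.basis (ResidueField B) (repBasis ρ)
    have htb : ∀ g, FlatModel.residualMat ρ g = LinearMap.toMatrix tb tb (ρ.residual.ρ g) :=
      fun g => FlatModel.residualMat_eq_toMatrix ρ g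
    have hX00 : LinearMap.toMatrix b' b' X 0 0 = c := by
      have h : (LinearMap.toMatrix b' b' X).det = c := by
        rw [LinearMap.det_toMatrix, ← LinearMap.det_toMatrix tb, ← htb]
        show ((residue B).mapMatrix (repMat ρ s)).det = c
        rw [← RingHom.map_det, hdet]
      rwa [Matrix.det_fin_two, hX1.1, hX1.2, mul_one, mul_zero, sub_zero] at h
    have hzero : LinearMap.toMatrix b' b'
        ((X - c • 1) * (Y - residue B (algebraMap O B ε) • 1)) = 0 := by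
      rw [LinearMap.toMatrix_mul, map_sub, map_sub, map_smul, map_smul, LinearMap.toMatrix_one]
      ext i k
      fin_cases i <;> fin_cases k <;>
        simp [Matrix.mul_apply, Fin.sum_univ_two, hX1.1, hX1.2, hX00, hY1.1, hY1.2]
    have h0 : (X - c • 1) * (Y - residue B (algebraMap O B ε) • 1) = 0 :=
      (LinearMap.toMatrix b' b').map_eq_zero_iff.1 hzero
    have := congrArg (LinearMap.toMatrix tb tb) h0
    rw [LinearMap.toMatrix_mul, map_sub, map_sub, map_smul, map_smul, LinearMap.toMatrix_one,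
      map_zero, ← htb, ← htb] at this
    exact this
  rw [map_add, map_mul, map_natCast]
  refine eigenvalue_eq (JTors.torsionModel N p) (galoisFacts specializationsExist N p) hS hpN hpS
    GalRep.frobeniusDense hp2 ψB hpB hχ hdet habs hres hP hσ ?_ (ε := algebraMap O B ε) ?_ hline
    (α := x α) (β := x β) ?_ ?_ ?_
  · show IsUnit (algebraMap O B (ψ (cyclo p σ : ℤ_[p])) - 1)
    rw [← map_one (algebraMap O B), ← map_sub]
    exact hv.map _
  · rw [← map_mul, hε, map_one]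
  · rw [CommAlg.trace_baseChangeAlong]
    show x α ^ 2 - x (Dat.ρ.trace σ) * x α + algebraMap O B (ψ (cyclo p σ : ℤ_[p])) = 0
    rw [← x.commutes, ← map_pow, ← map_mul, ← map_sub, ← map_add, hα, map_zero]
  · rw [← x.commutes, ← map_sub]
    exact map_nonunit (x : Dat.R →+* B) _ hαε
  · rw [← map_mul, hαβ, map_one]

/-- The same for an action on a finite free module with an operator commuting with it. -/
theorem isNilpotent_unitRoot_end [CharZero O] (hp2 : p ≠ 2) (hp : (p : O) ∈ maximalIdeal O)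
    (Dat : GaloisRep.DeformationRingData O ρbar 𝒟) (hdetc : Dat.ρ.DetIsCyclotomic p)
    (hord : (GaloisRepAdic.ofResidualGaloisRep ρbar).IsOrdinaryAt p) (ψ : ℤ_[p] →+* O)
    {P : ValuationSubring (AlgebraicClosure ℚ)} (hP : P.LiesOverPrime p) {σ : Γℚ}
    (hσ : P.IsFrobeniusAt σ p) (hv : IsUnit (ψ (cyclo p σ : ℤ_[p]) - 1)) {ε : O}
    (hε : ε * ε = 1) (hval : HasUnramifiedQuotient ρbar P σ ε)
    {α β : Dat.R}
    (hα : α ^ 2 - Dat.ρ.trace σ * α + algebraMap O Dat.R (ψ (cyclo p σ : ℤ_[p])) = 0)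
    (hαε : α - algebraMap O Dat.R ε ∈ maximalIdeal Dat.R) (hαβ : α * β = 1)
    {N : ℕ} [NeZero N] (T : Finset ℕ) (hKT : ∀ r : ℕ, r.Prime → r ∣ N → r ∈ T)
    (hpp : p.Prime) (hpN : ¬ p ∣ N) (hpT : p ∉ (↑T : Set ℕ)) {P₀ : Type} [AddCommGroup P₀]
    [Module O P₀] [Module.Finite O P₀] [Module.Free O P₀] (φ : Dat.R →ₐ[O] Module.End O P₀)
    (Θ : CuspForm.heckeAlgebra N 2 (↑T : Set ℕ) →+* Module.End O P₀)
    (hcomm : ∀ r, Commute (Θ (CuspForm.heckeAlgebra.T hpp hpN hpT)) (φ r))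
    (hΘ : ∀ (ℓ : ℕ) (hℓ : ℓ.Prime) (hℓN : ¬ ℓ ∣ N) (hℓT : ℓ ∉ (↑T : Set ℕ)), ℓ ≠ p →
      ∀ A : ValuationSubring (AlgebraicClosure ℚ), A.LiesOverPrime ℓ →
        ∀ σ' : Γℚ, A.IsFrobeniusAt σ' ℓ →
          φ (Dat.ρ.trace σ') = Θ (CuspForm.heckeAlgebra.T hℓ hℓN hℓT)) :
    IsNilpotent (φ (α + (p : Dat.R) * β) - Θ (CuspForm.heckeAlgebra.T hpp hpN hpT)) := by
  classical
  -- the commutative algebra acting
  let A₀ : Subalgebra O (Module.End O P₀) :=
    Algebra.adjoin O (insert (Θ (CuspForm.heckeAlgebra.T hpp hpN hpT)) (Set.range φ))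
  have : IsMulCommutative A₀ := Algebra.isMulCommutative_adjoin O (by
    rintro x (rfl | ⟨r, rfl⟩) y (rfl | ⟨s, rfl⟩)
    · rfl
    · exact hcomm s
    · exact (hcomm r).symm
    · exact (Commute.all r s).map φ)
  let _ : CommRing A₀ := { A₀.toRing with mul_comm := mul_comm' }
  have : Module.Finite O A₀ := Module.Finite.of_injective A₀.val.toLinearMap Subtype.val_injective
  have : Module.IsTorsionFree O A₀ :=
    Function.Injective.moduleIsTorsionFree A₀.val Subtype.val_injective (fun c x => rfl)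
  have : Module.Free O A₀ := @Module.free_of_finite_type_torsion_free' O _ A₀ _ _ _ _ _ _
  have hmem : ∀ t, Θ t ∈ A₀ := by
    rintro ⟨t, ht⟩
    induction ht using Algebra.adjoin_induction with
    | mem x hx =>
      rcases hx with ⟨ℓ, hℓ, hℓN, hℓS, rfl⟩ | ⟨r, hrN, hr, hrS, rfl⟩
      · show Θ (CuspForm.heckeAlgebra.T hℓ hℓN hℓS) ∈ A₀
        by_cases hℓp : ℓ = p
        · subst hℓp
          exact Algebra.subset_adjoin (Set.mem_insert _ _)
        · obtain ⟨A, hAℓ, σ', hσ'⟩ := CommAlg.exists_liesOverPrime_isFrobeniusAt hℓ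
          rw [← hΘ ℓ hℓ hℓN hℓS hℓp A hAℓ σ' hσ']
          exact Algebra.subset_adjoin (Set.mem_insert_of_mem _ ⟨_, rfl⟩)
      · exact absurd (Finset.mem_coe.mpr (hKT r hr hrN)) hrS
    | algebraMap n =>
      rw [show (⟨_, algebraMap_mem (CuspForm.heckeAlgebra N 2 (↑T : Set ℕ)) n⟩ :
        CuspForm.heckeAlgebra N 2 (↑T : Set ℕ)) = algebraMap ℤ _ n from rfl, eq_intCast,
        map_intCast]
      exact intCast_mem A₀ n
    | add x y hx hy ihx ihy =>
      rw [show (⟨x + y, _⟩ : CuspForm.heckeAlgebra N 2 (↑T : Set ℕ)) = ⟨x, hx⟩ + ⟨y, hy⟩ from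
        rfl, map_add]
      exact add_mem ihx ihy
    | mul x y hx hy ihx ihy =>
      rw [show (⟨x * y, _⟩ : CuspForm.heckeAlgebra N 2 (↑T : Set ℕ)) = ⟨x, hx⟩ * ⟨y, hy⟩ from
        rfl, map_mul]
      exact mul_mem ihx ihy
  let φ₁ : Dat.R →ₐ[O] A₀ :=
    φ.codRestrict A₀ fun r => Algebra.subset_adjoin (Set.mem_insert_of_mem _ ⟨r, rfl⟩)
  let ΘA : CuspForm.heckeAlgebra N 2 (↑T : Set ℕ) →+* A₀ := Θ.codRestrict A₀ hmem
  have hnil : IsNilpotent
      (φ₁ (α + (p : Dat.R) * β) - ΘA (CuspForm.heckeAlgebra.T hpp hpN hpT)) := by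
    refine isNilpotent_of_forall_point (O := O) _ fun χ' => ?_
    have : Module.Finite O χ'.range :=
      Module.Finite.of_surjective χ'.rangeRestrict.toLinearMap χ'.rangeRestrict_surjective
    have hKinj : Function.Injective (algebraMap O (AlgebraicClosure (FractionRing O))) := by
      rw [IsScalarTower.algebraMap_eq O (FractionRing O) (AlgebraicClosure (FractionRing O))]
      exact (algebraMap (FractionRing O) _).injective.comp (IsFractionRing.injective O _)
    obtain ⟨B, _, _, _, _, _, _, _, _, hlocB, iotaB, hiotaB⟩ :=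
      NewPart.exists_dvr_extension O χ'.range fun c d h => hKinj (congrArg Subtype.val h)
    let x : Dat.R →ₐ[O] B := (iotaB.comp χ'.rangeRestrict).comp φ₁
    have hx : IsLocalHom (x : Dat.R →+* B) := by
      refine ⟨fun r hr => ?_⟩
      by_contra hru
      obtain ⟨k, hk⟩ := Patch.exists_map_pow_eq_zero
        ((residue B).comp (x : Dat.R →+* B)) ((IsLocalRing.mem_maximalIdeal r).mpr hru)
      exact (hr.map (residue B)).ne_zero (eq_zero_of_pow_eq_zero hk)
    have key := eigenvalue_eq_point hp2 hp Dat hdetc hord ψ hP hσ hv hε hval hα hαε hαβ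
      (fun r hr => Finset.mem_coe.mpr (hKT r hr.1 hr.2)) hpN hpT x hx
      (((iotaB.comp χ'.rangeRestrict : A₀ →ₐ[O] B) : A₀ →+* B).comp ΘA)
      (fun ℓ hℓ hℓN hℓT hℓp A hAℓ σ' hσ' => by
        rw [CommAlg.trace_baseChangeAlong, RingHom.comp_apply]
        exact congrArg (iotaB.comp χ'.rangeRestrict)
          (Subtype.ext (hΘ ℓ hℓ hℓN hℓT hℓp A hAℓ σ' hσ')))
    refine congrArg Subtype.val (hiotaB (?_ : iotaB (χ'.rangeRestrict _) = iotaB 0))
    rw [map_zero, map_sub, map_sub, sub_eq_zero]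
    exact key.symm
  obtain ⟨k, hk⟩ := hnil
  refine ⟨k, ?_⟩
  have := congrArg Subtype.val hk
  exact this


section Part

variable {M N : ℕ} {D : Type} [CommGroup D] [Fintype D] {χ : (ZMod M)ˣ →* D}
  [Fact (Odd (Nat.card D))] [NeZero N] [CharZero O] {ι : Type} {l : ι → ℕ} {a : ι → O}
  (hMN : M ∣ N) (hl : ∀ i, (l i).Prime) {S₁ : Finset ℕ}

set_option maxHeartbeats 1600000 in
-- the Hecke algebra of the part
/-- **`T p = α + p / α` up to nilpotents on a part of level prime to `p`.** -/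
theorem isNilpotent_unitRoot_sub (h𝒟 : GaloisRep.IsDeformationCondition O 𝒟)
    (Dat : GaloisRep.DeformationRingData O ρbar 𝒟) (hdetc : Dat.ρ.DetIsCyclotomic p)
    (hNE : NonEis l a) (hsq : Squarefree M) (hex : ∀ r : ℕ, r.Prime → r ∣ M → ¬ r ^ 2 ∣ N)
    (hp2 : p ≠ 2) (hp : (p : O) ∈ maximalIdeal O) (hpN : ¬ p ∣ N)
    (hord : (GaloisRepAdic.ofResidualGaloisRep ρbar).IsOrdinaryAt p) (ψ : ℤ_[p] →+* O)
    {P : ValuationSubring (AlgebraicClosure ℚ)} (hP : P.LiesOverPrime p) {σ : Γℚ}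
    (hσ : P.IsFrobeniusAt σ p) (hv : IsUnit (ψ (cyclo p σ : ℤ_[p]) - 1)) {ε : O}
    (hε : ε * ε = 1) (hval : HasUnramifiedQuotient ρbar P σ ε)
    {α β : Dat.R}
    (hα : α ^ 2 - Dat.ρ.trace σ * α + algebraMap O Dat.R (ψ (cyclo p σ : ℤ_[p])) = 0)
    (hαε : α - algebraMap O Dat.R ε ∈ maximalIdeal Dat.R) (hαβ : α * β = 1)
    {φ : Dat.R →ₐ[O] Module.End O (cohPart χ hMN hl a)} (hφ : Sys.IsFrobCompat Dat S₁ φ)
    (Tp : Module.End O (cohPart χ hMN hl a))
    (hTp : ∀ v, (Tp v : Coh N χ O) = opT O O χ hMN (Fact.out : p.Prime) hpN v) :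
    IsNilpotent (φ (α + (p : Dat.R) * β) - Tp) := by
  classical
  have hpp : p.Prime := Fact.out
  have := isAddTorsionFree_of_charZero (O := O)
  have : NeZero M := ⟨fun h => NeZero.ne N (Nat.eq_zero_of_zero_dvd (h ▸ hMN))⟩
  have := moduleFinite_coh (χ := χ) O O hMN
  have := isNoetherian_of_isNoetherianRing_of_finite O (Coh N χ O)
  have : Module.IsTorsionFree O (Coh N χ O) := Function.Injective.moduleIsTorsionFree
    (fun φ x => φ x) (fun _ _ h => DFunLike.ext' h) (fun _ _ => rfl)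
  have : Module.IsTorsionFree O (cohPart χ hMN hl a) := Function.Injective.moduleIsTorsionFree
    (fun z : cohPart χ hMN hl a => (z : Coh N χ O)) Subtype.val_injective (fun _ _ => rfl)
  have : Module.Finite O (cohPart χ hMN hl a) := inferInstance
  have : Module.Free O (cohPart χ hMN hl a) :=
    @Module.free_of_finite_type_torsion_free' O _ _ _ _ _ _ _ _
  -- the Hecke algebra of level `N M` on the part, `p` kept
  let T : Finset ℕ := (S₁ ∪ (N * M).primeFactors).erase p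
  have hpNM : ¬ p ∣ N * M := fun h =>
    (hpp.dvd_mul.1 h).elim hpN fun h' => hpN (h'.trans hMN)
  have hpT : p ∉ (↑T : Set ℕ) := fun h => Finset.notMem_erase p _ (Finset.mem_coe.1 h)
  have hKT : ∀ r : ℕ, r.Prime → r ∣ N * M → r ∈ T := fun r hr hd => Finset.mem_erase.mpr
    ⟨fun e => hpNM (e ▸ hd), Finset.mem_union_right _
      (Nat.mem_primeFactors.mpr ⟨hr, hd, NeZero.ne _⟩)⟩
  have hST : ∀ ℓ : ℕ, ℓ ≠ p → ℓ ∉ (↑T : Set ℕ) → ℓ ∉ S₁ := fun ℓ hℓp h hS =>
    h (Finset.mem_coe.mpr (Finset.mem_erase.mpr ⟨hℓp, Finset.mem_union_left _ hS⟩))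
  obtain ⟨Θ, hΘT, -⟩ := exists_thetaP (χ := χ) (O := O) (N' := N * M) hMN hl a hNE hsq hex rfl
    (↑T : Set ℕ) (fun r hr hd => Finset.mem_coe.mpr (hKT r hr (hd.mul_left N)))
  have hTpΘ : Θ (CuspForm.heckeAlgebra.T hpp hpNM hpT) = Tp := LinearMap.ext fun v =>
    Subtype.ext ((hΘT p hpp hpNM hpT v).trans
      (by rw [hTp, opP_of_not_dvd (χ := χ) O O hMN hpp hpN]))
  have hΘ : ∀ (ℓ : ℕ) (hℓ : ℓ.Prime) (hℓN : ¬ ℓ ∣ N * M) (hℓT : ℓ ∉ (↑T : Set ℕ)), ℓ ≠ p →
      ∀ A : ValuationSubring (AlgebraicClosure ℚ), A.LiesOverPrime ℓ →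
        ∀ σ' : Γℚ, A.IsFrobeniusAt σ' ℓ →
          φ (Dat.ρ.trace σ') = Θ (CuspForm.heckeAlgebra.T hℓ hℓN hℓT) :=
    fun ℓ hℓ hℓN hℓT hℓp A hAℓ σ' hσ' => LinearMap.ext fun v => Subtype.ext
      ((hφ ℓ hℓ (hST ℓ hℓp hℓT) A hAℓ σ' hσ' v).trans (hΘT ℓ hℓ hℓN hℓT v).symm)
  have hcomm : ∀ r, Tp ∘ₗ φ r = φ r ∘ₗ Tp := by
    refine Sys.intertwine_of_frobTraces h𝒟 Dat S₁ φ φ Tp ?_
    rintro _ ⟨ℓ, hℓ, hℓS, A, hAℓ, σ', hσ', rfl⟩
    refine LinearMap.ext fun v => Subtype.ext ?_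
    rw [LinearMap.comp_apply, LinearMap.comp_apply, hφ ℓ hℓ hℓS A hAℓ σ' hσ', hTp, hTp,
      hφ ℓ hℓ hℓS A hAℓ σ' hσ', ← opP_of_not_dvd (χ := χ) O O hMN hpp hpN,
      ← Module.End.mul_apply, (opP_comm (χ := χ) O O hMN hpp hℓ).eq, Module.End.mul_apply]
  have h := isNilpotent_unitRoot_end hp2 hp Dat hdetc hord ψ hP hσ hv hε hval hα hαε hαβ T hKT
    hpp hpNM hpT φ Θ (fun r => by rw [hTpΘ]; exact hcomm r) hΘ
  rwa [hTpΘ] at h

end Part

end FLTAgent.RT.AtP
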