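import Fermat.Agent.RT.AtP.LevelKill
import Fermat.Agent.Frobenius.Places

/-!
# The eigenvalue of `T p` is the unit root plus `p` over it

For a system of level prime to `p` with residually ordinary representation, the value `a` of `T p`
satisfies `a = α + p / α`, where `α` is the root of `X ^ 2 - tr ρ σ X + χ σ` congruent to the
unramified quotient at a Frobenius element `σ` with residually non trivial cyclotomic value.
-/

set_option autoImplicit false

namespace FLTAgent.RT.AtP

open Matrix GalRep IsLocalRing FlatModel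
open scoped Pointwise

local notation "Γℚ" => AlgebraicClosure ℚ ≃ₐ[ℚ] AlgebraicClosure ℚ

section two

variable {R : Type*} [CommRing R]

theorem mul_self_fin_two (X : Matrix (Fin 2) (Fin 2) R) :
    X * X = X.trace • X - X.det • (1 : Matrix (Fin 2) (Fin 2) R) := by
  ext i j
  fin_cases i <;> fin_cases j <;>
    simp [Matrix.mul_apply, Fin.sum_univ_two, det_fin_two, Matrix.trace_fin_two] <;> ring

/-- A singular matrix multiplies into itself by a scalar. -/
theorem mul_mul_eq_trace_smul {D : Matrix (Fin 2) (Fin 2) R} (hD : D.det = 0)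
    (X : Matrix (Fin 2) (Fin 2) R) : D * X * D = (D * X).trace • D := by
  rw [det_fin_two] at hD
  ext i j
  fin_cases i <;> fin_cases j <;>
    simp [Matrix.mul_apply, Fin.sum_univ_two, Matrix.trace_fin_two]
  · linear_combination -X 1 1 * hD
  · linear_combination X 0 1 * hD
  · linear_combination X 1 0 * hD
  · linear_combination -X 0 0 * hD

theorem eq_zero_of_smul_eq_zero {D : Matrix (Fin 2) (Fin 2) R} (hD : IsUnit D.trace) {x : R}
    (h : x • D = 0) : x = 0 := by
  have := congrArg Matrix.trace h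
  rw [Matrix.trace_smul, Matrix.trace_zero, smul_eq_mul] at this
  exact hD.mul_left_eq_zero.1 this

end two

variable {p : ℕ} [Fact p.Prime] {N : ℕ} [NeZero N] {S : Finset ℕ}
  {B : Type} [CommRing B] [IsLocalRing B] [IsAdicComplete (IsLocalRing.maximalIdeal B) B]
  [Finite (IsLocalRing.ResidueField B)]

set_option quotPrecheck false in
local notation "𝕋" => CuspForm.heckeAlgebra N 2 (↑S : Set ℕ)

set_option maxHeartbeats 800000 in
-- many matrix identities
/-- **The unit root.** -/
theorem eigenvalue_eq (TN : TorsionModel N p) (hG : GaloisFacts N p)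
    (hS : levelPrimes N ⊆ (↑S : Set ℕ)) (hpN : ¬ p ∣ N) (hpS : p ∉ (↑S : Set ℕ))
    (hd : FrobeniusDense) (hp2 : p ≠ 2) (ψ : ℤ_[p] →+* B) (hp : (p : B) ∈ maximalIdeal B)
    {χ : 𝕋 →+* B} {ρ : GaloisRepAdic B} (hρ : IsAttached p χ ρ)
    (hdet : ∀ g, (repMat ρ g).det = ψ (cyclo p g : ℤ_[p]))
    (habs : ρ.residual.IsAbsolutelyIrreducible)
    (hres : (GaloisRepAdic.ofResidualGaloisRep ρ.residual).IsOrdinaryAt p)
    {A : ValuationSubring (AlgebraicClosure ℚ)} (hA : A.LiesOverPrime p) {σ : Γℚ}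
    (hσ : A.IsFrobeniusAt σ p) (hv : IsUnit (ψ (cyclo p σ : ℤ_[p]) - 1))
    {ε : B} (hε : ε * ε = 1)
    (hline : ∀ s ∈ A.inertiaSubgroupIn ℚ,
      (residualMat ρ s - residue B (ψ (cyclo p s : ℤ_[p])) • 1) *
        (residualMat ρ σ - residue B ε • 1) = 0)
    {α β : B} (hα : α ^ 2 - ρ.trace σ * α + ψ (cyclo p σ : ℤ_[p]) = 0)
    (hαε : α - ε ∈ maximalIdeal B) (hαβ : α * β = 1) :
    χ (CuspForm.heckeAlgebra.T (Fact.out : p.Prime) hpN hpS) = α + (p : B) * β := by
  classical
  have hk := exists_level_kill TN hG hS hpN hpS hd hp2 ψ hp hρ hdet habs hres hA hσ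
  generalize CuspForm.heckeAlgebra.T (Fact.out : p.Prime) hpN hpS = Tp at hk ⊢
  set a := χ Tp with ha
  set R := repMat ρ with hR
  -- the identities in the representation
  have hkey : ∀ s ∈ A.inertiaSubgroupIn ℚ, ∀ τ ∈ A.inertiaSubgroupIn ℚ,
      (R s - ψ (cyclo p s : ℤ_[p]) • 1) * (R τ - 1) = 0 := by
    intro s hs τ hτ
    have h := sum_repMat_eq_zero (TN.matModel hG hS) hd hp2 ψ hp hρ hdet habs
      ![(1 : ℤ_[p]), -1, -(cyclo p s : ℤ_[p]), (cyclo p s : ℤ_[p])] (fun _ => 1)
      ![s * τ, s, τ, 1] fun n hn => by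
        obtain ⟨e, he, h⟩ := hk n hn
        refine ⟨e, he, ?_⟩
        rw [← (h s hs).1 τ hτ]
        congr 2
        simp [Fin.sum_univ_four, mul_sub, smul_sub, map_mul]
        abel
    rw [← h]
    simp [Fin.sum_univ_four, mul_sub, sub_mul, map_mul, smul_sub, hR]
    abel
  have hcong : ∀ s ∈ A.inertiaSubgroupIn ℚ,
      (R s - ψ (cyclo p s : ℤ_[p]) • 1) * (R σ * R σ - a • R σ + (p : B) • 1) = 0 := by
    intro s hs
    have h := sum_repMat_eq_zero (TN.matModel hG hS) hd hp2 ψ hp hρ hdet habs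
      ![(1 : ℤ_[p]), -(cyclo p s : ℤ_[p]), -1, (cyclo p s : ℤ_[p]), (p : ℤ_[p]),
        -((p : ℤ_[p]) * (cyclo p s : ℤ_[p]))] ![1, 1, Tp, Tp, 1, 1]
      ![s * σ * σ, σ * σ, s * σ, σ, s, 1] fun n hn => by
        obtain ⟨e, he, h⟩ := hk n hn
        refine ⟨e, he, ?_⟩
        rw [← (h s hs).2]
        congr 2
        have hc := ((TN.matModel hG hS).G_comm s Tp)
        simp only [Fin.sum_univ_succ, Fin.sum_univ_zero, map_mul, map_one, Matrix.cons_val_zero,
          Matrix.cons_val_succ, Matrix.one_mul, neg_smul, one_smul, mul_sub, sub_mul, mul_add,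
          smul_mul_assoc, mul_smul_comm, Matrix.mul_one, ← Matrix.mul_assoc, hc]
        module
    rw [← h]
    simp only [Fin.sum_univ_succ, Fin.sum_univ_zero, map_mul, map_one, map_neg, map_natCast,
      Matrix.cons_val_zero, Matrix.cons_val_succ, mul_sub, sub_mul, mul_add, hR, ← ha,
      smul_mul_assoc, mul_smul_comm, Matrix.mul_one, Matrix.one_mul, ← Matrix.mul_assoc]
    module
  obtain ⟨s, hs, hs1⟩ := exists_cyclo_ne_one hp2 hA
  set v := ψ (cyclo p σ : ℤ_[p]) with hv'
  set c := ψ (cyclo p s : ℤ_[p]) with hc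
  have hc1 : IsUnit (c - 1) := by
    rw [hc, ← map_one ψ, ← map_sub]
    refine RingHom.isUnit_map ψ ?_
    rw [← residue_ne_zero_iff_isUnit, Ne, residue_eq_zero_iff, PadicInt.maximalIdeal_eq_span_p,
      ← pow_one (p : ℤ_[p]), ← PadicInt.ker_toZModPow, RingHom.mem_ker, map_sub, map_one,
      sub_eq_zero]
    exact hs1
  set D := R s - c • 1 with hD
  have hsinv : R s * R s⁻¹ = 1 := by rw [hR, ← map_mul, mul_inv_cancel, map_one]
  have htrs : ρ.trace s = 1 + c := by
    have h1 : R s * R s - (1 + c) • R s + c • 1 = 0 := by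
      rw [← hkey s hs s hs]
      simp only [sub_mul, mul_sub, ← hc, smul_mul_assoc, Matrix.one_mul, Matrix.mul_one,
        smul_sub, add_smul, one_smul]
      abel
    rw [mul_self_fin_two, hR, hdet, trace_repMat, ← hc, ← hR] at h1
    have h2 : (ρ.trace s - (1 + c)) • R s = 0 := by rw [← h1]; module
    have h3 := congrArg (fun X => (X * R s⁻¹).trace) h2
    simp only [smul_mul_assoc, hsinv, Matrix.trace_smul, Matrix.zero_mul, Matrix.trace_zero,
      Matrix.trace_one, Fintype.card_fin, smul_eq_mul] at h3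
    have h22 : IsUnit (2 : B) := by
      rw [← map_ofNat ψ 2]
      refine RingHom.isUnit_map ψ ?_
      rw [← residue_ne_zero_iff_isUnit, Ne, residue_eq_zero_iff, PadicInt.maximalIdeal_eq_span_p,
        Ideal.mem_span_singleton, ← Nat.cast_ofNat, ← PadicInt.norm_lt_one_iff_dvd,
        PadicInt.norm_natCast_lt_one_iff]
      exact fun h => hp2 ((Nat.prime_dvd_prime_iff_eq (Fact.out : p.Prime) Nat.prime_two).1 h)
    exact sub_eq_zero.1 (h22.mul_left_eq_zero.1 (by simpa using h3))
  have hDdet : D.det = 0 := by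
    have h1 := hdet s
    rw [← hc, det_fin_two] at h1
    have h2 := htrs
    rw [← trace_repMat, ← hR, Matrix.trace_fin_two] at h2
    rw [hD, det_fin_two]
    simp
    linear_combination h1 - c * h2
  have hDtr : IsUnit D.trace := by
    rw [hD, Matrix.trace_sub, Matrix.trace_smul, Matrix.trace_one, hR, trace_repMat, htrs,
      Fintype.card_fin, smul_eq_mul, show (1 + c - c * (2 : ℕ) : B) = -(c - 1) by push_cast; ring]
    exact hc1.neg
  -- `σ` normalises inertia, so it acts by a scalar on the image of `D`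
  have hs' : σ⁻¹ * s * σ ∈ A.inertiaSubgroupIn ℚ := by
    have h := Frobenius.inertiaSubgroupIn_conj hs σ⁻¹
    rwa [inv_inv, show σ⁻¹ • A = A from inv_smul_eq_iff.mpr
      (MulAction.mem_stabilizer_iff.mp hσ.mem_decompositionSubgroup).symm] at h
  have hconj : D * R σ * (R s - 1) = 0 := by
    have h1 : R s * R σ = R σ * R (σ⁻¹ * s * σ) := by
      rw [hR, ← map_mul, ← map_mul, show σ * (σ⁻¹ * s * σ) = s * σ by group]
    have h2 : (cyclo p (σ⁻¹ * s * σ) : ℤ_[p]) = cyclo p s := by
      rw [map_mul, map_mul, mul_right_comm, map_inv, inv_mul_cancel, one_mul]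
    have h3 := hkey _ hs' s hs
    rw [h2, ← hc] at h3
    rw [hD, show (R s - c • 1) * R σ = R σ * (R (σ⁻¹ * s * σ) - c • 1) by
      rw [sub_mul, mul_sub, h1, smul_mul_assoc, mul_smul_comm, Matrix.one_mul, Matrix.mul_one],
      Matrix.mul_assoc, h3, Matrix.mul_zero]
  obtain ⟨b₀, hb₀⟩ : ∃ b₀ : B, D * R σ = b₀ • D := by
    have h1 : (D * R σ).trace • D = -(c - 1) • (D * R σ) := by
      rw [← mul_mul_eq_trace_smul hDdet]
      have hD2 : D = (R s - 1) - (c - 1) • 1 := by rw [hD]; module
      rw [show D * R σ * D = D * R σ * ((R s - 1) - (c - 1) • 1) by rw [← hD2], Matrix.mul_sub,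
        hconj, zero_sub, mul_smul_comm, Matrix.mul_one, neg_smul]
    obtain ⟨u, hu⟩ := hc1.neg
    refine ⟨(↑u⁻¹ : B) * (D * R σ).trace, ?_⟩
    rw [mul_smul, h1, ← hu, smul_smul, Units.inv_mul, one_smul]
  have hsq : D * (R σ * R σ) = (b₀ * b₀) • D := by
    rw [← Matrix.mul_assoc, hb₀, smul_mul_assoc, hb₀, smul_smul]
  have e1 : b₀ * b₀ - a * b₀ + (p : B) = 0 := by
    refine eq_zero_of_smul_eq_zero hDtr ?_
    rw [← hcong s hs, ← hD, Matrix.mul_add, Matrix.mul_sub, hsq, mul_smul_comm, hb₀, mul_smul_comm,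
      Matrix.mul_one]
    module
  have e2 : b₀ * b₀ - ρ.trace σ * b₀ + v = 0 := by
    refine eq_zero_of_smul_eq_zero hDtr ?_
    have h1 : D * (R σ * R σ) = (ρ.trace σ * b₀ - v) • D := by
      rw [mul_self_fin_two, hR, trace_repMat, hdet, ← hv', ← hR, Matrix.mul_sub, mul_smul_comm,
        hb₀, mul_smul_comm, Matrix.mul_one]
      module
    rw [sub_add, sub_smul, ← h1, hsq, sub_self]
  -- the choice of the root
  set k := residue B
  have hbε : k b₀ = k ε := by
    have h1 := hline s hs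
    have e : (k.mapMatrix (R s - c • 1) * k.mapMatrix (R σ)) = k b₀ • k.mapMatrix (R s - c • 1) := by
      rw [← map_mul, ← hD, hb₀]
      ext i j; simp [k]
    have hm : ∀ (x : B) (g : Γℚ), k.mapMatrix (R g - x • 1) = residualMat ρ g - k x • 1 := by
      intro x g
      ext i j
      by_cases hij : i = j <;> simp [residualMat, hR, k, hij]
    rw [← hm c s, Matrix.mul_sub, mul_smul_comm, Matrix.mul_one] at h1
    rw [show residualMat ρ σ = k.mapMatrix (R σ) from rfl, e, ← sub_smul, hD.symm] at h1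
    have h2 := eq_zero_of_smul_eq_zero (D := k.mapMatrix D) ?_ h1
    · exact sub_eq_zero.1 h2
    · rw [show (k.mapMatrix D).trace = k D.trace by simp [Matrix.trace_fin_two]]
      exact hDtr.map k
  have hbα : b₀ = α := by
    have h1 : (b₀ - α) * (b₀ + α - ρ.trace σ) = 0 := by linear_combination e2 - hα
    refine sub_eq_zero.1 (IsUnit.mul_left_eq_zero ?_ |>.1 h1)
    rw [← residue_ne_zero_iff_isUnit]
    intro h
    have hkα : k α = k ε := by
      rw [← sub_eq_zero, ← map_sub, residue_eq_zero_iff]; exact hαε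
    have h2 := congrArg k hα
    have h3 := congrArg k hε
    rw [map_add, map_sub, map_pow, map_mul, hkα, map_zero] at h2
    rw [map_mul, map_one] at h3
    rw [map_sub, map_add, hbε, hkα] at h
    apply (residue_ne_zero_iff_isUnit _).2 hv
    rw [map_sub, map_one]
    linear_combination -(k ε) * h + h2 + h3
  subst hbα
  linear_combination (-β) * e1 + (b₀ - a) * hαβ

end FLTAgent.RT.AtP
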